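import Mathlib
import Fermat.Agent.Tate.NodeLine
import Fermat.Agent.S13.At2_helper2_NodePoint

set_option autoImplicit false

/-!
# (S13, AT 2) Integral lines through points near the node (any residue characteristic)

`LineData m₁ m₂ μ x₁ x₂ x₃`: the line `y = lam x + μ` (integral), `m₁ = lam - α`, `m₂ = lam - β`,
meets the curve in the points with (integral) abscissas `x₁, x₂, x₃` (Vieta).
Generalisation of `Tate/NodeLine.lean`.
-/

namespace Fermat.Agent.S13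

open Fermat.Agent.Tate

variable {K : Type*} [Field K] {A : ValuationSubring K}



namespace GNodeCtx

variable (C : GNodeCtx K A)

open Classical in
/-- the component of the point with abscissa `x` and `a = y - α x`, as a representative in
`[0, n)` of a class in `ℚ / nℤ` -/
noncomputable def depth (x a : K) : ℚ :=
  if x ∈ A.nonunits then
    if x = 0 ∨ C.n ≤ 2 * C.L.w x then C.n / 2
    else if a = 0 ∨ C.L.w x < C.L.w a then C.L.w x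
    else C.n - C.L.w x
  else 0

variable {C}

theorem depth_of_not_mem {x : K} (a : K) (h : x ∉ A.nonunits) : C.depth x a = 0 := by
  rw [depth, if_neg h]

theorem Mid.depth_eq {x a b : K} (h : C.Mid x a b) (hx : x ∈ A.nonunits) :
    C.depth x a = C.n / 2 := by
  rw [depth, if_pos hx, if_pos h.hx]

theorem Plus.depth_eq {x a b : K} (h : C.Plus x a b) (hx : x ∈ A.nonunits) :
    C.depth x a = C.L.w x := by
  have h1 : ¬ (x = 0 ∨ C.n ≤ 2 * C.L.w x) := by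
    rintro (h0 | h0)
    · exact h.hx0 h0
    · have := h.hx; linarith
  rw [depth, if_pos hx, if_neg h1, if_pos h.ha]

theorem Minus.depth_eq {x a b : K} (h : C.Minus x a b) (hx : x ∈ A.nonunits) :
    C.depth x a = C.n - C.L.w x := by
  have h1 : ¬ (x = 0 ∨ C.n ≤ 2 * C.L.w x) := by
    rintro (h0 | h0)
    · exact h.hx0 h0
    · have := h.hx; linarith
  have h2 : ¬ (a = 0 ∨ C.L.w x < C.L.w a) := by
    rintro (h0 | h0)
    · exact h.ha h0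
    · have := h.hwa; linarith
  rw [depth, if_pos hx, if_neg h1, if_neg h2]

theorem Mid.neg {x a b : K} (h : C.Mid x a b) : C.Mid x (-b) (-a) :=
  ⟨h.hx, neg_ne_zero.mpr h.hb, neg_ne_zero.mpr h.ha, by rw [C.L.map_neg]; exact h.hwb,
    by rw [C.L.map_neg]; exact h.hwa⟩

theorem Plus.neg {x a b : K} (h : C.Plus x a b) : C.Minus x (-b) (-a) :=
  ⟨h.hx0, h.hx, neg_ne_zero.mpr h.hb, by rw [C.L.map_neg]; exact h.hwb, by
    rcases h.ha with h0 | h0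
    · left; rw [h0, neg_zero]
    · right; rwa [C.L.map_neg]⟩

theorem Minus.neg {x a b : K} (h : C.Minus x a b) : C.Plus x (-b) (-a) :=
  ⟨h.hx0, h.hx, neg_ne_zero.mpr h.ha, by rw [C.L.map_neg]; exact h.hwa, by
    rcases h.hb with h0 | h0
    · left; rw [h0, neg_zero]
    · right; rwa [C.L.map_neg]⟩

theorem NearPt.neg {x a b : K} (h : C.NearPt x a b) : C.NearPt x (-b) (-a) :=
  ⟨h.hx, by rw [← h.hab]; ring, by rw [← h.hprod]; ring⟩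

/-- the depths of a point and of its negative add up to `n` -/
theorem NearPt.depth_add_depth_neg {x a b : K} (h : C.NearPt x a b) :
    C.depth x a + C.depth x (-b) = C.n := by
  rcases h.classify with hc | hc | hc
  · rw [hc.depth_eq h.hx, hc.neg.depth_eq h.hx]; ring
  · rw [hc.depth_eq h.hx, hc.neg.depth_eq h.hx]; ring
  · rw [hc.depth_eq h.hx, hc.neg.depth_eq h.hx]; ring

variable (C)

/-- an integral line meeting the curve in three integral points -/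
structure LineData (m₁ m₂ μ x₁ x₂ x₃ : K) : Prop where
  hm₁ : m₁ ∈ A
  hm₂ : m₂ ∈ A
  hγ : m₂ - m₁ = C.γ
  hμ : μ ∈ A
  hx₁ : x₁ ∈ A
  hx₂ : x₂ ∈ A
  hx₃ : x₃ ∈ A
  E1 : x₁ + x₂ + x₃ = m₁ * m₂
  E2 : x₁ * x₂ + x₁ * x₃ + x₂ * x₃ = C.a₄ - (m₁ + m₂) * μ
  E3 : x₁ * x₂ * x₃ = μ ^ 2 - C.a₆

variable {C}

namespace LineData

variable {m₁ m₂ μ x₁ x₂ x₃ : K}

theorem perm12 (h : C.LineData m₁ m₂ μ x₁ x₂ x₃) : C.LineData m₁ m₂ μ x₂ x₁ x₃ :=
  ⟨h.hm₁, h.hm₂, h.hγ, h.hμ, h.hx₂, h.hx₁, h.hx₃, by rw [← h.E1]; ring, by rw [← h.E2]; ring,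
    by rw [← h.E3]; ring⟩

theorem perm23 (h : C.LineData m₁ m₂ μ x₁ x₂ x₃) : C.LineData m₁ m₂ μ x₁ x₃ x₂ :=
  ⟨h.hm₁, h.hm₂, h.hγ, h.hμ, h.hx₁, h.hx₃, h.hx₂, by rw [← h.E1]; ring, by rw [← h.E2]; ring,
    by rw [← h.E3]; ring⟩

theorem perm13 (h : C.LineData m₁ m₂ μ x₁ x₂ x₃) : C.LineData m₁ m₂ μ x₃ x₂ x₁ :=
  ⟨h.hm₁, h.hm₂, h.hγ, h.hμ, h.hx₃, h.hx₂, h.hx₁, by rw [← h.E1]; ring, by rw [← h.E2]; ring,
    by rw [← h.E3]; ring⟩

theorem neg (h : C.LineData m₁ m₂ μ x₁ x₂ x₃) : C.LineData (-m₂) (-m₁) (-μ) x₁ x₂ x₃ :=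
  ⟨A.neg_mem _ h.hm₂, A.neg_mem _ h.hm₁, by rw [← h.hγ]; ring, A.neg_mem _ h.hμ, h.hx₁, h.hx₂,
    h.hx₃, by rw [h.E1]; ring, by rw [h.E2]; ring, by rw [h.E3]; ring⟩

theorem root₁ (h : C.LineData m₁ m₂ μ x₁ x₂ x₃) :
    (m₁ * x₁ + μ) * (m₂ * x₁ + μ) = C.R x₁ := by
  rw [R]
  linear_combination (-x₁ ^ 2) * h.E1 + x₁ * h.E2 - h.E3

theorem root₂ (h : C.LineData m₁ m₂ μ x₁ x₂ x₃) :
    (m₁ * x₂ + μ) * (m₂ * x₂ + μ) = C.R x₂ := h.perm12.root₁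

theorem root₃ (h : C.LineData m₁ m₂ μ x₁ x₂ x₃) :
    (m₁ * x₃ + μ) * (m₂ * x₃ + μ) = C.R x₃ := h.perm13.root₁

theorem nearPt₁ (h : C.LineData m₁ m₂ μ x₁ x₂ x₃) (hx : x₁ ∈ A.nonunits) :
    C.NearPt x₁ (m₁ * x₁ + μ) (m₂ * x₁ + μ) :=
  ⟨hx, by rw [← h.hγ]; ring, h.root₁⟩

theorem nearPt₂ (h : C.LineData m₁ m₂ μ x₁ x₂ x₃) (hx : x₂ ∈ A.nonunits) :
    C.NearPt x₂ (m₁ * x₂ + μ) (m₂ * x₂ + μ) := h.perm12.nearPt₁ hx

theorem nearPt₃ (h : C.LineData m₁ m₂ μ x₁ x₂ x₃) (hx : x₃ ∈ A.nonunits) :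
    C.NearPt x₃ (m₁ * x₃ + μ) (m₂ * x₃ + μ) := h.perm13.nearPt₁ hx

end LineData

end GNodeCtx

end Fermat.Agent.S13
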