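import Mathlib
import Fermat.Agent.S13.At2_helper2_NodeLine

set_option autoImplicit false

/-!
# (S13, AT 2) Case C2: the line is tangent to a branch at the node (`m₁ ∈ 𝔪`)

Generalisation of `Tate/NodeC2.lean` to arbitrary residue characteristic.
-/

namespace Fermat.Agent.S13

open Fermat.Agent.Tate

variable {K : Type*} [Field K] {A : ValuationSubring K}

namespace GNodeCtx

variable {C : GNodeCtx K A}

theorem a₆_mem : C.a₆ ∈ A.nonunits := C.L.mem_nonunits_of_pos (Or.inr C.a₆_pos)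

theorem a₄_ge : C.L.Ge C.n C.a₄ := C.a₄_le

theorem a₄_mem : C.a₄ ∈ A.nonunits :=
  LogVal.gt_zero_iff.mp (C.a₄_ge.gt_of_lt C.n_pos)

theorem R_mem {x : K} (hx : x ∈ A.nonunits) : C.R x ∈ A.nonunits := by
  rw [R]
  exact A.nonunits.add_mem (A.nonunits.add_mem (pow_mem_nonunits hx (by norm_num))
    (mul_mem_nonunits_left C.a₄_mem (A.nonunits_le hx))) C.a₆_mem

theorem unit_add {x y : K} (hx0 : x ≠ 0) (hx : C.L.w x = 0) (hy : y ∈ A.nonunits) :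
    x + y ≠ 0 ∧ C.L.w (x + y) = 0 := by
  have := C.L.map_add_of_gt hx0 (by rw [hx]; exact LogVal.gt_zero_iff.mpr hy)
  rw [hx] at this
  exact this

theorem unit_of_not_mem {x : K} (hx : x ∈ A) (hx' : x ∉ A.nonunits) :
    x ≠ 0 ∧ C.L.w x = 0 :=
  ⟨fun h => hx' (h ▸ A.nonunits.zero_mem), C.L.eq_zero_of_unit hx hx'⟩

/-- `S`-type root in case C2 -/
theorem c2_S {m₁ m₂ μ x : K} (hm₁ : m₁ ∈ A.nonunits) (hm₂0 : m₂ ≠ 0) (hm₂ : C.L.w m₂ = 0)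
    (hN : C.NearPt x (m₁ * x + μ) (m₂ * x + μ)) (hx0 : x ≠ 0) (hμx : C.L.Gt (C.L.w x) μ) :
    C.Plus x (m₁ * x + μ) (m₂ * x + μ) := by
  have ha : C.L.Gt (C.L.w x) (m₁ * x + μ) := by
    have h1 : C.L.Gt (0 + C.L.w x) (m₁ * x) :=
      (LogVal.gt_zero_iff.mpr hm₁).mul_ge (LogVal.ge_self x)
    rw [zero_add] at h1
    exact h1.add hμx
  have hm₂x : m₂ * x ≠ 0 := mul_ne_zero hm₂0 hx0
  have hwm₂x : C.L.w (m₂ * x) = C.L.w x := by rw [C.L.map_mul hm₂0 hx0, hm₂, zero_add]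
  have hb := C.L.map_add_of_gt hm₂x (by rw [hwm₂x]; exact hμx)
  rw [hwm₂x] at hb
  rcases hN.classify with hc | hc | hc
  · exfalso
    have h1 := ha.lt hc.ha
    have h2 := hc.hwa
    have h3 := hc.hwb
    have h4 := hb.2
    linarith
  · exact hc
  · exfalso
    have h1 := ha.lt hc.ha
    have h2 := hc.hwa
    linarith

/-- `T`-type root in case C2 -/
theorem c2_T {m₁ m₂ μ x : K} (hm₁ : m₁ ∈ A.nonunits)
    (hN : C.NearPt x (m₁ * x + μ) (m₂ * x + μ))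
    (hT : ¬ (x ≠ 0 ∧ C.L.Gt (C.L.w x) μ)) :
    μ ≠ 0 ∧ C.L.Ge (C.L.w μ) x ∧ C.depth x (m₁ * x + μ) = C.n - C.L.w μ := by
  have hμ0 : μ ≠ 0 := by
    rintro rfl
    have hx0 : x = 0 := by
      by_contra hx0
      exact hT ⟨hx0, LogVal.Gt.zero _⟩
    have := hN.hprod
    rw [hx0, R] at this
    simp at this
    exact C.a₆_ne this.symm
  have hge : C.L.Ge (C.L.w μ) x := by
    rcases eq_or_ne x 0 with rfl | hx0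
    · exact LogVal.Ge.zero _
    · right
      by_contra hlt
      push Not at hlt
      exact hT ⟨hx0, Or.inr hlt⟩
  refine ⟨hμ0, hge, ?_⟩
  have hm₁x : C.L.Gt (C.L.w μ) (m₁ * x) := by
    have h1 : C.L.Gt (0 + C.L.w μ) (m₁ * x) := (LogVal.gt_zero_iff.mpr hm₁).mul_ge hge
    rwa [zero_add] at h1
  have ha := C.L.map_add_of_gt' hμ0 hm₁x
  rcases hN.classify with hc | hc | hc
  · rw [hc.depth_eq hN.hx]
    have := hc.hwa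
    rw [ha.2] at this
    linarith
  · exfalso
    have h1 := hc.ha.resolve_left ha.1
    rw [ha.2] at h1
    have h2 := hge.le hc.hx0
    linarith
  · rw [hc.depth_eq hN.hx]
    have := hc.hwa
    rw [ha.2] at this
    linarith

section Arith

variable {m₁ m₂ μ x₁ x₂ x₃ : K}

/-- valuation of the right hand side of `E2` when `a₄` is negligible -/
theorem w_e2_rhs {κ : K} (hlam0 : κ ≠ 0) (hlam : C.L.w κ = 0) (hμ0 : μ ≠ 0)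
    (h4 : C.L.Gt (C.L.w μ) C.a₄) :
    C.a₄ - κ * μ ≠ 0 ∧ C.L.w (C.a₄ - κ * μ) = C.L.w μ := by
  have h1 : κ * μ ≠ 0 := mul_ne_zero hlam0 hμ0
  have h2 : C.L.w (κ * μ) = C.L.w μ := by
    rw [C.L.map_mul hlam0 hμ0, hlam]; ring
  have h3 : C.a₄ - κ * μ = -(κ * μ) + C.a₄ := by ring
  rw [h3]
  have := C.L.map_add_of_gt (neg_ne_zero.mpr h1) (by rw [C.L.map_neg, h2]; exact h4)
  rw [C.L.map_neg, h2] at this
  exact this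

theorem c2_SSS (h : C.LineData m₁ m₂ μ x₁ x₂ x₃) (hμ : μ ∈ A.nonunits)
    (hlam0 : m₁ + m₂ ≠ 0) (hlam : C.L.w (m₁ + m₂) = 0)
    (h₁ : x₁ ≠ 0) (h₂ : x₂ ≠ 0) (h₃ : x₃ ≠ 0)
    (g₁ : C.L.Gt (C.L.w x₁) μ) (g₂ : C.L.Gt (C.L.w x₂) μ) (g₃ : C.L.Gt (C.L.w x₃) μ) :
    C.L.w x₁ + C.L.w x₂ + C.L.w x₃ = C.n := by
  have hn := C.n_pos
  have hprod0 : x₁ * x₂ * x₃ ≠ 0 := mul_ne_zero (mul_ne_zero h₁ h₂) h₃
  have hprodw : C.L.w (x₁ * x₂ * x₃) = C.L.w x₁ + C.L.w x₂ + C.L.w x₃ := by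
    rw [C.L.map_mul (mul_ne_zero h₁ h₂) h₃, C.L.map_mul h₁ h₂]
  rcases eq_or_ne μ 0 with hμ0 | hμ0
  · have := h.E3
    rw [hμ0] at this
    have h2 : x₁ * x₂ * x₃ = -C.a₆ := by rw [this]; ring
    rw [← hprodw, h2, C.L.map_neg]; rfl
  have hm : 0 < C.L.w μ := C.L.pos_of_mem_nonunits hμ0 hμ
  have i₁ := g₁.lt hμ0
  have i₂ := g₂.lt hμ0
  have i₃ := g₃.lt hμ0
  have hμ2 : C.L.w (μ ^ 2) = 2 * C.L.w μ := by rw [C.L.map_pow hμ0]; norm_num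
  have hμ20 : μ ^ 2 ≠ 0 := pow_ne_zero 2 hμ0
  by_cases hcase : 2 * C.L.w μ ≤ C.n
  · exfalso
    -- `w e₃ ≥ 2 m`
    have hge : C.L.Ge (2 * C.L.w μ) (μ ^ 2 - C.a₆) := by
      apply LogVal.Ge.sub
      · exact LogVal.ge_of_ne (le_of_eq hμ2.symm)
      · exact LogVal.ge_of_ne hcase
    rw [← h.E3] at hge
    have hsum := hge.le hprod0
    rw [hprodw] at hsum
    -- all pairs are `> m`
    have p12 : C.L.Gt (C.L.w μ) (x₁ * x₂) := by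
      right; rw [C.L.map_mul h₁ h₂]; linarith
    have p13 : C.L.Gt (C.L.w μ) (x₁ * x₃) := by
      right; rw [C.L.map_mul h₁ h₃]; linarith
    have p23 : C.L.Gt (C.L.w μ) (x₂ * x₃) := by
      right; rw [C.L.map_mul h₂ h₃]; linarith
    have hE2 := (p12.add p13).add p23
    rw [h.E2] at hE2
    have h4 : C.L.Gt (C.L.w μ) C.a₄ := C.a₄_ge.gt_of_lt (by linarith)
    obtain ⟨hne, hw⟩ := w_e2_rhs hlam0 hlam hμ0 h4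
    have := hE2.lt hne
    linarith
  · push Not at hcase
    have h2 : μ ^ 2 - C.a₆ = -C.a₆ + μ ^ 2 := by ring
    have h3 := C.L.map_add_of_gt (neg_ne_zero.mpr C.a₆_ne)
      (by rw [C.L.map_neg]; right; rw [hμ2]; exact hcase : C.L.Gt (C.L.w (-C.a₆)) (μ ^ 2))
    rw [← h2, C.L.map_neg, ← h.E3, hprodw] at h3
    exact h3.2

theorem c2_SST (h : C.LineData m₁ m₂ μ x₁ x₂ x₃)
    (hlam0 : m₁ + m₂ ≠ 0) (hlam : C.L.w (m₁ + m₂) = 0)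
    (h₁ : x₁ ≠ 0) (h₂ : x₂ ≠ 0) (hμ0 : μ ≠ 0)
    (g₁ : C.L.w x₁ < C.L.w μ) (g₂ : C.L.w x₂ < C.L.w μ) (g₃ : C.L.Ge (C.L.w μ) x₃)
    (d₁ : 2 * C.L.w x₁ < C.n) (d₂ : 2 * C.L.w x₂ < C.n) :
    C.L.w x₁ + C.L.w x₂ = C.L.w μ := by
  have h12 : x₁ * x₂ ≠ 0 := mul_ne_zero h₁ h₂
  have hw12 : C.L.w (x₁ * x₂) = C.L.w x₁ + C.L.w x₂ := C.L.map_mul h₁ h₂
  have p13 : C.L.Gt (C.L.w (x₁ * x₂)) (x₁ * x₃) := by
    rw [hw12]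
    exact ((LogVal.ge_self x₁).mul g₃).gt_of_lt (by linarith)
  have p23 : C.L.Gt (C.L.w (x₁ * x₂)) (x₂ * x₃) := by
    rw [hw12]
    exact ((LogVal.ge_self x₂).mul g₃).gt_of_lt (by linarith)
  have hE := C.L.map_add_of_gt h12 (p13.add p23)
  have hE' : x₁ * x₂ + (x₁ * x₃ + x₂ * x₃) = C.a₄ - (m₁ + m₂) * μ := by rw [← h.E2]; ring
  rw [hE', hw12] at hE
  by_cases h4 : C.L.Gt (C.L.w μ) C.a₄
  · obtain ⟨_, hw⟩ := w_e2_rhs hlam0 hlam hμ0 h4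
    rw [hw] at hE
    exact hE.2.symm
  · exfalso
    have h40 : C.a₄ ≠ 0 := fun h0 => h4 (Or.inl h0)
    have h4w : C.L.w C.a₄ ≤ C.L.w μ := by
      by_contra hlt
      push Not at hlt
      exact h4 (Or.inr hlt)
    have hn4 : C.n ≤ C.L.w C.a₄ := C.a₄_ge.le h40
    have hge : C.L.Ge C.n (C.a₄ - (m₁ + m₂) * μ) := by
      apply LogVal.Ge.sub C.a₄_ge
      right
      rw [C.L.map_mul hlam0 hμ0, hlam]
      linarith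
    have := hge.le hE.1
    rw [hE.2] at this
    linarith

theorem c2_pairs_false (h : C.LineData m₁ m₂ μ x₁ x₂ x₃) (hμ : μ ∈ A.nonunits)
    (hlam0 : m₁ + m₂ ≠ 0) (hlam : C.L.w (m₁ + m₂) = 0) (hμ0 : μ ≠ 0)
    (p12 : C.L.Gt (C.L.w μ) (x₁ * x₂)) (p13 : C.L.Gt (C.L.w μ) (x₁ * x₃))
    (p23 : C.L.Gt (C.L.w μ) (x₂ * x₃))
    (g₂ : C.L.Ge (C.L.w μ) x₂) (g₃ : C.L.Ge (C.L.w μ) x₃)
    (hx₁ : x₁ = 0 ∨ 0 < C.L.w x₁) : False := by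
  have hn := C.n_pos
  have hm : 0 < C.L.w μ := C.L.pos_of_mem_nonunits hμ0 hμ
  have hE2 := (p12.add p13).add p23
  rw [h.E2] at hE2
  have h4 : ¬ C.L.Gt (C.L.w μ) C.a₄ := by
    intro h4
    obtain ⟨hne, hw⟩ := w_e2_rhs hlam0 hlam hμ0 h4
    have := hE2.lt hne
    linarith
  have h40 : C.a₄ ≠ 0 := fun h0 => h4 (Or.inl h0)
  have h4w : C.L.w C.a₄ ≤ C.L.w μ := by
    by_contra hlt
    push Not at hlt
    exact h4 (Or.inr hlt)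
  have hn4 : C.n ≤ C.L.w C.a₄ := C.a₄_ge.le h40
  -- now `n ≤ m`, so `w e₃ = n`
  have hμ2 : C.L.w (μ ^ 2) = 2 * C.L.w μ := by rw [C.L.map_pow hμ0]; norm_num
  have h2 : μ ^ 2 - C.a₆ = -C.a₆ + μ ^ 2 := by ring
  have h3 := C.L.map_add_of_gt (neg_ne_zero.mpr C.a₆_ne)
    (by rw [C.L.map_neg]; right; rw [hμ2]; show C.n < _; linarith :
      C.L.Gt (C.L.w (-C.a₆)) (μ ^ 2))
  rw [← h2, C.L.map_neg, ← h.E3] at h3
  obtain ⟨hprod0, hprodw⟩ := h3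
  have h₁ : x₁ ≠ 0 := left_ne_zero_of_mul (left_ne_zero_of_mul hprod0)
  have h₂ : x₂ ≠ 0 := right_ne_zero_of_mul (left_ne_zero_of_mul hprod0)
  have h₃ : x₃ ≠ 0 := right_ne_zero_of_mul hprod0
  rw [C.L.map_mul (mul_ne_zero h₁ h₂) h₃, C.L.map_mul h₁ h₂] at hprodw
  have := g₂.le h₂
  have := g₃.le h₃
  have := hx₁.resolve_left h₁
  have : C.L.w C.a₆ = C.n := rfl
  linarith

/-- in case C2 all three points are near the node -/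
theorem c2_near (h : C.LineData m₁ m₂ μ x₁ x₂ x₃) (hμ : μ ∈ A.nonunits)
    (hm₁ : m₁ ∈ A.nonunits) : x₁ ∈ A.nonunits := by
  have hm₂ : m₂ ∈ A := h.hm₂
  have e1 : m₁ * m₂ ∈ A.nonunits := mul_mem_nonunits_left hm₁ hm₂
  have e2 : C.a₄ - (m₁ + m₂) * μ ∈ A.nonunits :=
    A.nonunits.sub_mem C.a₄_mem (mul_mem_nonunits_right
      (A.add_mem _ _ h.hm₁ h.hm₂) hμ)
  have e3 : μ ^ 2 - C.a₆ ∈ A.nonunits :=
    A.nonunits.sub_mem (pow_mem_nonunits hμ (by norm_num)) C.a₆_mem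
  have hid : x₁ ^ 3 = m₁ * m₂ * x₁ ^ 2 - (C.a₄ - (m₁ + m₂) * μ) * x₁
      + (μ ^ 2 - C.a₆) := by
    rw [← h.E1, ← h.E2, ← h.E3]; ring
  have : x₁ ^ 3 ∈ A.nonunits := by
    rw [hid]
    exact A.nonunits.add_mem (A.nonunits.sub_mem
      (mul_mem_nonunits_left e1 (A.pow_mem h.hx₁ 2)) (mul_mem_nonunits_left e2 h.hx₁)) e3
  exact mem_nonunits_of_pow_mem this

theorem c2_main (h : C.LineData m₁ m₂ μ x₁ x₂ x₃) (hμ : μ ∈ A.nonunits)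
    (hm₁ : m₁ ∈ A.nonunits) :
    C.depth x₁ (m₁ * x₁ + μ) + C.depth x₂ (m₁ * x₂ + μ)
      + C.depth x₃ (m₁ * x₃ + μ) = C.n := by
  have hn := C.n_pos
  -- units
  obtain ⟨hm₂0, hm₂⟩ : m₂ ≠ 0 ∧ C.L.w m₂ = 0 := by
    have := unit_add C.γ_ne C.γ_unit hm₁
    have e : C.γ + m₁ = m₂ := by rw [← h.hγ]; ring
    rwa [e] at this
  obtain ⟨hlam0, hlam⟩ : m₁ + m₂ ≠ 0 ∧ C.L.w (m₁ + m₂) = 0 := by
    have := unit_add hm₂0 hm₂ hm₁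
    rwa [add_comm] at this
  have n₁ := c2_near h hμ hm₁
  have n₂ := c2_near h.perm12 hμ hm₁
  have n₃ := c2_near h.perm13 hμ hm₁
  have N₁ := h.nearPt₁ n₁
  have N₂ := h.nearPt₂ n₂
  have N₃ := h.nearPt₃ n₃
  have pos : ∀ {x : K}, x ∈ A.nonunits → x ≠ 0 → 0 < C.L.w x := fun hx hx0 =>
    C.L.pos_of_mem_nonunits hx0 hx
  by_cases S₁ : x₁ ≠ 0 ∧ C.L.Gt (C.L.w x₁) μ <;> by_cases S₂ : x₂ ≠ 0 ∧ C.L.Gt (C.L.w x₂) μ <;>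
    by_cases S₃ : x₃ ≠ 0 ∧ C.L.Gt (C.L.w x₃) μ
  · -- SSS
    have P₁ := c2_S hm₁ hm₂0 hm₂ N₁ S₁.1 S₁.2
    have P₂ := c2_S hm₁ hm₂0 hm₂ N₂ S₂.1 S₂.2
    have P₃ := c2_S hm₁ hm₂0 hm₂ N₃ S₃.1 S₃.2
    rw [P₁.depth_eq n₁, P₂.depth_eq n₂, P₃.depth_eq n₃]
    exact c2_SSS h hμ hlam0 hlam S₁.1 S₂.1 S₃.1 S₁.2 S₂.2 S₃.2
  · -- SST
    have P₁ := c2_S hm₁ hm₂0 hm₂ N₁ S₁.1 S₁.2
    have P₂ := c2_S hm₁ hm₂0 hm₂ N₂ S₂.1 S₂.2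
    obtain ⟨hμ0, g₃, d₃⟩ := c2_T hm₁ N₃ S₃
    rw [P₁.depth_eq n₁, P₂.depth_eq n₂, d₃]
    have := c2_SST h hlam0 hlam S₁.1 S₂.1 hμ0 (S₁.2.lt hμ0) (S₂.2.lt hμ0) g₃ P₁.hx P₂.hx
    linarith
  · -- STS
    have P₁ := c2_S hm₁ hm₂0 hm₂ N₁ S₁.1 S₁.2
    have P₃ := c2_S hm₁ hm₂0 hm₂ N₃ S₃.1 S₃.2
    obtain ⟨hμ0, g₂, d₂⟩ := c2_T hm₁ N₂ S₂
    rw [P₁.depth_eq n₁, P₃.depth_eq n₃, d₂]
    have := c2_SST h.perm23 hlam0 hlam S₁.1 S₃.1 hμ0 (S₁.2.lt hμ0) (S₃.2.lt hμ0) g₂ P₁.hx P₃.hx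
    linarith
  · -- STT
    exfalso
    obtain ⟨hμ0, g₂, d₂⟩ := c2_T hm₁ N₂ S₂
    obtain ⟨_, g₃, d₃⟩ := c2_T hm₁ N₃ S₃
    have hm := pos hμ hμ0
    have i₁ := pos n₁ S₁.1
    refine c2_pairs_false h hμ hlam0 hlam hμ0 ?_ ?_ ?_ g₂ g₃ (Or.inr i₁)
    · exact ((LogVal.ge_self x₁).mul g₂).gt_of_lt (by linarith)
    · exact ((LogVal.ge_self x₁).mul g₃).gt_of_lt (by linarith)
    · exact (g₂.mul g₃).gt_of_lt (by linarith)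
  · -- TSS
    have P₂ := c2_S hm₁ hm₂0 hm₂ N₂ S₂.1 S₂.2
    have P₃ := c2_S hm₁ hm₂0 hm₂ N₃ S₃.1 S₃.2
    obtain ⟨hμ0, g₁, d₁⟩ := c2_T hm₁ N₁ S₁
    rw [P₂.depth_eq n₂, P₃.depth_eq n₃, d₁]
    have := c2_SST h.perm13 hlam0 hlam S₃.1 S₂.1 hμ0 (S₃.2.lt hμ0) (S₂.2.lt hμ0) g₁ P₃.hx P₂.hx
    linarith
  · -- TST
    exfalso
    obtain ⟨hμ0, g₁, d₁⟩ := c2_T hm₁ N₁ S₁
    obtain ⟨_, g₃, d₃⟩ := c2_T hm₁ N₃ S₃
    have hm := pos hμ hμ0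
    have i₂ := pos n₂ S₂.1
    refine c2_pairs_false h.perm12 hμ hlam0 hlam hμ0 ?_ ?_ ?_ g₁ g₃ (Or.inr i₂)
    · exact ((LogVal.ge_self x₂).mul g₁).gt_of_lt (by linarith)
    · exact ((LogVal.ge_self x₂).mul g₃).gt_of_lt (by linarith)
    · exact (g₁.mul g₃).gt_of_lt (by linarith)
  · -- TTS
    exfalso
    obtain ⟨hμ0, g₁, d₁⟩ := c2_T hm₁ N₁ S₁
    obtain ⟨_, g₂, d₂⟩ := c2_T hm₁ N₂ S₂
    have hm := pos hμ hμ0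
    have i₃ := pos n₃ S₃.1
    refine c2_pairs_false h.perm13 hμ hlam0 hlam hμ0 ?_ ?_ ?_ g₂ g₁ (Or.inr i₃)
    · exact ((LogVal.ge_self x₃).mul g₂).gt_of_lt (by linarith)
    · exact ((LogVal.ge_self x₃).mul g₁).gt_of_lt (by linarith)
    · exact (g₂.mul g₁).gt_of_lt (by linarith)
  · -- TTT
    exfalso
    obtain ⟨hμ0, g₁, d₁⟩ := c2_T hm₁ N₁ S₁
    obtain ⟨_, g₂, d₂⟩ := c2_T hm₁ N₂ S₂
    obtain ⟨_, g₃, d₃⟩ := c2_T hm₁ N₃ S₃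
    have hm := pos hμ hμ0
    have hx₁ : x₁ = 0 ∨ 0 < C.L.w x₁ := by
      rcases eq_or_ne x₁ 0 with h0 | h0
      · exact Or.inl h0
      · exact Or.inr (pos n₁ h0)
    refine c2_pairs_false h hμ hlam0 hlam hμ0 ?_ ?_ ?_ g₂ g₃ hx₁
    · exact (g₁.mul g₂).gt_of_lt (by linarith)
    · exact (g₁.mul g₃).gt_of_lt (by linarith)
    · exact (g₂.mul g₃).gt_of_lt (by linarith)

end Arith

end GNodeCtx

end Fermat.Agent.S13
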