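import Mathlib
import Fermat.Agent.S13.At2_helper2_NodeC2

set_option autoImplicit false

/-!
# (S13, AT 2) Cases C0, C1 and the final additivity statement `LineData.depth_sum`

Generalisation of `Tate/NodeSum.lean` to arbitrary residue characteristic.
-/

namespace Fermat.Agent.S13

open Fermat.Agent.Tate

variable {K : Type*} [Field K] {A : ValuationSubring K}

namespace GNodeCtx

variable {C : GNodeCtx K A}

theorem c1_plus {m₁ m₂ μ x : K} (hm₁0 : m₁ ≠ 0) (hm₁ : C.L.w m₁ = 0)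
    (hP : C.Plus x (m₁ * x + μ) (m₂ * x + μ)) : μ ≠ 0 ∧ C.L.w μ = C.L.w x := by
  have h1 : m₁ * x ≠ 0 := mul_ne_zero hm₁0 hP.hx0
  have h2 : C.L.w (m₁ * x) = C.L.w x := by rw [C.L.map_mul hm₁0 hP.hx0, hm₁, zero_add]
  have := C.L.w_eq_of_add_gt h1 (by rw [h2]; exact hP.ha)
  rwa [h2] at this

theorem c1_minus {m₁ m₂ μ x : K} (hm₂0 : m₂ ≠ 0) (hm₂ : C.L.w m₂ = 0)
    (hM : C.Minus x (m₁ * x + μ) (m₂ * x + μ)) : μ ≠ 0 ∧ C.L.w μ = C.L.w x := by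
  have h1 : m₂ * x ≠ 0 := mul_ne_zero hm₂0 hM.hx0
  have h2 : C.L.w (m₂ * x) = C.L.w x := by rw [C.L.map_mul hm₂0 hM.hx0, hm₂, zero_add]
  have := C.L.w_eq_of_add_gt h1 (by rw [h2]; exact hM.hb)
  rwa [h2] at this

theorem c1_mid {m₁ m₂ μ x : K} (hm₁ : m₁ ∈ A)
    (hM : C.Mid x (m₁ * x + μ) (m₂ * x + μ)) : C.L.Ge (C.n / 2) μ := by
  have h1 : C.L.Ge (C.n / 2) (m₁ * x + μ) := LogVal.ge_of_ne (le_of_eq hM.hwa.symm)
  have hx : C.L.Ge (C.n / 2) x := by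
    rcases hM.hx with h0 | h0
    · exact Or.inl h0
    · right; linarith
  have h2 : C.L.Ge (0 + C.n / 2) (m₁ * x) := (LogVal.ge_zero_iff.mpr hm₁).mul hx
  rw [zero_add] at h2
  have := h1.sub h2
  rwa [add_sub_cancel_left] at this

/-- two points on the same branch at the same depth cannot lie on an integral line with a third
point away from the node -/
theorem c1_same_false {m m' μ x₁ x₂ x₃ : K} (hm0 : m ≠ 0) (hm : C.L.w m = 0)
    (hd0 : m - m' ≠ 0) (hd : C.L.w (m - m') = 0)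
    (E1 : x₁ + x₂ + x₃ = m * m') (E3 : x₁ * x₂ * x₃ = μ ^ 2 - C.a₆)
    (hx₃ : x₃ ∈ A) (hx₁ : x₁ ∈ A.nonunits) (hx₂ : x₂ ∈ A.nonunits) (hμ0 : μ ≠ 0)
    (h2m : 2 * C.L.w μ < C.n)
    (s₁ : C.L.Gt (C.L.w μ) (m * x₁ + μ)) (s₂ : C.L.Gt (C.L.w μ) (m * x₂ + μ)) : False := by
  have hid : μ ^ 2 * (m ^ 2 - x₃) = m ^ 2 * C.a₆ + x₃ * ((m * x₁ + μ) * (m * x₂ + μ))
      - x₃ * μ * ((m * x₁ + μ) + (m * x₂ + μ)) := by
    linear_combination (-m ^ 2) * E3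
  have g3 : C.L.Ge 0 x₃ := LogVal.ge_zero_iff.mpr hx₃
  have t1 : C.L.Gt (2 * C.L.w μ) (m ^ 2 * C.a₆) := by
    right
    rw [C.L.map_mul (pow_ne_zero 2 hm0) C.a₆_ne, C.L.map_pow hm0, hm]
    show 2 * C.L.w μ < _ + C.n
    simp only [Nat.cast_ofNat, mul_zero, zero_add]
    exact h2m
  have t2 : C.L.Gt (2 * C.L.w μ) (x₃ * ((m * x₁ + μ) * (m * x₂ + μ))) := by
    have := g3.mul_gt (s₁.mul_ge s₂.ge)
    refine this.mono (by linarith)
  have t3 : C.L.Gt (2 * C.L.w μ) (x₃ * μ * ((m * x₁ + μ) + (m * x₂ + μ))) := by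
    have := (g3.mul (LogVal.ge_self μ)).mul_gt (s₁.add s₂)
    refine this.mono (by linarith)
  have hsmall : C.L.Gt (2 * C.L.w μ) (μ ^ 2 * (m ^ 2 - x₃)) := by
    rw [hid]; exact (t1.add t2).sub t3
  have hmem : m ^ 2 - x₃ ∈ A.nonunits := by
    apply C.L.mem_nonunits_of_pos
    rcases eq_or_ne (m ^ 2 - x₃) 0 with h0 | h0
    · exact Or.inl h0
    right
    have h1 := hsmall.lt (mul_ne_zero (pow_ne_zero 2 hμ0) h0)
    rw [C.L.map_mul (pow_ne_zero 2 hμ0) h0, C.L.map_pow hμ0] at h1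
    push_cast at h1
    linarith
  have hmm : m * (m - m') ∈ A.nonunits := by
    have e : m * (m - m') = (m ^ 2 - x₃) - x₁ - x₂ := by linear_combination E1
    rw [e]
    exact A.nonunits.sub_mem (A.nonunits.sub_mem hmem hx₁) hx₂
  have := C.L.pos_of_mem_nonunits (mul_ne_zero hm0 hd0) hmm
  rw [C.L.map_mul hm0 hd0, hm, hd] at this
  linarith

section Line

variable {m₁ m₂ μ x₁ x₂ x₃ : K}

/-- case C0: no point near the node -/
theorem c0_not_near (h : C.LineData m₁ m₂ μ x₁ x₂ x₃) (hμ : μ ∉ A.nonunits) :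
    x₁ ∉ A.nonunits := by
  intro hx
  have hm₁ : m₁ ∈ A := h.hm₁
  have hm₂ : m₂ ∈ A := h.hm₂
  have ha : m₁ * x₁ + μ ∉ A.nonunits := by
    rw [add_comm]; exact add_not_mem_nonunits hμ (mul_mem_nonunits_right hm₁ hx)
  have hb : m₂ * x₁ + μ ∉ A.nonunits := by
    rw [add_comm]; exact add_not_mem_nonunits hμ (mul_mem_nonunits_right hm₂ hx)
  have haA : m₁ * x₁ + μ ∈ A := A.add_mem _ _ (A.mul_mem _ _ hm₁ h.hx₁) h.hμ
  have hbA : m₂ * x₁ + μ ∈ A := A.add_mem _ _ (A.mul_mem _ _ hm₂ h.hx₁) h.hμ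
  have hprod := R_mem (C := C) hx
  rw [← h.root₁] at hprod
  rcases mem_nonunits_of_mul_mem haA hbA hprod with h1 | h1
  · exact ha h1
  · exact hb h1

/-- case C1 with the points `1, 2` near the node -/
theorem c1_main (h : C.LineData m₁ m₂ μ x₁ x₂ x₃)
    (hm₁ : m₁ ∉ A.nonunits) (hm₂ : m₂ ∉ A.nonunits)
    (n₁ : x₁ ∈ A.nonunits) (n₂ : x₂ ∈ A.nonunits) (n₃ : x₃ ∉ A.nonunits) :
    C.depth x₁ (m₁ * x₁ + μ) + C.depth x₂ (m₁ * x₂ + μ)
      + C.depth x₃ (m₁ * x₃ + μ) = C.n := by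
  have hn := C.n_pos
  have hm₁A : m₁ ∈ A := h.hm₁
  have hm₂A : m₂ ∈ A := h.hm₂
  obtain ⟨hm₁0, hwm₁⟩ := unit_of_not_mem (C := C) hm₁A hm₁
  obtain ⟨hm₂0, hwm₂⟩ := unit_of_not_mem (C := C) hm₂A hm₂
  have hd12 : m₁ - m₂ = -C.γ := by rw [← h.hγ]; ring
  have hd21 : m₂ - m₁ = C.γ := h.hγ
  have N₁ := h.nearPt₁ n₁
  have N₂ := h.nearPt₂ n₂
  rw [depth_of_not_mem _ n₃, add_zero]
  have E1' : x₁ + x₂ + x₃ = m₂ * m₁ := by rw [h.E1]; ring
  rcases N₁.classify with c₁ | c₁ | c₁ <;> rcases N₂.classify with c₂ | c₂ | c₂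
  · rw [c₁.depth_eq n₁, c₂.depth_eq n₂]; ring
  · exfalso
    have g := (c1_mid hm₁A c₁)
    obtain ⟨hμ0, hw⟩ := c1_plus hm₁0 hwm₁ c₂
    have := g.le hμ0
    have := c₂.hx
    linarith
  · exfalso
    have g := (c1_mid hm₁A c₁)
    obtain ⟨hμ0, hw⟩ := c1_minus hm₂0 hwm₂ c₂
    have := g.le hμ0
    have := c₂.hx
    linarith
  · exfalso
    have g := (c1_mid hm₁A c₂)
    obtain ⟨hμ0, hw⟩ := c1_plus hm₁0 hwm₁ c₁
    have := g.le hμ0
    have := c₁.hx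
    linarith
  · -- plus, plus
    exfalso
    obtain ⟨hμ0, hw₁⟩ := c1_plus hm₁0 hwm₁ c₁
    obtain ⟨_, hw₂⟩ := c1_plus hm₁0 hwm₁ c₂
    refine c1_same_false (C := C) hm₁0 hwm₁ (by rw [hd12]; exact neg_ne_zero.mpr C.γ_ne)
      (by rw [hd12, C.L.map_neg]; exact C.γ_unit) h.E1 h.E3 h.hx₃ n₁ n₂ hμ0
      (by rw [hw₁]; exact c₁.hx) ?_ ?_
    · rw [hw₁]; exact c₁.ha
    · rw [hw₂]; exact c₂.ha
  · -- plus, minus
    obtain ⟨hμ0, hw₁⟩ := c1_plus hm₁0 hwm₁ c₁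
    obtain ⟨_, hw₂⟩ := c1_minus hm₂0 hwm₂ c₂
    rw [c₁.depth_eq n₁, c₂.depth_eq n₂]
    linarith
  · exfalso
    have g := (c1_mid hm₁A c₂)
    obtain ⟨hμ0, hw⟩ := c1_minus hm₂0 hwm₂ c₁
    have := g.le hμ0
    have := c₁.hx
    linarith
  · -- minus, plus
    obtain ⟨hμ0, hw₁⟩ := c1_minus hm₂0 hwm₂ c₁
    obtain ⟨_, hw₂⟩ := c1_plus hm₁0 hwm₁ c₂
    rw [c₁.depth_eq n₁, c₂.depth_eq n₂]
    linarith
  · -- minus, minus
    exfalso
    obtain ⟨hμ0, hw₁⟩ := c1_minus hm₂0 hwm₂ c₁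
    obtain ⟨_, hw₂⟩ := c1_minus hm₂0 hwm₂ c₂
    refine c1_same_false (C := C) hm₂0 hwm₂ (by rw [hd21]; exact C.γ_ne)
      (by rw [hd21]; exact C.γ_unit) E1' h.E3 h.hx₃ n₁ n₂ hμ0
      (by rw [hw₁]; exact c₁.hx) ?_ ?_
    · rw [hw₁]; exact c₁.hb
    · rw [hw₂]; exact c₂.hb

/-- **Additivity of the component class** on integral lines. -/
theorem LineData.depth_sum (h : C.LineData m₁ m₂ μ x₁ x₂ x₃) :
    ∃ k : ℤ, C.depth x₁ (m₁ * x₁ + μ) + C.depth x₂ (m₁ * x₂ + μ)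
      + C.depth x₃ (m₁ * x₃ + μ) = k * C.n := by
  by_cases hμ : μ ∈ A.nonunits
  swap
  · -- C0
    refine ⟨0, ?_⟩
    rw [depth_of_not_mem _ (c0_not_near h hμ), depth_of_not_mem _ (c0_not_near h.perm12 hμ),
      depth_of_not_mem _ (c0_not_near h.perm13 hμ)]
    simp
  by_cases hm₁ : m₁ ∈ A.nonunits
  · exact ⟨1, by rw [c2_main h hμ hm₁]; simp⟩
  by_cases hm₂ : m₂ ∈ A.nonunits
  · -- C2' by symmetry
    refine ⟨2, ?_⟩
    have hneg := h.neg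
    have hμ' : -μ ∈ A.nonunits := A.nonunits.neg_mem hμ
    have hm' : -m₂ ∈ A.nonunits := A.nonunits.neg_mem hm₂
    have key := c2_main hneg hμ' hm'
    have n₁ := c2_near hneg hμ' hm'
    have n₂ := c2_near hneg.perm12 hμ' hm'
    have n₃ := c2_near hneg.perm13 hμ' hm'
    have e : ∀ x : K, (-m₂) * x + -μ = -(m₂ * x + μ) := fun x => by ring
    rw [e, e, e] at key
    have d₁ := (h.nearPt₁ n₁).depth_add_depth_neg
    have d₂ := (h.nearPt₂ n₂).depth_add_depth_neg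
    have d₃ := (h.nearPt₃ n₃).depth_add_depth_neg
    push_cast
    linarith
  · -- C1
    refine ⟨1, ?_⟩
    rw [Int.cast_one, one_mul]
    -- which of the points are near the node?
    have hm₁A : m₁ ∈ A := h.hm₁
    have hm₂A : m₂ ∈ A := h.hm₂
    have e1 : m₁ * m₂ ∉ A.nonunits := by
      intro hc
      rcases mem_nonunits_of_mul_mem hm₁A hm₂A hc with h1 | h1
      · exact hm₁ h1
      · exact hm₂ h1
    have e2 : C.a₄ - (m₁ + m₂) * μ ∈ A.nonunits :=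
      A.nonunits.sub_mem a₄_mem (mul_mem_nonunits_right (A.add_mem _ _ hm₁A hm₂A) hμ)
    have e3 : μ ^ 2 - C.a₆ ∈ A.nonunits :=
      A.nonunits.sub_mem (pow_mem_nonunits hμ (by norm_num)) a₆_mem
    rw [← h.E1] at e1
    rw [← h.E2] at e2
    rw [← h.E3] at e3
    by_cases n₁ : x₁ ∈ A.nonunits <;> by_cases n₂ : x₂ ∈ A.nonunits <;>
      by_cases n₃ : x₃ ∈ A.nonunits
    · exact absurd (A.nonunits.add_mem (A.nonunits.add_mem n₁ n₂) n₃) e1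
    · exact c1_main h hm₁ hm₂ n₁ n₂ n₃
    · have := c1_main h.perm23 hm₁ hm₂ n₁ n₃ n₂
      linarith
    · -- only `x₁` near: `e₂ ≡ x₂ x₃` is a unit
      exfalso
      have h1 : x₂ * x₃ ∈ A.nonunits := by
        have e : x₂ * x₃ = (x₁ * x₂ + x₁ * x₃ + x₂ * x₃) - x₁ * (x₂ + x₃) := by ring
        rw [e]
        exact A.nonunits.sub_mem e2 (mul_mem_nonunits_left n₁ (A.add_mem _ _ h.hx₂ h.hx₃))
      rcases mem_nonunits_of_mul_mem h.hx₂ h.hx₃ h1 with h2 | h2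
      · exact n₂ h2
      · exact n₃ h2
    · have := c1_main h.perm13 hm₁ hm₂ n₃ n₂ n₁
      linarith
    · exfalso
      have h1 : x₁ * x₃ ∈ A.nonunits := by
        have e : x₁ * x₃ = (x₁ * x₂ + x₁ * x₃ + x₂ * x₃) - x₂ * (x₁ + x₃) := by ring
        rw [e]
        exact A.nonunits.sub_mem e2 (mul_mem_nonunits_left n₂ (A.add_mem _ _ h.hx₁ h.hx₃))
      rcases mem_nonunits_of_mul_mem h.hx₁ h.hx₃ h1 with h2 | h2
      · exact n₁ h2
      · exact n₃ h2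
    · exfalso
      have h1 : x₁ * x₂ ∈ A.nonunits := by
        have e : x₁ * x₂ = (x₁ * x₂ + x₁ * x₃ + x₂ * x₃) - x₃ * (x₁ + x₂) := by ring
        rw [e]
        exact A.nonunits.sub_mem e2 (mul_mem_nonunits_left n₃ (A.add_mem _ _ h.hx₁ h.hx₂))
      rcases mem_nonunits_of_mul_mem h.hx₁ h.hx₂ h1 with h2 | h2
      · exact n₁ h2
      · exact n₂ h2
    · -- none near: the product is a unit
      exfalso
      rcases mem_nonunits_of_mul_mem (A.mul_mem _ _ h.hx₁ h.hx₂) h.hx₃ e3 with h1 | h1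
      · rcases mem_nonunits_of_mul_mem h.hx₁ h.hx₂ h1 with h2 | h2
        · exact n₁ h2
        · exact n₂ h2
      · exact n₃ h1

end Line

end GNodeCtx

end Fermat.Agent.S13
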