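import Mathlib
import Fermat.Agent.S13.At2_helper2_NodeSum
import Fermat.Agent.Tate.NodeTorsion
import Fermat.Agent.Tate.Chord

set_option autoImplicit false
set_option linter.unusedSectionVars false

/-!
# (S13, AT 2) The component class on Mathlib points of a nodal model, any residue characteristic

`W : y² + a₁ x y = x³ + a₂ x² + a₄ x + a₆` with `T² + a₁ T - a₂ = (T - α)(T - β)`, `α - β = γ`
(`GNodeCtx.IsModel`).  `depthPt` is additive modulo `n` on integral points (`depthPt_add`), a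
`p`-torsion point near the node has `p · w(x) ∈ n ℤ` (`torsion_near_node`), an integral point
away from the node has nonsingular reduction (`not_partials_mem`).
Generalisation of `Tate/NodeTorsion.lean`.
-/

namespace Fermat.Agent.S13

open Fermat.Agent.Tate
open WeierstrassCurve WeierstrassCurve.Affine Polynomial

variable {K : Type*} [Field K] [DecidableEq K] {A : ValuationSubring K}

namespace GNodeCtx

variable (C : GNodeCtx K A)

/-- `W` is the nodal model with the parameters of `C` and tangent slopes `α`, `β` -/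
structure IsModel (W : Affine K) (α β : K) : Prop where
  hα : α ∈ A
  hβ : β ∈ A
  hγ : α - β = C.γ
  a₁ : W.a₁ = -(α + β)
  a₂ : W.a₂ = -(α * β)
  a₃ : W.a₃ = 0
  a₄ : W.a₄ = C.a₄
  a₆ : W.a₆ = C.a₆

/-- the component class of a point -/
noncomputable def depthPt (α : K) {W : Affine K} : W.Point → ℚ
  | .zero => 0
  | .some x y _ => C.depth x (y - α * x)

@[simp] theorem depthPt_zero (α : K) {W : Affine K} : C.depthPt α (0 : W.Point) = 0 := rfl

@[simp] theorem depthPt_some (α : K) {W : Affine K} {x y : K} (h : W.Nonsingular x y) :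
    C.depthPt α (Point.some x y h) = C.depth x (y - α * x) := rfl

variable {C}

/-- the depth lies in `[0, n)` and vanishes exactly away from the node -/
theorem depth_pos_of_mem {x : K} (a : K) (hx : x ∈ A.nonunits) :
    0 < C.depth x a ∧ C.depth x a < C.n := by
  have hn := C.n_pos
  rw [depth, if_pos hx]
  by_cases h1 : x = 0 ∨ C.n ≤ 2 * C.L.w x
  · rw [if_pos h1]; constructor <;> linarith
  · rw [if_neg h1]
    push Not at h1
    have hpos : 0 < C.L.w x := C.L.pos_of_mem_nonunits h1.1 hx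
    by_cases h2 : a = 0 ∨ C.L.w x < C.L.w a
    · rw [if_pos h2]; constructor <;> linarith [h1.2]
    · rw [if_neg h2]; constructor <;> linarith [h1.2]

theorem depth_nonneg (x a : K) : 0 ≤ C.depth x a ∧ C.depth x a < C.n := by
  by_cases hx : x ∈ A.nonunits
  · exact ⟨(depth_pos_of_mem a hx).1.le, (depth_pos_of_mem a hx).2⟩
  · rw [depth_of_not_mem _ hx]; exact ⟨le_rfl, C.n_pos⟩

theorem depth_eq_zero_iff {x a : K} : C.depth x a = 0 ↔ x ∉ A.nonunits := by
  constructor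
  · intro h hx
    have := (depth_pos_of_mem (C := C) a hx).1
    linarith
  · exact depth_of_not_mem _

theorem depthPt_range (α : K) {W : Affine K} (P : W.Point) :
    0 ≤ C.depthPt α P ∧ C.depthPt α P < C.n := by
  rcases P with _ | ⟨x, y, h⟩
  · exact ⟨le_rfl, C.n_pos⟩
  · exact depth_nonneg _ _

/-- a multiple of `n` in `[0, n)` is zero -/
theorem eq_zero_of_int_mul {d : ℚ} (h0 : 0 ≤ d) (h1 : d < C.n) {k : ℤ} (hk : d = k * C.n) :
    d = 0 := by
  have hn := C.n_pos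
  rcases le_or_gt k 0 with h | h
  · have : (k : ℚ) ≤ 0 := by exact_mod_cast h
    nlinarith
  · have : (1 : ℚ) ≤ k := by exact_mod_cast h
    nlinarith

variable {α β : K}

theorem IsModel.negY {W : Affine K} (hM : C.IsModel W α β) (x y : K) :
    W.negY x y = -y + (α + β) * x := by
  rw [Affine.negY, hM.a₁, hM.a₃]; ring

theorem IsModel.equation {W : Affine K} (hM : C.IsModel W α β) {x y : K} (h : W.Equation x y) :
    (y - α * x) * (y - β * x) = C.R x := by
  rw [equation_iff, hM.a₁, hM.a₂, hM.a₃, hM.a₄, hM.a₆] at h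
  rw [R]
  linear_combination h

theorem IsModel.nearPt {W : Affine K} (hM : C.IsModel W α β) {x y : K} (h : W.Equation x y)
    (hx : x ∈ A.nonunits) : C.NearPt x (y - α * x) (y - β * x) :=
  ⟨hx, by rw [← hM.hγ]; ring, hM.equation h⟩

/-- depth of the negative of a point -/
theorem IsModel.depthPt_neg {W : Affine K} (hM : C.IsModel W α β) (P : W.Point) :
    ∃ k : ℤ, C.depthPt α (-P) = -C.depthPt α P + k * C.n := by
  rcases P with _ | ⟨x, y, h⟩
  · exact ⟨0, by simp [← Point.zero_def]⟩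
  rw [Point.neg_some, depthPt_some, depthPt_some]
  simp only [hM.negY]
  by_cases hx : x ∈ A.nonunits
  · have := (hM.nearPt h.1 hx).depth_add_depth_neg
    have e : -(y - β * x) = -y + (α + β) * x - α * x := by ring
    rw [e] at this
    exact ⟨1, by push_cast; linarith⟩
  · rw [depth_of_not_mem _ hx, depth_of_not_mem _ hx]
    exact ⟨0, by simp⟩

/-- **additivity of the component class on integral points** -/
theorem IsModel.depthPt_add {W : Affine K} (hM : C.IsModel W α β) (P Q : W.Point)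
    (hP : IntegralPt A P) (hQ : IntegralPt A Q) (hPQ : IntegralPt A (P + Q)) :
    ∃ k : ℤ, C.depthPt α (P + Q) = C.depthPt α P + C.depthPt α Q + k * C.n := by
  rcases P with _ | ⟨x₁, y₁, h₁⟩
  · exact ⟨0, by simp [← Point.zero_def]⟩
  rcases Q with _ | ⟨x₂, y₂, h₂⟩
  · exact ⟨0, by simp [← Point.zero_def]⟩
  by_cases hxy : x₁ = x₂ ∧ y₁ = W.negY x₂ y₂
  · -- opposite points
    have hsum : Point.some x₁ y₁ h₁ + Point.some x₂ y₂ h₂ = 0 := Point.add_of_Y_eq hxy.1 hxy.2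
    have hneg : Point.some x₁ y₁ h₁ = -Point.some x₂ y₂ h₂ := by
      rw [← add_eq_zero_iff_eq_neg]; exact hsum
    obtain ⟨k, hk⟩ := hM.depthPt_neg (Point.some x₂ y₂ h₂)
    rw [hsum, hneg, hk]
    exact ⟨-k, by push_cast; simp⟩
  obtain ⟨x₃, y₃, h₃, hadd, hy₂, hy₃, hF⟩ := exists_collinear_of_add W h₁ h₂ hxy
  set l := W.slope x₁ x₂ y₁ y₂ with hl
  obtain ⟨E1, E2, E3⟩ := vieta_of_addPolynomial_eq W hF
  rw [hM.a₁, hM.a₂] at E1
  rw [hM.a₁, hM.a₃, hM.a₄] at E2
  rw [hM.a₃, hM.a₆] at E3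
  -- integrality
  rw [hadd] at hPQ
  rw [Point.neg_some] at hPQ
  obtain ⟨hx₃, -⟩ := hPQ
  obtain ⟨hx₁, hy₁⟩ := hP
  obtain ⟨hx₂, -⟩ := hQ
  have hlA : l ∈ A := by
    by_contra hl'
    have hc : α * β - (x₁ + x₂ + x₃) ∈ A :=
      sub_mem (mul_mem hM.hα hM.hβ) (A.add_mem _ _ (A.add_mem _ _ hx₁ hx₂) hx₃)
    have ha : -(α + β) ∈ A := neg_mem (A.add_mem _ _ hM.hα hM.hβ)
    apply sq_add_not_mem hl' ha hc
    have : l ^ 2 + -(α + β) * l + (α * β - (x₁ + x₂ + x₃)) = 0 := by rw [E1]; ring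
    rw [this]; exact A.zero_mem
  set μ := y₁ - l * x₁ with hμ
  have hμA : μ ∈ A := sub_mem hy₁ (A.mul_mem _ _ hlA hx₁)
  have hLD : C.LineData (l - α) (l - β) μ x₁ x₂ x₃ :=
    ⟨sub_mem hlA hM.hα, sub_mem hlA hM.hβ, by rw [← hM.hγ]; ring, hμA, hx₁, hx₂, hx₃,
      by rw [E1]; ring, by rw [E2, hμ]; ring, by rw [E3, hμ]; ring⟩
  obtain ⟨k, hk⟩ := hLD.depth_sum
  have e₁ : (l - α) * x₁ + μ = y₁ - α * x₁ := by rw [hμ]; ring
  have e₂ : (l - α) * x₂ + μ = y₂ - α * x₂ := by rw [hμ, hy₂]; ring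
  have e₃ : (l - α) * x₃ + μ = y₃ - α * x₃ := by rw [hμ, hy₃]; ring
  rw [e₁, e₂, e₃] at hk
  obtain ⟨k', hk'⟩ := hM.depthPt_neg (Point.some x₃ y₃ h₃)
  rw [hadd, hk', depthPt_some, depthPt_some, depthPt_some]
  refine ⟨k' - k, ?_⟩
  push_cast
  linarith

/-- multiples -/
theorem IsModel.depthPt_nsmul {W : Affine K} (hM : C.IsModel W α β) (P : W.Point) (m : ℕ)
    (hint : ∀ j : ℕ, j ≤ m → IntegralPt A (j • P)) :
    ∃ k : ℤ, C.depthPt α (m • P) = m * C.depthPt α P + k * C.n := by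
  induction m with
  | zero => exact ⟨0, by simp⟩
  | succ m ih =>
    obtain ⟨k, hk⟩ := ih (fun j hj => hint j (Nat.le_succ_of_le hj))
    have h1 := hint m (Nat.le_succ m)
    have h2 := hint 1 (by omega)
    rw [one_smul] at h2
    have h3 := hint (m + 1) le_rfl
    rw [succ_nsmul] at h3 ⊢
    obtain ⟨k', hk'⟩ := hM.depthPt_add (m • P) P h1 h2 h3
    rw [hk', hk]
    exact ⟨k + k', by push_cast; ring⟩

/-- **Torsion points near the node**: `p · w(x) ∈ n ℤ`, and they are not on the middle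
component. `hR1` = the kernel of reduction has no `p`-torsion. -/
theorem IsModel.torsion_near_node {W : Affine K} (hM : C.IsModel W α β) {p : ℕ} (hpodd : Odd p)
    (hR1 : ∀ {x y : K} (h : W.Nonsingular x y), p • Point.some x y h = 0 → x ∈ A ∧ y ∈ A)
    {x y : K} (h : W.Nonsingular x y) (ht : p • Point.some x y h = 0) (hx : x ∈ A.nonunits) :
    x ≠ 0 ∧ 2 * C.L.w x < C.n ∧ ∃ m : ℤ, (p : ℚ) * C.L.w x = m * C.n := by
  have hn := C.n_pos
  -- all multiples are integral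
  have hint : ∀ j : ℕ, j ≤ p → IntegralPt A (j • Point.some x y h) := by
    intro j _
    have hj : p • (j • Point.some x y h) = 0 := by
      rw [smul_comm, ht, smul_zero]
    rcases hQ : j • Point.some x y h with _ | ⟨x', y', h'⟩
    · trivial
    · rw [hQ] at hj
      exact hR1 h' hj
  obtain ⟨k, hk⟩ := hM.depthPt_nsmul (Point.some x y h) p hint
  rw [ht, depthPt_zero, depthPt_some] at hk
  have hN := hM.nearPt h.1 hx
  rcases hN.classify with hc | hc | hc
  · -- middle component: impossible for odd `p`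
    exfalso
    rw [hc.depth_eq hx] at hk
    obtain ⟨j, rfl⟩ := hpodd
    have h1 : ((2 * j + 1 : ℕ) : ℚ) * (C.n / 2) + k * C.n = 0 := by linarith
    have h2 : ((2 * (j : ℤ) + 1 + 2 * k : ℤ) : ℚ) * C.n = 0 := by
      push_cast at h1 ⊢
      linarith
    rcases mul_eq_zero.mp h2 with h3 | h3
    · have h4 : (2 * (j : ℤ) + 1 + 2 * k : ℤ) = 0 := by exact_mod_cast h3
      omega
    · linarith
  · rw [hc.depth_eq hx] at hk
    exact ⟨hc.hx0, hc.hx, -k, by push_cast; linarith⟩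
  · rw [hc.depth_eq hx] at hk
    exact ⟨hc.hx0, hc.hx, (p : ℤ) + k, by push_cast; linarith⟩

/-- **nonsingular reduction away from the node**: on the nodal model (coefficients `a₄, a₆ ∈ 𝔪`,
`γ² = a₁² + 4 a₂` a unit) an integral point with `x ∉ 𝔪` has nonsingular reduction. -/
theorem IsModel.not_partials_mem {W : Affine K} (hM : C.IsModel W α β) {x y : K}
    (hx : x ∈ A) (hy : y ∈ A) (hx' : x ∉ A.nonunits) (h : W.Equation x y) :
    ¬ (3 * x ^ 2 + 2 * W.a₂ * x + W.a₄ - W.a₁ * y ∈ A.nonunits ∧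
      2 * y + W.a₁ * x + W.a₃ ∈ A.nonunits) := by
  rintro ⟨hX, hY⟩
  have hn : ∀ n : ℕ, (n : K) ∈ A := fun n => natCast_mem A n
  have h2' : (2 : K) ∈ A := by exact_mod_cast hn 2
  have h4' : (4 : K) ∈ A := by exact_mod_cast hn 4
  have h6' : (6 : K) ∈ A := by exact_mod_cast hn 6
  have ha₁ : W.a₁ ∈ A := by rw [hM.a₁]; exact neg_mem (A.add_mem _ _ hM.hα hM.hβ)
  have ha₂ : W.a₂ ∈ A := by rw [hM.a₂]; exact neg_mem (mul_mem hM.hα hM.hβ)
  have ha₄ : W.a₄ ∈ A.nonunits := by rw [hM.a₄]; exact a₄_mem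
  have ha₆ : W.a₆ ∈ A.nonunits := by rw [hM.a₆]; exact a₆_mem
  rw [Affine.equation_iff, hM.a₃] at h
  rw [hM.a₃, add_zero] at hY
  -- `b₂ = γ²`
  have hb₂ : W.a₁ ^ 2 + 4 * W.a₂ = C.γ ^ 2 := by rw [hM.a₁, hM.a₂, ← hM.hγ]; ring
  -- `x² (4x + b₂) ∈ 𝔪`
  have e1 : x ^ 2 * (4 * x + C.γ ^ 2) ∈ A.nonunits := by
    have : x ^ 2 * (4 * x + C.γ ^ 2) = (2 * y + W.a₁ * x) * (2 * y + W.a₁ * x)
        - 4 * (W.a₄ * x) - 4 * W.a₆ := by
      rw [← hb₂]; linear_combination (-4 : K) * h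
    rw [this]
    refine A.nonunits.sub_mem (A.nonunits.sub_mem ?_ ?_) ?_
    · exact mul_mem_nonunits_left hY (A.add_mem _ _ (mul_mem h2' hy) (mul_mem ha₁ hx))
    · exact mul_mem_nonunits_right h4' (mul_mem_nonunits_left ha₄ hx)
    · exact mul_mem_nonunits_right h4' ha₆
  have hγ2A : C.γ ^ 2 ∈ A := by
    rw [← hb₂]; exact A.add_mem _ _ (pow_mem ha₁ 2) (mul_mem h4' ha₂)
  have e2 : 4 * x + C.γ ^ 2 ∈ A.nonunits := by
    rcases mem_nonunits_of_mul_mem (pow_mem hx 2) (A.add_mem _ _ (mul_mem h4' hx) hγ2A) e1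
      with h | h
    · exact absurd (mem_nonunits_of_pow_mem h) hx'
    · exact h
  -- `x (6x + b₂) ∈ 𝔪`
  have e3 : x * (6 * x + C.γ ^ 2) ∈ A.nonunits := by
    have : x * (6 * x + C.γ ^ 2) = 2 * (3 * x ^ 2 + 2 * W.a₂ * x + W.a₄ - W.a₁ * y)
        + W.a₁ * (2 * y + W.a₁ * x) - 2 * W.a₄ := by
      rw [← hb₂]; ring
    rw [this]
    refine A.nonunits.sub_mem (A.nonunits.add_mem ?_ ?_) ?_
    · exact mul_mem_nonunits_right h2' hX
    · exact mul_mem_nonunits_right ha₁ hY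
    · exact mul_mem_nonunits_right h2' ha₄
  have e4 : 6 * x + C.γ ^ 2 ∈ A.nonunits := by
    rcases mem_nonunits_of_mul_mem hx (A.add_mem _ _ (mul_mem h6' hx) hγ2A) e3 with h | h
    · exact absurd h hx'
    · exact h
  -- hence `2x ∈ 𝔪`, `4x ∈ 𝔪`, `γ² ∈ 𝔪`
  have e5 : 2 * x ∈ A.nonunits := by
    have : 2 * x = (6 * x + C.γ ^ 2) - (4 * x + C.γ ^ 2) := by ring
    rw [this]; exact A.nonunits.sub_mem e4 e2
  have e6 : C.γ ^ 2 ∈ A.nonunits := by
    have : C.γ ^ 2 = (4 * x + C.γ ^ 2) - 2 * (2 * x) := by ring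
    rw [this]; exact A.nonunits.sub_mem e2 (mul_mem_nonunits_right h2' e5)
  have := C.L.pos_of_mem_nonunits (pow_ne_zero 2 C.γ_ne) e6
  rw [C.L.map_pow C.γ_ne, C.γ_unit] at this
  simp at this

end GNodeCtx

end Fermat.Agent.S13
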