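import Mathlib
import Fermat.Prelude.Def_FLTPrelim_GaloisRep
import Fermat.Agent.S13.At2_helper2_NodeTorsion
import Fermat.Agent.Tate.NodeGalois

set_option autoImplicit false
set_option linter.unusedSectionVars false

/-!
# (S13, AT 2) Inertia acts unipotently on the `p`-torsion of a nodal model

`K` a field with valuation subring `A`, `W'⁄K` a nodal model (`GNodeCtx.IsModel`), `σ` an
automorphism stabilising `A`, acting trivially on the residue field and fixing an element `π` of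
nonzero valuation.  Then for `p` odd (`hR1`: `p`-torsion points are integral):

* `smul_eq_of_not_near`: `σ` fixes every `p`-torsion point with nonsingular reduction (`x ∉ 𝔪`);
* `depthPt_smul_sub_eq_zero`: for every `p`-torsion point `Q`, `σ • Q - Q` has depth `0`.
-/

namespace Fermat.Agent.S13

open Fermat.Agent.Tate
open WeierstrassCurve WeierstrassCurve.Affine
open scoped WeierstrassCurve.Affine

variable {K : Type*} [Field K] {A : ValuationSubring K}

/-- a ring endomorphism which preserves `A` (in both directions) and fixes an element of nonzero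
valuation preserves the log-valuation -/
theorem logVal_map_eq (L : LogVal A) {π : K} (hπ0 : π ≠ 0) (hπ : L.w π ≠ 0) {σ : K →+* K}
    (hσπ : σ π = π) (hσA : ∀ a : K, a ∈ A ↔ σ a ∈ A) {x : K} (hx : x ≠ 0) :
    L.w (σ x) = L.w x := by
  set r : ℚ := L.w x / L.w π with hr
  have hden : (0 : ℚ) < r.den := by exact_mod_cast r.den_pos
  have hrel : (r.den : ℚ) * L.w x = r.num * L.w π := by
    have h1 : r * r.den = r.num := Rat.mul_den_eq_num r
    have h2 : L.w x = r * L.w π := by rw [hr]; field_simp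
    rw [h2, ← h1]; ring
  set u : K := x ^ r.den / π ^ r.num with hu
  have hxb : x ^ r.den ≠ 0 := pow_ne_zero _ hx
  have hπa : π ^ r.num ≠ 0 := zpow_ne_zero _ hπ0
  have hu0 : u ≠ 0 := div_ne_zero hxb hπa
  have hwu : L.w u = 0 := by
    rw [hu, L.map_div hxb hπa, L.map_pow hx, L.map_zpow hπ0, hrel, sub_self]
  obtain ⟨huA, huA'⟩ := (L.eq_zero_iff hu0).mp hwu
  have hσx : σ x ≠ 0 := (map_ne_zero σ).mpr hx
  have hσu : σ u = σ x ^ r.den / π ^ r.num := by
    rw [hu, map_div₀, map_pow, map_zpow₀, hσπ]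
  have hσu0 : σ u ≠ 0 := (map_ne_zero σ).mpr hu0
  have hwσu : L.w (σ u) = 0 := by
    rw [L.eq_zero_iff hσu0]
    refine ⟨(hσA u).mp huA, ?_⟩
    rw [← map_inv₀]
    exact (hσA u⁻¹).mp huA'
  rw [hσu, L.map_div (pow_ne_zero _ hσx) hπa, L.map_pow hσx, L.map_zpow hπ0] at hwσu
  have : (r.den : ℚ) * L.w (σ x) = r.den * L.w x := by rw [hrel]; linarith
  exact mul_left_cancel₀ hden.ne' this

section Galois

variable [DecidableEq K] {R : Type*} {S : Type*} [CommRing R] [CommRing S] [Algebra R S]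
  [Algebra R K] [Algebra S K] [IsScalarTower R S K]

theorem smul_a₁ (W' : Affine R) (σ : K ≃ₐ[S] K) : σ (W'⁄K).a₁ = (W'⁄K).a₁ := by
  show σ (algebraMap R K W'.a₁) = algebraMap R K W'.a₁
  rw [IsScalarTower.algebraMap_apply R S K, σ.commutes]

theorem smul_a₂ (W' : Affine R) (σ : K ≃ₐ[S] K) : σ (W'⁄K).a₂ = (W'⁄K).a₂ := by
  show σ (algebraMap R K W'.a₂) = algebraMap R K W'.a₂
  rw [IsScalarTower.algebraMap_apply R S K, σ.commutes]

variable (W' : Affine R) (C : GNodeCtx K A) {α β : K} (hM : C.IsModel (W'⁄K) α β)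
  {p : ℕ} (hpodd : Odd p)
  (hR1 : ∀ {x y : K} (h : (W'⁄K).Nonsingular x y), p • Point.some x y h = 0 → x ∈ A ∧ y ∈ A)
  (σ : K ≃ₐ[S] K) (hσ : ∀ a ∈ A, σ a ∈ A ∧ σ a - a ∈ A.nonunits)

include hM hσ in
/-- an inertia-like automorphism fixes the tangent slopes -/
theorem map_slope_eq : σ α = α := by
  have h1 : σ α + σ β = α + β := by
    have := smul_a₁ W' σ
    rw [hM.a₁, map_neg, map_add] at this
    linear_combination -this
  have h2 : σ α * σ β = α * β := by
    have := smul_a₂ W' σ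
    rw [hM.a₂, map_neg, map_mul] at this
    linear_combination -this
  have h3 : (σ α - α) * (σ α - β) = 0 := by
    have : σ β = α + β - σ α := by linear_combination h1
    rw [this] at h2
    linear_combination -h2
  rcases mul_eq_zero.mp h3 with h | h
  · exact sub_eq_zero.mp h
  · exfalso
    have h4 : σ α - α ∈ A.nonunits := (hσ α hM.hα).2
    have h5 : σ α - α = -C.γ := by rw [← hM.hγ, sub_eq_zero.mp h]; ring
    rw [h5] at h4
    have := C.L.pos_of_mem_nonunits (neg_ne_zero.mpr C.γ_ne) h4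
    rw [C.L.map_neg, C.γ_unit] at this
    exact lt_irrefl _ this

include hM hpodd hR1 hσ in
/-- **`σ` fixes the `p`-torsion points with nonsingular reduction** -/
theorem smul_eq_of_not_near {x y : K} (h : (W'⁄K).Nonsingular x y)
    (hQ : p • Point.some x y h = 0) (hx : x ∉ A.nonunits) :
    σ • Point.some x y h = Point.some x y h := by
  have hσQ := nsmul_smul_eq_zero σ hQ
  rw [smul_some] at hσQ ⊢
  obtain ⟨hxA, hyA⟩ := hR1 h hQ
  have ha₁ : (W'⁄K).a₁ ∈ A := by rw [hM.a₁]; exact neg_mem (A.add_mem _ _ hM.hα hM.hβ)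
  have ha₂ : (W'⁄K).a₂ ∈ A := by rw [hM.a₂]; exact neg_mem (mul_mem hM.hα hM.hβ)
  have ha₃ : (W'⁄K).a₃ ∈ A := by rw [hM.a₃]; exact A.zero_mem
  have hred := hM.not_partials_mem hxA hyA hx h.1
  exact eq_of_nonsingular_red ha₁ ha₂ ha₃ hR1 hpodd h _ hxA hyA
    (hσ x hxA).2 (hσ y hyA).2 hred hQ hσQ

variable {π : K} (hπ0 : π ≠ 0) (hπ : C.L.w π ≠ 0) (hσπ : σ π = π)
  (hσ' : ∀ a ∈ A, σ.symm a ∈ A)

include hσ hσ' in
theorem mem_iff_map_mem (a : K) : a ∈ A ↔ (σ : K →+* K) a ∈ A := by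
  constructor
  · intro ha; exact (hσ a ha).1
  · intro ha
    have := hσ' _ ha
    simpa using this

include hπ0 hπ hσπ hσ hσ' in
theorem w_map (x : K) : C.L.w (σ x) = C.L.w x := by
  rcases eq_or_ne x 0 with rfl | hx
  · simp
  · exact logVal_map_eq C.L hπ0 hπ (σ := (σ : K →+* K)) hσπ (mem_iff_map_mem σ hσ hσ') hx

include hπ0 hπ hσπ hσ hσ' in
theorem mem_nonunits_iff_map (x : K) : σ x ∈ A.nonunits ↔ x ∈ A.nonunits := by
  rcases eq_or_ne x 0 with rfl | hx
  · simp
  · have hσx : σ x ≠ 0 := (map_ne_zero σ).mpr hx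
    rw [← C.L.pos_iff hσx, ← C.L.pos_iff hx, w_map C σ hσ hπ0 hπ hσπ hσ' x]

include hπ0 hπ hσπ hσ hσ' in
/-- the depth is invariant under `σ` -/
theorem depth_map (x a : K) : C.depth (σ x) (σ a) = C.depth x a := by
  have hw := w_map C σ hσ hπ0 hπ hσπ hσ'
  have hnu := mem_nonunits_iff_map C σ hσ hπ0 hπ hσπ hσ'
  simp only [GNodeCtx.depth, hw, map_eq_zero]
  by_cases hx : x ∈ A.nonunits
  · rw [if_pos hx, if_pos ((hnu x).mpr hx)]
    split_ifs <;> rfl
  · rw [if_neg hx, if_neg (fun h => hx ((hnu x).mp h))]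

include hM hπ0 hπ hσπ hσ hσ' in
theorem depthPt_smul (Q : (W'⁄K).Point) : C.depthPt α (σ • Q) = C.depthPt α Q := by
  rcases Q with _ | ⟨x, y, h⟩
  · rfl
  rw [smul_some, GNodeCtx.depthPt_some, GNodeCtx.depthPt_some]
  have hα := map_slope_eq W' C hM σ hσ
  have : σ y - α * σ x = σ (y - α * x) := by rw [map_sub, map_mul, hα]
  rw [this]
  exact depth_map C σ hσ hπ0 hπ hσπ hσ' x _

include hR1 in
theorem integralPt_of_torsion {Q : (W'⁄K).Point} (hQ : p • Q = 0) : IntegralPt A Q := by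
  rcases Q with _ | ⟨x, y, h⟩
  · trivial
  · exact hR1 h hQ

include hM hR1 hπ0 hπ hσπ hσ hσ' in
/-- **`σ • Q - Q` lies on the identity component** for every `p`-torsion point `Q` -/
theorem depthPt_smul_sub_eq_zero {Q : (W'⁄K).Point} (hQ : p • Q = 0) :
    C.depthPt α (σ • Q - Q) = 0 := by
  have hσQ := nsmul_smul_eq_zero σ hQ
  have hnegQ : p • (-Q) = 0 := by rw [smul_neg, hQ, neg_zero]
  have hsub : p • (σ • Q - Q) = 0 := by rw [smul_sub, hσQ, hQ, sub_zero]
  obtain ⟨k, hk⟩ := hM.depthPt_add (σ • Q) (-Q) (integralPt_of_torsion W' hR1 hσQ)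
    (integralPt_of_torsion W' hR1 hnegQ)
    (by rw [← sub_eq_add_neg]; exact integralPt_of_torsion W' hR1 hsub)
  obtain ⟨k', hk'⟩ := hM.depthPt_neg Q
  rw [← sub_eq_add_neg, depthPt_smul W' C hM σ hσ hπ0 hπ hσπ hσ' Q, hk'] at hk
  obtain ⟨h0, h1⟩ := GNodeCtx.depthPt_range (C := C) α (σ • Q - Q)
  refine GNodeCtx.eq_zero_of_int_mul h0 h1 (k := k' + k) ?_
  rw [hk]; push_cast; ring

end Galois

end Fermat.Agent.S13
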