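import Mathlib
import Fermat.Prelude.Def_FLTPrelim_FreyPackage
import Fermat.Agent.S13.At2_helper2_NodeTorsion
import Fermat.Agent.Tate.Frey_helper7
import Fermat.Agent.Tate.LogValExists

set_option autoImplicit false
set_option linter.unusedSectionVars false

/-!
# (S13, AT 2) The nodal model of the Frey curve at `2`

The Frey curve `y² + x y = x³ + a₂ x² + a₄ x` (`a₂ = (b^p - 1 - a^p)/4`, `a₄ = -a^p b^p/16`)
has multiplicative reduction at `2`.  The rational translation `x = x' - 2t`, `y = y' + t`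
with `t = a₄ / b₂`, `b₂ = b^p - a^p` (odd), brings it to

  `y² + x y = x³ + (a₂ - 6t) x² + 12 t² x - t² (b₂ + 8t)`,

a nodal model in the sense of `GNodeCtx.IsModel` over every valuation subring above `2`, with
`w(t) = p·v₂(b) - 4`, `n = w(a₆') = 2·p·v₂(b) - 8`, `γ² = b₂ - 24 t`.
-/

namespace Fermat.Agent.S13

open Fermat.Agent.Tate
open WeierstrassCurve

section Arith

variable (P : FreyPackage)

theorem frey_two_dvd_b : (2 : ℤ) ∣ P.b := (ZMod.intCast_zmod_eq_zero_iff_dvd P.b 2).1 P.hb2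

theorem frey_not_two_dvd_a : ¬ (2 : ℤ) ∣ P.a := by
  intro h
  have h1 : (2 : ℤ) ∣ gcd P.a P.b := dvd_gcd h (frey_two_dvd_b P)
  rw [P.hgcdab] at h1
  norm_num at h1

theorem frey_four_dvd : (4 : ℤ) ∣ P.b ^ P.p - 1 - P.a ^ P.p := by
  have key : ((P.b ^ P.p - 1 - P.a ^ P.p : ℤ) : ZMod 4) = 0 := by
    push_cast
    have hb : ((P.b : ZMod 4)) ^ P.p = 0 := by
      obtain ⟨b₁, hb₁⟩ := frey_two_dvd_b P
      have hp2 : 2 ≤ P.p := by have := P.hp5; omega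
      obtain ⟨k, hk⟩ := Nat.exists_eq_add_of_le hp2
      rw [hb₁, hk]
      push_cast
      rw [mul_pow, pow_add]
      have : (2 : ZMod 4) ^ 2 = 0 := by decide
      rw [this, zero_mul, zero_mul]
    have ha : ((P.a : ZMod 4)) ^ P.p = -1 := by
      rw [P.ha4]
      have : (3 : ZMod 4) = -1 := by decide
      rw [this, P.hp_odd.neg_one_pow]
    rw [hb, ha]
    ring
  have := (ZMod.intCast_zmod_eq_zero_iff_dvd (P.b ^ P.p - 1 - P.a ^ P.p) 4).1 key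
  exact_mod_cast this

theorem frey_not_two_dvd_b₂ : ¬ (2 : ℤ) ∣ P.b ^ P.p - P.a ^ P.p := by
  intro h
  have hb : (2 : ℤ) ∣ P.b ^ P.p := dvd_pow (frey_two_dvd_b P) P.hp0
  have ha : (2 : ℤ) ∣ P.a ^ P.p := by
    have := dvd_sub hb h
    rwa [sub_sub_cancel] at this
  exact frey_not_two_dvd_a P (Int.prime_two.dvd_of_dvd_pow ha)

theorem frey_b₂_ne_zero : (P.b : ℚ) ^ P.p - (P.a : ℚ) ^ P.p ≠ 0 := by
  intro h
  have h1 : P.b ^ P.p - P.a ^ P.p = 0 := by exact_mod_cast h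
  exact frey_not_two_dvd_b₂ P (h1 ▸ dvd_zero _)

/-- the translation parameter `t = a₄ / b₂` -/
noncomputable def freyT : ℚ :=
  (-((P.a : ℚ) ^ P.p) * ((P.b : ℚ) ^ P.p) / 16) / ((P.b : ℚ) ^ P.p - (P.a : ℚ) ^ P.p)

theorem freyT_mul : freyT P * ((P.b : ℚ) ^ P.p - (P.a : ℚ) ^ P.p) =
    -((P.a : ℚ) ^ P.p) * ((P.b : ℚ) ^ P.p) / 16 :=
  div_mul_cancel₀ _ (frey_b₂_ne_zero P)

/-- the translation moving the node of the reduction at `2` to the origin, `2`-adically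
precisely -/
noncomputable def freyVC2 : VariableChange ℚ := ⟨1, -2 * freyT P, 0, freyT P⟩

theorem freyVC2_smul :
    freyVC2 P • P.freyCurve =
      ⟨1, ((P.b : ℚ) ^ P.p - 1 - (P.a : ℚ) ^ P.p) / 4 - 6 * freyT P, 0, 12 * freyT P ^ 2,
        -(freyT P ^ 2) * ((P.b : ℚ) ^ P.p - (P.a : ℚ) ^ P.p + 8 * freyT P)⟩ := by
  have ht := freyT_mul P
  ext
  · rw [variableChange_a₁]
    simp [freyVC2, FreyPackage.freyCurve]
  · rw [variableChange_a₂]
    simp [freyVC2, FreyPackage.freyCurve]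
    ring
  · rw [variableChange_a₃]
    simp [freyVC2, FreyPackage.freyCurve]
  · rw [variableChange_a₄]
    simp [freyVC2, FreyPackage.freyCurve]
    linear_combination (-1) * ht
  · rw [variableChange_a₆]
    simp [freyVC2, FreyPackage.freyCurve]
    linear_combination (2 * freyT P) * ht

end Arith

section Val2

variable {K : Type*} [Field K] [Algebra ℚ K] (A : ValuationSubring K)
  (hA : ((2 : ℕ) : K) ∈ A.nonunits) (L : LogVal A) (hL : L.w ((2 : ℕ) : K) = 1)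

include hA

theorem intCast_odd_unit {z : ℤ} (hz : ¬ (2 : ℤ) ∣ z) :
    (z : K) ∈ A ∧ (z : K) ∉ A.nonunits ∧ (z : K) ≠ 0 := by
  have : CharZero K := algebraRat.charZero K
  have h1 : (z : K) ∉ A.nonunits :=
    intCast_notMem_nonunits A Nat.prime_two hA (by exact_mod_cast hz)
  refine ⟨intCast_mem A z, h1, ?_⟩
  intro h0
  rw [h0] at h1
  exact h1 A.nonunits.zero_mem

theorem w_intCast_odd {z : ℤ} (hz : ¬ (2 : ℤ) ∣ z) : L.w (z : K) = 0 :=
  L.eq_zero_of_unit (intCast_odd_unit A hA hz).1 (intCast_odd_unit A hA hz).2.1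

include hL

theorem two_ne_zero_of_w : ((2 : ℕ) : K) ≠ 0 := by
  have : CharZero K := algebraRat.charZero K
  norm_num

/-- `w (2 ^ k · u) = k` for a unit `u` -/
theorem w_two_pow_mul {u : K} (hu : u ∈ A) (hu' : u ∉ A.nonunits) (k : ℕ) :
    ((2 : ℕ) : K) ^ k * u ≠ 0 ∧ L.w (((2 : ℕ) : K) ^ k * u) = k := by
  have h2 := two_ne_zero_of_w A hA L hL
  have hu0 : u ≠ 0 := by
    rintro rfl
    exact hu' A.nonunits.zero_mem
  refine ⟨mul_ne_zero (pow_ne_zero _ h2) hu0, ?_⟩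
  rw [L.map_mul (pow_ne_zero _ h2) hu0, L.map_pow h2, hL, L.eq_zero_of_unit hu hu']
  ring

/-- every nonzero integer has a natural number as valuation -/
theorem exists_w_intCast {z : ℤ} (hz : z ≠ 0) : ∃ k : ℕ, L.w (z : K) = k := by
  by_cases h2 : (2 : ℤ) ∣ z
  · obtain ⟨k, -, z', hzz', hz'⟩ := exists_pow_mul_of_dvd Nat.prime_two hz (by exact_mod_cast h2)
    have hz'' : ¬ (2 : ℤ) ∣ z' := by exact_mod_cast hz'
    obtain ⟨h1, h2, -⟩ := intCast_odd_unit A hA hz''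
    refine ⟨k, ?_⟩
    rw [hzz']
    push_cast
    exact (w_two_pow_mul A hA L hL h1 h2 k).2
  · exact ⟨0, by rw [w_intCast_odd A hA L h2]; simp⟩

/-- every nonzero rational number has an integer as valuation -/
theorem exists_w_ratCast {r : ℚ} (hr : r ≠ 0) : ∃ j : ℤ, L.w (algebraMap ℚ K r) = j := by
  have : CharZero K := algebraRat.charZero K
  obtain ⟨k, hk⟩ := exists_w_intCast A hA L hL (Rat.num_ne_zero.mpr hr)
  obtain ⟨k', hk'⟩ := exists_w_intCast A hA L hL (z := (r.den : ℤ)) (by exact_mod_cast r.den_ne_zero)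
  refine ⟨k - k', ?_⟩
  have h1 : algebraMap ℚ K r = (r.num : K) / ((r.den : ℤ) : K) := by
    rw [eq_ratCast]
    push_cast
    exact Rat.cast_def r
  have hn0 : (r.num : K) ≠ 0 := by exact_mod_cast Rat.num_ne_zero.mpr hr
  have hd0 : ((r.den : ℤ) : K) ≠ 0 := by exact_mod_cast r.den_ne_zero
  rw [h1, L.map_div hn0 hd0, hk, hk']
  push_cast
  ring

end Val2

section Model

open scoped WeierstrassCurve.Affine

variable (P : FreyPackage) {K : Type*} [Field K] [DecidableEq K] [Algebra ℚ K] [IsAlgClosed K]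
  [Algebra.IsAlgebraic ℚ K] (A : ValuationSubring K) (hA : ((2 : ℕ) : K) ∈ A.nonunits)

include hA

/-- **the nodal model of the Frey curve at `2`**: a node context with `w 2 = 1`, with
`n = w(a₆)` an integer prime to `p`, for which the translated Frey curve is a model. -/
theorem exists_frey_nodeCtx :
    ∃ (C : GNodeCtx K A) (α β : K) (N : ℤ), C.L.w ((2 : ℕ) : K) = 1 ∧ C.n = N ∧
      ¬ (P.p : ℤ) ∣ N ∧ C.IsModel ((freyVC2 P • P.freyCurve).toAffine⁄K) α β := by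
  have : CharZero K := algebraRat.charZero K
  obtain ⟨L, hL⟩ := exists_logVal A Nat.prime_two hA
  have h2K : ((2 : ℕ) : K) ≠ 0 := two_ne_zero_of_w A hA L hL
  -- factor `b`
  obtain ⟨v, hv, b', hbb', hb'⟩ :=
    exists_pow_mul_of_dvd Nat.prime_two P.hb0 (by exact_mod_cast frey_two_dvd_b P)
  have hb'' : ¬ (2 : ℤ) ∣ b' := by exact_mod_cast hb'
  have hpv : 5 ≤ P.p * v := le_trans P.hp5 (Nat.le_mul_of_pos_right _ hv)
  obtain ⟨h, hh⟩ : ∃ h : ℕ, P.p * v = h + 4 := ⟨P.p * v - 4, by omega⟩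
  have hh1 : 1 ≤ h := by omega
  obtain ⟨u₁, hu₁⟩ : ∃ u : ℤ, u = -(P.a ^ P.p * b' ^ P.p) := ⟨_, rfl⟩
  obtain ⟨u₂, hu₂⟩ : ∃ u : ℤ, u = P.b ^ P.p - P.a ^ P.p := ⟨_, rfl⟩
  have hu₁odd : ¬ (2 : ℤ) ∣ u₁ := by
    rw [hu₁, dvd_neg]
    intro h
    rcases Int.prime_two.dvd_or_dvd h with h | h
    · exact frey_not_two_dvd_a P (Int.prime_two.dvd_of_dvd_pow h)
    · exact hb'' (Int.prime_two.dvd_of_dvd_pow h)
  have hu₂odd : ¬ (2 : ℤ) ∣ u₂ := hu₂ ▸ frey_not_two_dvd_b₂ P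
  obtain ⟨z, hz⟩ := frey_four_dvd P
  -- `t` in `ℚ`
  have hB := frey_b₂_ne_zero P
  have hu₂Q : (P.b : ℚ) ^ P.p - (P.a : ℚ) ^ P.p = (u₂ : ℚ) := by rw [hu₂]; push_cast; ring
  have htQ : freyT P = 2 ^ h * ((u₁ : ℚ) / (u₂ : ℚ)) := by
    apply mul_right_cancel₀ hB
    rw [freyT_mul]
    have e1 : (P.b : ℚ) ^ P.p = 2 ^ h * 16 * (b' : ℚ) ^ P.p := by
      rw [hbb']; push_cast; rw [mul_pow, ← pow_mul, mul_comm v P.p, hh, pow_add]; norm_num
    have hu₂0 : (u₂ : ℚ) ≠ 0 := hu₂Q ▸ hB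
    rw [hu₂Q, mul_assoc, div_mul_cancel₀ _ hu₂0, e1, hu₁]; push_cast; ring
  have hzQ : ((P.b : ℚ) ^ P.p - 1 - (P.a : ℚ) ^ P.p) / 4 = (z : ℚ) := by
    rw [div_eq_iff (by norm_num)]
    have : ((P.b ^ P.p - 1 - P.a ^ P.p : ℤ) : ℚ) = ((4 * z : ℤ) : ℚ) := by rw [hz]
    push_cast at this
    linear_combination this
  have hz4 : (u₂ : K) - 1 = 4 * (z : K) := by
    have : u₂ - 1 = 4 * z := by rw [hu₂, ← hz]; ring
    have := congrArg (Int.cast (R := K)) this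
    push_cast at this
    exact this
  -- in `K`
  obtain ⟨hu₁A, hu₁u, hu₁0⟩ := intCast_odd_unit (K := K) A hA hu₁odd
  obtain ⟨hu₂A, hu₂u, hu₂0⟩ := intCast_odd_unit (K := K) A hA hu₂odd
  obtain ⟨tK, htK⟩ : ∃ t : K, t = ((freyT P : ℚ) : K) := ⟨_, rfl⟩
  have htK' : tK = ((2 : ℕ) : K) ^ h * ((u₁ : K) / (u₂ : K)) := by
    rw [htK, htQ]; push_cast; ring
  have ht0 : tK ≠ 0 := by
    rw [htK']; exact mul_ne_zero (pow_ne_zero _ h2K) (div_ne_zero hu₁0 hu₂0)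
  have hwt : L.w tK = h := by
    rw [htK', L.map_mul (pow_ne_zero _ h2K) (div_ne_zero hu₁0 hu₂0), L.map_pow h2K, hL,
      L.map_div hu₁0 hu₂0, w_intCast_odd A hA L hu₁odd, w_intCast_odd A hA L hu₂odd]
    ring
  have hh0 : (0 : ℚ) < h := by exact_mod_cast hh1
  have htm : tK ∈ A.nonunits := L.mem_nonunits_of_pos (Or.inr (by rw [hwt]; exact hh0))
  have hnat : ∀ n : ℕ, (n : K) ∈ A := fun n => natCast_mem A n
  -- units `u₂ + c t`
  have hunit : ∀ c ∈ A, (u₂ : K) + c * tK ∈ A ∧ (u₂ : K) + c * tK ∉ A.nonunits := by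
    intro c hcA
    have hc : c * tK ∈ A.nonunits := mul_mem_nonunits_right hcA htm
    refine ⟨A.add_mem _ _ hu₂A (A.nonunits_le hc), fun hE => hu₂u ?_⟩
    have : (u₂ : K) = (u₂ : K) + c * tK - c * tK := by ring
    rw [this]
    exact A.nonunits.sub_mem hE hc
  have h8 : (8 : K) ∈ A := by exact_mod_cast hnat 8
  have h24 : (-24 : K) ∈ A := neg_mem (by exact_mod_cast hnat 24)
  obtain ⟨hEA, hEu⟩ := hunit 8 h8
  obtain ⟨hDA, hDu⟩ := hunit (-24) h24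
  have hE0 : (u₂ : K) + 8 * tK ≠ 0 := fun h0 => hEu (h0 ▸ A.nonunits.zero_mem)
  have hD0 : (u₂ : K) + -24 * tK ≠ 0 := fun h0 => hDu (h0 ▸ A.nonunits.zero_mem)
  have hwE : L.w ((u₂ : K) + 8 * tK) = 0 := L.eq_zero_of_unit hEA hEu
  have hwD : L.w ((u₂ : K) + -24 * tK) = 0 := L.eq_zero_of_unit hDA hDu
  obtain ⟨γ, hγ⟩ := IsAlgClosed.exists_pow_nat_eq ((u₂ : K) + -24 * tK) (by norm_num : 0 < 2)
  have hγ0 : γ ≠ 0 := by
    rintro rfl
    rw [zero_pow two_ne_zero] at hγ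
    exact hD0 hγ.symm
  have hwγ : L.w γ = 0 := by
    have := L.map_pow hγ0 2
    rw [hγ, hwD] at this
    push_cast at this
    linarith
  -- `a₆` and `a₄`
  have ht20 : -(tK ^ 2) ≠ 0 := neg_ne_zero.mpr (pow_ne_zero 2 ht0)
  have ha₆0 : -(tK ^ 2) * ((u₂ : K) + 8 * tK) ≠ 0 := mul_ne_zero ht20 hE0
  have hwa₆ : L.w (-(tK ^ 2) * ((u₂ : K) + 8 * tK)) = 2 * h := by
    rw [L.map_mul ht20 hE0, L.map_neg, L.map_pow ht0, hwt, hwE]
    push_cast
    ring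
  have h12 : (12 : K) ≠ 0 := by norm_num
  have hwa₄ : L.w (-(tK ^ 2) * ((u₂ : K) + 8 * tK)) ≤ L.w (12 * tK ^ 2) := by
    rw [hwa₆, L.map_mul h12 (pow_ne_zero 2 ht0), L.map_pow ht0, hwt]
    have : 0 ≤ L.w (12 : K) := L.nonneg_of_mem h12 (by exact_mod_cast hnat 12)
    push_cast
    linarith
  let C : GNodeCtx K A := ⟨L, γ, 12 * tK ^ 2, -(tK ^ 2) * ((u₂ : K) + 8 * tK), hγ0, hwγ, ha₆0,
    by rw [hwa₆]; linarith, Or.inr hwa₄⟩
  have hW : freyVC2 P • P.freyCurve = ⟨1, (z : ℚ) - 6 * freyT P, 0, 12 * freyT P ^ 2,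
      -(freyT P ^ 2) * ((u₂ : ℚ) + 8 * freyT P)⟩ := by
    rw [freyVC2_smul, hzQ, hu₂Q]
  have ha₂K : (z : K) - 6 * tK ∈ A :=
    sub_mem (intCast_mem A z) (mul_mem (by exact_mod_cast hnat 6) (A.nonunits_le htm))
  have h2' : (2 : K) ≠ 0 := two_ne_zero
  have hroot : ∀ δ : K, δ ^ 2 = (u₂ : K) + -24 * tK →
      ((δ - 1) / 2) ^ 2 + 1 * ((δ - 1) / 2) + -((z : K) - 6 * tK) = 0 := by
    intro δ hδ
    linear_combination (1 / 4 : K) * hδ + (1 / 4 : K) * hz4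
  have hmem : ∀ δ : K, δ ^ 2 = (u₂ : K) + -24 * tK → (δ - 1) / 2 ∈ A := by
    intro δ hδ
    by_contra hl
    have := sq_add_not_mem hl A.one_mem (neg_mem ha₂K)
    rw [hroot δ hδ] at this
    exact this A.zero_mem
  refine ⟨C, (γ - 1) / 2, (-γ - 1) / 2, 2 * (h : ℤ), hL, ?_, ?_, ?_⟩
  · show L.w (-(tK ^ 2) * ((u₂ : K) + 8 * tK)) = ((2 * (h : ℤ) : ℤ) : ℚ)
    rw [hwa₆]
    push_cast
    ring
  · intro hdvd
    have h1 : P.p ∣ 2 * h := by exact_mod_cast hdvd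
    have h2 : P.p ∣ 2 * h + 8 := ⟨2 * v, by rw [← mul_assoc, mul_comm P.p 2, mul_assoc, hh]; ring⟩
    have h3 : P.p ∣ 8 := (Nat.dvd_add_right h1).mp h2
    have h4 : P.p ∣ 2 := P.pp.dvd_of_dvd_pow (show P.p ∣ 2 ^ 3 by norm_num; exact h3)
    have := Nat.le_of_dvd (by norm_num) h4
    have := P.hp5
    omega
  · refine ⟨hmem γ hγ, ?_, ?_, ?_, ?_, ?_, ?_, ?_⟩
    · have := hmem (-γ) (by rw [neg_sq]; exact hγ)
      exact this
    · show (γ - 1) / 2 - (-γ - 1) / 2 = γ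
      field_simp
      ring
    · rw [hW]
      simp
      field_simp
      ring
    · rw [hW]
      simp [← htK]
      linear_combination (-1 / 4 : K) * hγ - (1 / 4 : K) * hz4
    · rw [hW]
      simp
    · rw [hW]
      simp [← htK]
      rfl
    · rw [hW]
      simp [← htK]
      show _ = -(tK ^ 2) * ((u₂ : K) + 8 * tK)
      ring

end Model

end Fermat.Agent.S13
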