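import Mathlib

/-!
# S13 (I-p), part 1: a Gauss-lemma type inequality for valuation subrings

`A` a valuation subring of a field `K`.  If `f = (∏_{i ∈ s} (X - x i)) * g` has coefficients in `A`
and the `x i` are nonzero with `(x i)⁻¹ ∈ A`, then `(∏_{i ∈ s} x i) • g` has coefficients in `A`
(`intPoly_prod_mul`); in particular `(∏ x i) * g.leadingCoeff ∈ A`
(`prod_mul_leadingCoeff_mem`).  For distinct roots `r ∈ R` of an integral polynomial `f`, none of
them integral: `(∏_{r ∈ R} r) * f.leadingCoeff ∈ A` (`prod_roots_mul_leadingCoeff_mem`).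
-/

set_option autoImplicit false

namespace Fermat.Agent.S13

open Polynomial

variable {K : Type*} [Field K] (A : ValuationSubring K)

/-- polynomials with coefficients in `A` -/
def IntPoly (f : K[X]) : Prop := ∀ j, f.coeff j ∈ A

variable {A}

theorem intPoly_of_one_sub_mul {u : K} (hu : u ∈ A) {h : K[X]}
    (hh : IntPoly A ((1 - C u * X) * h)) : IntPoly A h := by
  have key : ∀ j, ((1 - C u * X) * h).coeff (j + 1) = h.coeff (j + 1) - u * h.coeff j := by
    intro j
    rw [sub_mul, one_mul, coeff_sub, mul_assoc, coeff_C_mul, coeff_X_mul]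
  have key0 : ((1 - C u * X) * h).coeff 0 = h.coeff 0 := by
    rw [sub_mul, one_mul, coeff_sub, mul_assoc, coeff_C_mul, coeff_X_mul_zero, mul_zero, sub_zero]
  intro j
  induction j with
  | zero => rw [← key0]; exact hh 0
  | succ j ih =>
    have h1 := hh (j + 1)
    rw [key] at h1
    have : h.coeff (j + 1) = (h.coeff (j + 1) - u * h.coeff j) + u * h.coeff j := by ring
    rw [this]
    exact A.add_mem _ _ h1 (A.mul_mem _ _ hu ih)

theorem intPoly_neg {f : K[X]} (hf : IntPoly A f) : IntPoly A (-f) := by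
  intro j
  rw [coeff_neg]
  exact A.neg_mem _ (hf j)

theorem intPoly_X_sub_C_mul {x : K} (hx0 : x ≠ 0) (hx : x⁻¹ ∈ A) {g : K[X]}
    (hg : IntPoly A ((X - C x) * g)) : IntPoly A (C x * g) := by
  have e : (X - C x) * g = -((1 - C x⁻¹ * X) * (C x * g)) := by
    have hc : C x⁻¹ * C x = (1 : K[X]) := by rw [← C_mul, inv_mul_cancel₀ hx0, C_1]
    have : (1 - C x⁻¹ * X) * (C x * g) = C x * g - (C x⁻¹ * C x) * (X * g) := by ring
    rw [this, hc]
    ring
  rw [e] at hg
  have := intPoly_neg hg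
  rw [neg_neg] at this
  exact intPoly_of_one_sub_mul hx this

theorem intPoly_prod_mul {ι : Type*} (s : Finset ι) (x : ι → K)
    (hx : ∀ i ∈ s, x i ≠ 0 ∧ (x i)⁻¹ ∈ A) (g : K[X])
    (hg : IntPoly A ((∏ i ∈ s, (X - C (x i))) * g)) : IntPoly A (C (∏ i ∈ s, x i) * g) := by
  classical
  induction s using Finset.induction_on generalizing g with
  | empty => simpa using hg
  | insert a s ha ih =>
    rw [Finset.prod_insert ha, mul_assoc] at hg
    have h1 := intPoly_X_sub_C_mul (hx a (Finset.mem_insert_self a s)).1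
      (hx a (Finset.mem_insert_self a s)).2 hg
    have e : C (x a) * ((∏ i ∈ s, (X - C (x i))) * g) =
        (∏ i ∈ s, (X - C (x i))) * (C (x a) * g) := by ring
    rw [e] at h1
    have h2 := ih (fun i hi => hx i (Finset.mem_insert_of_mem hi)) _ h1
    rw [Finset.prod_insert ha, C_mul]
    have e2 : C (x a) * C (∏ i ∈ s, x i) * g = C (∏ i ∈ s, x i) * (C (x a) * g) := by ring
    rw [e2]
    exact h2

theorem prod_mul_leadingCoeff_mem {ι : Type*} (s : Finset ι) (x : ι → K)
    (hx : ∀ i ∈ s, x i ≠ 0 ∧ (x i)⁻¹ ∈ A) (g : K[X])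
    (hg : IntPoly A ((∏ i ∈ s, (X - C (x i))) * g)) :
    (∏ i ∈ s, x i) * g.leadingCoeff ∈ A := by
  have h := intPoly_prod_mul s x hx g hg g.natDegree
  rwa [coeff_C_mul] at h

/-- distinct non-integral roots of an integral polynomial -/
theorem prod_roots_mul_leadingCoeff_mem (R : Finset K) (f : K[X]) (hf : IntPoly A f)
    (hR : ∀ r ∈ R, f.eval r = 0 ∧ r ∉ A) : (∏ r ∈ R, r) * f.leadingCoeff ∈ A := by
  have hdvd : (∏ r ∈ R, (X - C r)) ∣ f := by
    apply Finset.prod_dvd_of_coprime
    · intro a _ b _ hab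
      exact Polynomial.isCoprime_X_sub_C_of_isUnit_sub (sub_ne_zero.mpr hab).isUnit
    · intro r hr
      exact dvd_iff_isRoot.mpr (hR r hr).1
  obtain ⟨g, hg⟩ := hdvd
  have hmonic : (∏ r ∈ R, (X - C r)).Monic := monic_prod_of_monic _ _ fun r _ => monic_X_sub_C r
  have hlc : f.leadingCoeff = g.leadingCoeff := by
    rw [hg, leadingCoeff_mul, hmonic.leadingCoeff, one_mul]
  rw [hlc]
  refine prod_mul_leadingCoeff_mem R (fun r => r) ?_ g ?_
  · intro r hr
    have hrA := (hR r hr).2
    refine ⟨fun h0 => hrA (by rw [h0]; exact A.zero_mem), ?_⟩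
    rcases A.mem_or_inv_mem r with h | h
    · exact absurd h hrA
    · exact h
  · rw [← hg]
    exact hf

end Fermat.Agent.S13
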