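import Mathlib
import Fermat.Prelude.Def_FLTPrelim_GaloisRep
import Fermat.Agent.S13.Ip_helper8_Gauss
import Fermat.Agent.EC.Tors_helper6_CountLe
import Fermat.Agent.Tate.R1_helper8
import Fermat.Agent.Tate.LogVal
import Fermat.Agent.Tate.NodeGalois

/-!
# S13 (I-p), part 2: `p`-torsion in the kernel of reduction

`A` a valuation subring of `K`, `W` an integral Weierstrass curve.
* `intPoly_preΨ`: the division polynomials `preΨ_n` have coefficients in `A`;
* `prod_mul_natCast_mem`: for distinct non-integral `x`-coordinates `r ∈ R` of nonzero `p`-torsion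
  points: `(∏_{r ∈ R} r) * p ∈ A`;
* `logVal_prod_le_neg_one`: an inertia-stable nonempty finite set of non-integral points has
  `w (∏ x-coordinates) ≤ -1`;
* `exists_xOf_eq_of_notMem`: if `S` is such a set of `p`-torsion points, every nonzero `p`-torsion
  point in the kernel of reduction has the `x`-coordinate of a point of `S`.
-/

set_option autoImplicit false
set_option linter.unusedSectionVars false

namespace Fermat.Agent.S13

open WeierstrassCurve WeierstrassCurve.Affine Polynomial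
open Fermat.Agent.Tate

variable {K : Type*} [Field K] [DecidableEq K] {A : ValuationSubring K}

theorem intPoly_preΨ {W : Affine K} (hW : IsIntegralCurve A W) (n : ℤ) :
    IntPoly A (W.preΨ n) := by
  let WA : WeierstrassCurve A :=
    ⟨⟨W.a₁, hW.a₁⟩, ⟨W.a₂, hW.a₂⟩, ⟨W.a₃, hW.a₃⟩, ⟨W.a₄, hW.a₄⟩, ⟨W.a₆, hW.a₆⟩⟩
  have e : W = WA.map A.subtype := by ext <;> rfl
  intro j
  rw [e, WeierstrassCurve.map_preΨ, coeff_map]
  exact ((WA.preΨ n).coeff j).2

theorem prod_mul_natCast_mem {W : Affine K} (hW : IsIntegralCurve A W) {p : ℕ} (hp : p.Prime)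
    (hodd : p ≠ 2) (hpK : (p : K) ≠ 0) (R : Finset K)
    (hR : ∀ r ∈ R, r ∉ A ∧ ∃ Q : W.Point, Q ≠ 0 ∧ p • Q = 0 ∧ EC.xOf Q = r) :
    (∏ r ∈ R, r) * (p : K) ∈ A := by
  have h := prod_roots_mul_leadingCoeff_mem R (W.preΨ (p : ℤ)) (intPoly_preΨ hW _) ?_
  · have hpK' : ((p : ℤ) : K) ≠ 0 := by exact_mod_cast hpK
    have hodd' : ¬ Even (p : ℤ) := by
      rw [Int.even_coe_nat]
      exact fun he => hodd ((Nat.Prime.even_iff hp).mp he)
    rw [WeierstrassCurve.leadingCoeff_preΨ W hpK', if_neg hodd'] at h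
    exact_mod_cast h
  · intro r hr
    obtain ⟨hrA, Q, hQ0, hQp, rfl⟩ := hR r hr
    exact ⟨EC.preΨ_eval_xOf_eq_zero hp hodd hQ0 hQp, hrA⟩

section logval

variable (L : LogVal A)

theorem logVal_prodFinset {ι : Type*} (s : Finset ι) (f : ι → K) (hf : ∀ i ∈ s, f i ≠ 0) :
    L.w (∏ i ∈ s, f i) = ∑ i ∈ s, L.w (f i) := by
  classical
  induction s using Finset.induction_on with
  | empty => simp
  | insert a s ha ih =>
    rw [Finset.prod_insert ha, Finset.sum_insert ha,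
      L.map_mul (hf a (Finset.mem_insert_self a s))
        (Finset.prod_ne_zero_iff.mpr fun i hi => hf i (Finset.mem_insert_of_mem hi)),
      ih fun i hi => hf i (Finset.mem_insert_of_mem hi)]

theorem logVal_neg_of_notMem {r : K} (hr : r ∉ A) : L.w r < 0 := by
  by_contra h
  push Not at h
  exact hr (L.mem_of_nonneg (Or.inr h))

end logval

section galois

variable [Algebra ℚ K] {W' : Affine ℚ} (L : LogVal A)

theorem xOf_smul (σ : K ≃ₐ[ℚ] K) (Q : (W'⁄K).Point) : EC.xOf (σ • Q) = σ (EC.xOf Q) := by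
  rcases Q with _ | ⟨x, y, h⟩
  · exact (map_zero σ).symm
  · rfl

/-- an inertia-stable nonempty finite set of non-integral points has `w (∏ x) ≤ -1` -/
theorem logVal_prod_le_neg_one (I : Set (K ≃ₐ[ℚ] K))
    (hval : ∀ y : K, y ≠ 0 → (∀ σ ∈ I, σ y = y) → ∃ m : ℤ, L.w y = m)
    (S : Finset (W'⁄K).Point) (hne : S.Nonempty) (hS : ∀ Q ∈ S, EC.xOf Q ∉ A)
    (hSI : ∀ σ ∈ I, ∀ Q ∈ S, σ • Q ∈ S) :
    L.w (∏ r ∈ S.image EC.xOf, r) ≤ -1 := by
  set R := S.image EC.xOf with hR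
  have hRA : ∀ r ∈ R, r ∉ A := by
    intro r hr
    obtain ⟨Q, hQ, rfl⟩ := Finset.mem_image.mp hr
    exact hS Q hQ
  have hR0 : ∀ r ∈ R, r ≠ 0 := fun r hr h0 => hRA r hr (h0 ▸ A.zero_mem)
  have hy0 : (∏ r ∈ R, r) ≠ 0 := Finset.prod_ne_zero_iff.mpr hR0
  have hfix : ∀ σ ∈ I, σ (∏ r ∈ R, r) = ∏ r ∈ R, r := by
    intro σ hσ
    rw [map_prod]
    have himg : R.image σ = R := by
      apply Finset.eq_of_subset_of_card_le
      · intro r hr
        obtain ⟨r', hr', rfl⟩ := Finset.mem_image.mp hr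
        obtain ⟨Q, hQ, rfl⟩ := Finset.mem_image.mp hr'
        rw [← xOf_smul]
        exact Finset.mem_image_of_mem _ (hSI σ hσ Q hQ)
      · rw [Finset.card_image_of_injective _ σ.injective]
    conv_rhs => rw [← himg]
    rw [Finset.prod_image fun a _ b _ h => σ.injective h]
  obtain ⟨m, hm⟩ := hval _ hy0 hfix
  have hneg : L.w (∏ r ∈ R, r) < 0 := by
    rw [logVal_prodFinset L R (fun r => r) hR0]
    obtain ⟨Q, hQ⟩ := hne
    exact Finset.sum_neg (fun r hr => logVal_neg_of_notMem L (hRA r hr))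
      ⟨EC.xOf Q, Finset.mem_image_of_mem _ hQ⟩
  rw [hm] at hneg ⊢
  have : m < 0 := by exact_mod_cast hneg
  have : m ≤ -1 := by omega
  exact_mod_cast this

/-- **(C2)**: if `S` is an inertia-stable nonempty finite set of nonzero `p`-torsion points in the
kernel of reduction, then every nonzero `p`-torsion point in the kernel of reduction has the
`x`-coordinate of a point of `S`. -/
theorem exists_xOf_eq_of_notMem (hW : IsIntegralCurve A (W'⁄K)) {p : ℕ} (hp : p.Prime)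
    (hodd : p ≠ 2) (hpK : (p : K) ≠ 0) (hL : L.w (p : K) = 1) (I : Set (K ≃ₐ[ℚ] K))
    (hval : ∀ y : K, y ≠ 0 → (∀ σ ∈ I, σ y = y) → ∃ m : ℤ, L.w y = m)
    (S : Finset (W'⁄K).Point) (hne : S.Nonempty)
    (hS : ∀ Q ∈ S, Q ≠ 0 ∧ p • Q = 0 ∧ EC.xOf Q ∉ A)
    (hSI : ∀ σ ∈ I, ∀ Q ∈ S, σ • Q ∈ S)
    {Q : (W'⁄K).Point} (hQ0 : Q ≠ 0) (hQp : p • Q = 0) (hQA : EC.xOf Q ∉ A) :
    ∃ Q' ∈ S, EC.xOf Q = EC.xOf Q' := by
  by_contra hcon
  push Not at hcon
  set R := S.image EC.xOf with hR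
  have hQR : EC.xOf Q ∉ R := by
    intro h
    obtain ⟨Q', hQ', e⟩ := Finset.mem_image.mp h
    exact hcon Q' hQ' e.symm
  have hle := logVal_prod_le_neg_one L I hval S hne (fun Q hQ => (hS Q hQ).2.2) hSI
  have hmem := prod_mul_natCast_mem hW hp hodd hpK (insert (EC.xOf Q) R) ?_
  · rw [Finset.prod_insert hQR] at hmem
    have hRA : ∀ r ∈ R, r ≠ 0 := by
      intro r hr h0
      obtain ⟨Q', hQ', rfl⟩ := Finset.mem_image.mp hr
      exact (hS Q' hQ').2.2 (h0 ▸ A.zero_mem)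
    have hx0 : EC.xOf Q ≠ 0 := fun h0 => hQA (h0 ▸ A.zero_mem)
    have hy0 : (∏ r ∈ R, r) ≠ 0 := Finset.prod_ne_zero_iff.mpr hRA
    have h1 := L.nonneg_of_mem (mul_ne_zero (mul_ne_zero hx0 hy0) hpK) hmem
    rw [L.map_mul (mul_ne_zero hx0 hy0) hpK, L.map_mul hx0 hy0, hL] at h1
    have h2 := logVal_neg_of_notMem L hQA
    linarith
  · intro r hr
    rcases Finset.mem_insert.mp hr with rfl | hr
    · exact ⟨hQA, Q, hQ0, hQp, rfl⟩
    · obtain ⟨Q', hQ', rfl⟩ := Finset.mem_image.mp hr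
      exact ⟨(hS Q' hQ').2.2, Q', (hS Q' hQ').1, (hS Q' hQ').2.1, rfl⟩

end galois

end Fermat.Agent.S13
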