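import Mathlib
import Fermat.Prelude.Def_FLTPrelim_GaloisRep
import Fermat.Agent.EC.InertiaField_helper5
import Fermat.Agent.EC.Tors_helper6_Points
import Fermat.Agent.Tate.R1_helper8

/-!
# S13 package (I-p), step (P-1) (helper5)

`sum_logVal_xOf_le_neg_two`: for an integral Weierstrass model over a valuation subring `A` of `ℚ̄`
above `p` and a nonempty finite set `S` of nonzero points in the kernel of reduction which is stable
under the inertia subgroup of `A`, `∑_{Q ∈ S} w(x(Q)) ≤ -2` (`w` normalised by `w(p) = 1`).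

Proof: `y := ∏_{Q ∈ S} z(Q)` (`z = -x/y`) is inertia-invariant, so `w(y) ∈ ℤ` (value group of the
inertia field, `logVal_eq_intCast_of_fixed`), `w(y) > 0`, and `w(x(Q)) = -2 w(z(Q))` on the kernel
of reduction.
-/

set_option autoImplicit false

open WeierstrassCurve WeierstrassCurve.Affine WeierstrassCurve.Affine.Point

namespace Fermat.Agent.S13

open Fermat.Agent.CFT.S14 Fermat.Agent.EC Fermat.Agent.Tate

section LogVal

variable {K : Type*} [Field K] {A : ValuationSubring K} (L : LogVal A)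

/-- elements with the same valuation have the same logarithmic valuation -/
theorem logVal_eq_of_valuation_eq {a b : K} (ha : a ≠ 0) (hb : b ≠ 0)
    (h : A.valuation a = A.valuation b) : L.w a = L.w b := by
  have hne : a / b ≠ 0 := div_ne_zero ha hb
  have h1 : A.valuation (a / b) = 1 := by
    rw [map_div₀, h]
    exact div_self ((Valuation.ne_zero_iff _).mpr hb)
  have h2 : L.w (a / b) = 0 :=
    (L.eq_zero_iff hne).mpr ⟨(A.valuation_le_one_iff _).mp h1.le,
      (A.valuation_le_one_iff _).mp (by rw [map_inv₀, h1, inv_one])⟩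
  rw [L.map_div ha hb] at h2
  linarith

/-- the logarithmic valuation of a finite product -/
theorem logVal_prod {ι : Type*} (S : Finset ι) (f : ι → K) (hf : ∀ i ∈ S, f i ≠ 0) :
    L.w (∏ i ∈ S, f i) = ∑ i ∈ S, L.w (f i) := by
  classical
  induction S using Finset.induction_on with
  | empty => simp
  | insert a S ha ih =>
    rw [Finset.prod_insert ha, Finset.sum_insert ha,
      L.map_mul (hf a (Finset.mem_insert_self a S))
        (Finset.prod_ne_zero_iff.mpr fun i hi => hf i (Finset.mem_insert_of_mem hi)),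
      ih fun i hi => hf i (Finset.mem_insert_of_mem hi)]

end LogVal

section KerRed

variable {K : Type*} [Field K] [DecidableEq K] {A : ValuationSubring K} (L : LogVal A)
  {W : Affine K}

/-- on the kernel of reduction: `z = -x/y ≠ 0`, `w(z) > 0` and `w(x) = -2 w(z)` -/
theorem logVal_xOf_eq (hW : IsIntegralCurve A W) {Q : W.Point} (hQ : Q ≠ 0)
    (hx : xOf Q ∉ A) :
    R1.zOf Q ≠ 0 ∧ 0 < L.w (R1.zOf Q) ∧ L.w (xOf Q) = -2 * L.w (R1.zOf Q) := by
  rcases Q with _ | ⟨x, y, h⟩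
  · exact absurd rfl hQ
  have hx' : x ∉ A := hx
  have hvx : 1 < A.valuation x := one_lt_valuation_iff_not_mem.mpr hx'
  have heq : y ^ 2 + W.a₁ * x * y + W.a₃ * y = x ^ 3 + W.a₂ * x ^ 2 + W.a₄ * x + W.a₆ :=
    (equation_iff _ _).mp h.1
  obtain ⟨hy0, hz, hw, hz0⟩ := R1.zw_small hW.intCoeffs heq hvx
  have hcurve := R1.zw_equation W h.1 hy0
  have hvw := R1.v_w_eq hW.intCoeffs hz hw hcurve
  have hx0 : x ≠ 0 := by
    rintro rfl
    exact hx' A.zero_mem
  have hw0 : (-1 : K) / y ≠ 0 := div_ne_zero (neg_ne_zero.mpr one_ne_zero) hy0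
  have hz3 : (-x / y) ^ 3 ≠ 0 := pow_ne_zero 3 hz0
  have h1 : L.w (-1 / y) = 3 * L.w (-x / y) := by
    rw [logVal_eq_of_valuation_eq L hw0 hz3 (by rw [hvw, map_pow]), L.map_pow hz0]
    norm_num
  have h2 : x = (-x / y) / (-1 / y) := by
    field_simp
  have h3 : L.w x = L.w (-x / y) - L.w (-1 / y) := by
    conv_lhs => rw [h2]
    exact L.map_div hz0 hw0
  refine ⟨hz0, ?_, ?_⟩
  · exact L.pos_of_mem_nonunits hz0 ((A.mem_nonunits_iff).mpr hz)
  · show L.w x = -2 * L.w (-x / y)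
    rw [h3, h1]; ring

end KerRed

/-- the `z`-coordinate is Galois equivariant -/
theorem zOf_smul {W' : Affine ℚ} (σ : GQ) (Q : (W'⁄Qbar).Point) :
    R1.zOf (σ • Q) = σ (R1.zOf Q) := by
  rcases Q with _ | ⟨x, y, h⟩
  · show (0 : Qbar) = σ 0
    rw [_root_.map_zero]
  · show -(σ x) / (σ y) = σ (-x / y)
    rw [map_div₀, _root_.map_neg]

/-- **(P-1)** -/
theorem sum_logVal_xOf_le_neg_two {p : ℕ} (hp : p.Prime) (A : ValuationSubring Qbar)
    (hA : A.LiesOverPrime p) (L : Tate.LogVal A) (hL : L.w (p : Qbar) = 1) (W' : Affine ℚ)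
    (hW : Tate.IsIntegralCurve A (W'⁄Qbar)) (S : Finset (W'⁄Qbar).Point) (hne : S.Nonempty)
    (hS : ∀ Q ∈ S, Q ≠ 0 ∧ xOf Q ∉ A)
    (hSI : ∀ σ ∈ A.inertiaSubgroupIn ℚ, ∀ Q ∈ S, σ • Q ∈ S) :
    ∑ Q ∈ S, L.w (xOf Q) ≤ -2 := by
  classical
  have hfacts : ∀ Q ∈ S, R1.zOf Q ≠ 0 ∧ 0 < L.w (R1.zOf Q) ∧
      L.w (xOf Q) = -2 * L.w (R1.zOf Q) := fun Q hQ =>
    logVal_xOf_eq L hW (hS Q hQ).1 (hS Q hQ).2
  set y : Qbar := ∏ Q ∈ S, R1.zOf Q with hy
  have hy0 : y ≠ 0 := Finset.prod_ne_zero_iff.mpr fun Q hQ => (hfacts Q hQ).1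
  have hwy : L.w y = ∑ Q ∈ S, L.w (R1.zOf Q) :=
    logVal_prod L S _ fun Q hQ => (hfacts Q hQ).1
  -- `y` is inertia invariant
  have hfix : ∀ σ ∈ A.inertiaSubgroupIn ℚ, σ y = y := by
    intro σ hσ
    have hσinv : σ⁻¹ ∈ A.inertiaSubgroupIn ℚ := inv_mem hσ
    rw [hy, map_prod]
    refine Finset.prod_bij' (fun Q _ => σ • Q) (fun Q _ => σ⁻¹ • Q) ?_ ?_ ?_ ?_ ?_
    · intro Q hQ; exact hSI σ hσ Q hQ
    · intro Q hQ; exact hSI σ⁻¹ hσinv Q hQ
    · intro Q _; exact inv_smul_smul σ Q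
    · intro Q _; exact smul_inv_smul σ Q
    · intro Q _; exact (zOf_smul σ Q).symm
  obtain ⟨m, hm⟩ := logVal_eq_intCast_of_fixed L hp hA hL y hy0 hfix
  have hpos : 0 < L.w y := by
    rw [hwy]
    exact Finset.sum_pos (fun Q hQ => (hfacts Q hQ).2.1) hne
  have hm1 : (1 : ℚ) ≤ m := by
    rw [hm] at hpos
    have : 0 < m := by exact_mod_cast hpos
    exact_mod_cast this
  have hsum : ∑ Q ∈ S, L.w (xOf Q) = -2 * L.w y := by
    rw [hwy, Finset.mul_sum]
    exact Finset.sum_congr rfl fun Q hQ => (hfacts Q hQ).2.2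
  rw [hsum, hm]
  linarith

end Fermat.Agent.S13
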