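import Mathlib
import Fermat.Agent.Tate.Chord
import Fermat.Agent.Tate.NodeTorsion
import Fermat.Agent.Tate.R1_helper8

/-!
# S13 (I-p), part 3: chord lemmas without torsion hypotheses

`W` an integral Weierstrass curve over `K ⊇ A`.
* `sub_mem_kerRed_of_congr`: two integral points congruent modulo `𝔪`, with nonsingular reduction,
  differ by an element of the kernel of reduction;
* `NodeCtx.IsModel.sub_mem_kerRed_of_close`: the same for two points near the node of the nodal
  model which are close to each other;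
* `NodeCtx.IsModel.torsion_near_node'`: torsion points near the node, all of whose multiples are
  integral, have depth in `(n/p) ℤ`.
-/

set_option autoImplicit false
set_option linter.unusedSectionVars false

namespace Fermat.Agent.S13

open WeierstrassCurve WeierstrassCurve.Affine
open Fermat.Agent.Tate

variable {K : Type*} [Field K] [DecidableEq K] {A : ValuationSubring K} {W : Affine K}

theorem addX_notMem (hW : IsIntegralCurve A W) {x₁ x₂ l : K} (hx₁ : x₁ ∈ A) (hx₂ : x₂ ∈ A)
    (hl : l ∉ A) : W.addX x₁ x₂ l ∉ A := by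
  have e : W.addX x₁ x₂ l = l ^ 2 + W.a₁ * l + (-W.a₂ - x₁ - x₂) := by
    simp only [Affine.addX]; ring
  rw [e]
  exact sq_add_not_mem hl hW.a₁ (sub_mem (sub_mem (neg_mem hW.a₂) hx₁) hx₂)

/-- **chord lemma**: two integral points which are congruent modulo `𝔪`, with nonsingular
reduction, differ by an element of the kernel of reduction. -/
theorem sub_mem_kerRed_of_congr (hW : IsIntegralCurve A W) {x y x' y' : K}
    (h : W.Nonsingular x y) (h' : W.Nonsingular x' y') (hx : x ∈ A) (hy : y ∈ A)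
    (hxx' : x' - x ∈ A.nonunits) (hyy' : y' - y ∈ A.nonunits)
    (hred : ¬ (3 * x ^ 2 + 2 * W.a₂ * x + W.a₄ - W.a₁ * y ∈ A.nonunits ∧
      2 * y + W.a₁ * x + W.a₃ ∈ A.nonunits)) :
    Point.some x' y' h' - Point.some x y h ∈ kerRed hW := by
  have hx' : x' ∈ A := by
    have := A.add_mem _ _ (A.nonunits_le hxx') hx
    rwa [sub_add_cancel] at this
  have hy' : y' ∈ A := by
    have := A.add_mem _ _ (A.nonunits_le hyy') hy
    rwa [sub_add_cancel] at this
  rw [sub_eq_add_neg, Point.neg_some]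
  by_cases hxy : x' = x ∧ y' = W.negY x (W.negY x y)
  · rw [Point.add_of_Y_eq hxy.1 hxy.2]
    exact (kerRed hW).zero_mem
  rw [Point.add_some hxy, some_mem_kerRed_iff]
  apply addX_notMem hW hx' hx
  have hn : ∀ n : ℕ, (n : K) ∈ A := fun n => natCast_mem A n
  have h2A : (2 : K) ∈ A := by exact_mod_cast hn 2
  have h3A : (3 : K) ∈ A := by exact_mod_cast hn 3
  by_cases hxe : x' = x
  · -- `P' = -P`, doubling
    subst hxe
    have hyne : y' ≠ W.negY x' (W.negY x' y) := fun hh => hxy ⟨rfl, hh⟩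
    have hy'e : y' = W.negY x' y := by
      rcases Y_eq_of_X_eq h'.1 ((nonsingular_neg ..).mpr h).1 rfl with hh | hh
      · exact hh
      · exact absurd hh hyne
    rw [slope_of_Y_ne rfl hyne, hy'e]
    have hψ : 2 * y + W.a₁ * x' + W.a₃ ∈ A.nonunits := by
      have e : 2 * y + W.a₁ * x' + W.a₃ = -(y' - y) := by
        rw [hy'e, Affine.negY]; ring
      rw [e]
      exact A.nonunits.neg_mem hyy'
    have hφ : 3 * x' ^ 2 + 2 * W.a₂ * x' + W.a₄ - W.a₁ * y ∉ A.nonunits :=
      fun h1 => hred ⟨h1, hψ⟩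
    have hD : W.negY x' y - W.negY x' (W.negY x' y) = -(2 * y + W.a₁ * x' + W.a₃) := by
      simp only [Affine.negY]; ring
    have hD0 : W.negY x' y - W.negY x' (W.negY x' y) ≠ 0 := by
      intro h0
      apply hyne
      rw [hy'e]
      exact sub_eq_zero.mp h0
    refine div_not_mem ?_ ?_ hD0
    · have e : 3 * x' ^ 2 + 2 * W.a₂ * x' + W.a₄ - W.a₁ * W.negY x' y =
          (3 * x' ^ 2 + 2 * W.a₂ * x' + W.a₄ - W.a₁ * y) +
            W.a₁ * (2 * y + W.a₁ * x' + W.a₃) := by
        simp only [Affine.negY]; ring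
      rw [e]
      exact add_not_mem_nonunits hφ (mul_mem_nonunits_right hW.a₁ hψ)
    · rw [hD]
      exact A.nonunits.neg_mem hψ
  · rw [slope_of_X_ne hxe]
    have hd0 : x' - x ≠ 0 := sub_ne_zero.mpr hxe
    by_cases hψ : 2 * y + W.a₁ * x + W.a₃ ∈ A.nonunits
    · -- second expression of the slope
      have hφ : 3 * x ^ 2 + 2 * W.a₂ * x + W.a₄ - W.a₁ * y ∉ A.nonunits :=
        fun h1 => hred ⟨h1, hψ⟩
      obtain ⟨Φ, hΦ⟩ : ∃ Φ : K, Φ = x' ^ 2 + x' * x + x ^ 2 + W.a₂ * (x' + x) + W.a₄ - W.a₁ * y' :=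
        ⟨_, rfl⟩
      have hΦu : Φ ∉ A.nonunits := by
        have e : Φ = (3 * x ^ 2 + 2 * W.a₂ * x + W.a₄ - W.a₁ * y) +
            ((x' - x) * (x' + 2 * x + W.a₂) - W.a₁ * (y' - y)) := by
          rw [hΦ]; ring
        rw [e]
        refine add_not_mem_nonunits hφ (A.nonunits.sub_mem ?_ (mul_mem_nonunits_right hW.a₁ hyy'))
        exact mul_mem_nonunits_left hxx' (add_mem (add_mem hx' (mul_mem h2A hx)) hW.a₂)
      have hid : (y' - W.negY x y) * (y' - y) = (x' - x) * Φ := by
        have e1 := (equation_iff ..).mp h.1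
        have e2 := (equation_iff ..).mp h'.1
        rw [hΦ]
        simp only [Affine.negY]
        linear_combination e2 - e1
      have hy0 : y' - y ≠ 0 := by
        intro h0
        rw [h0, mul_zero] at hid
        have : Φ = 0 := (mul_eq_zero.mp hid.symm).resolve_left hd0
        exact hΦu (this ▸ A.nonunits.zero_mem)
      have hsl : (y' - W.negY x y) / (x' - x) = Φ / (y' - y) := by
        rw [div_eq_div_iff hd0 hy0, hid]
        ring
      rw [hsl]
      exact div_not_mem hΦu hyy' hy0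
    · refine div_not_mem ?_ hxx' hd0
      have e : y' - W.negY x y = (2 * y + W.a₁ * x + W.a₃) + (y' - y) := by
        rw [Affine.negY]; ring
      rw [e]
      exact add_not_mem_nonunits hψ hyy'

namespace NodeCtxAux

variable {C : NodeCtx K A}

/-- **Torsion points near the node** whose multiples are all integral: their depth lies in
`(n/p) ℤ`, and they are not on the middle component. -/
theorem torsion_near_node' (hM : C.IsModel W) {p : ℕ} (hp : p.Prime) (hp2 : p ≠ 2)
    {x y : K} (h : W.Nonsingular x y) (ht : p • Point.some x y h = 0)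
    (hint : ∀ j : ℕ, j ≤ p → IntegralPt A (j • Point.some x y h)) (hx : x ∈ A.nonunits) :
    x ≠ 0 ∧ y ≠ 0 ∧ C.L.w y = C.L.w x ∧ 2 * C.L.w x < C.n ∧
      ∃ m : ℤ, (p : ℚ) * C.L.w x = m * C.n := by
  have hn := C.n_pos
  obtain ⟨k, hk⟩ := hM.depthPt_nsmul (Point.some x y h) p hint
  rw [ht, NodeCtx.depthPt_zero, NodeCtx.depthPt_some] at hk
  have hN := hM.nearPt h.1 hx
  have hpodd : Odd p := hp.odd_of_ne_two hp2
  have h2y : ∀ a b : K, a = y - C.α * x → b = y + C.α * x → 2 * y = b + a := by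
    intro a b ha hb; rw [ha, hb]; ring
  have ydone : ∀ z : K, z ≠ 0 → C.L.w z = C.L.w x → 2 * y = z → y ≠ 0 ∧ C.L.w y = C.L.w x := by
    intro z hz hwz h2
    have hy0 : y ≠ 0 := by
      rintro rfl
      rw [mul_zero] at h2
      exact hz h2.symm
    refine ⟨hy0, ?_⟩
    have := C.L.map_mul C.two_ne hy0
    rw [h2, hwz, C.two_unit, zero_add] at this
    exact this.symm
  rcases hN.classify with hc | hc | hc
  · exfalso
    rw [hc.depth_eq hx] at hk
    obtain ⟨j, rfl⟩ := hpodd
    have h1 : ((2 * j + 1 : ℕ) : ℚ) * (C.n / 2) + k * C.n = 0 := by linarith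
    have h2 : ((2 * (j : ℤ) + 1 + 2 * k : ℤ) : ℚ) * C.n = 0 := by
      push_cast at h1 ⊢
      linarith
    rcases mul_eq_zero.mp h2 with h3 | h3
    · have h4 : (2 * (j : ℤ) + 1 + 2 * k : ℤ) = 0 := by exact_mod_cast h3
      omega
    · linarith
  · rw [hc.depth_eq hx] at hk
    obtain ⟨hb0, hwb⟩ := C.L.map_add_of_gt hc.hb (by rw [hc.hwb]; exact hc.ha)
    rw [hc.hwb] at hwb
    obtain ⟨hy0, hwy⟩ := ydone _ hb0 hwb (h2y _ _ rfl rfl)
    exact ⟨hc.hx0, hy0, hwy, hc.hx, -k, by push_cast; linarith⟩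
  · rw [hc.depth_eq hx] at hk
    obtain ⟨ha0, hwa⟩ := C.L.map_add_of_gt' hc.ha (by rw [hc.hwa]; exact hc.hb)
    rw [hc.hwa] at hwa
    obtain ⟨hy0, hwy⟩ := ydone _ ha0 hwa (h2y _ _ rfl rfl)
    exact ⟨hc.hx0, hy0, hwy, hc.hx, (p : ℤ) + k, by push_cast; linarith⟩

/-- **Chord lemma near the node**: two points which are close to each other differ by an element
of the kernel of reduction. -/
theorem sub_mem_kerRed_of_close (hM : C.IsModel W) (hW : IsIntegralCurve A W)
    {x y x' y' : K} (h : W.Nonsingular x y) (h' : W.Nonsingular x' y')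
    (hx0 : x ≠ 0) (hy0 : y ≠ 0) (hwy : C.L.w y = C.L.w x) (hxA : x ∈ A) (hx'A : x' ∈ A)
    (hcx : C.L.Gt (C.L.w x) (x' - x)) (hcy : C.L.Gt (C.L.w y) (y' - y)) :
    Point.some x' y' h' - Point.some x y h ∈ kerRed hW := by
  by_cases hxx : x' = x
  · subst hxx
    rcases Y_eq_of_X_eq h'.1 h.1 rfl with hyy | hyy
    · subst hyy
      rw [sub_self]
      exact (kerRed hW).zero_mem
    · exfalso
      rw [hM.negY] at hyy
      have e : y' - y = -(2 * y) := by rw [hyy]; ring
      rw [e] at hcy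
      have := hcy.lt (neg_ne_zero.mpr (mul_ne_zero C.two_ne hy0))
      rw [C.L.map_neg, C.L.map_mul C.two_ne hy0, C.two_unit] at this
      linarith
  have hne : ¬ (x' = x ∧ y' = W.negY x (W.negY x y)) := fun hh => hxx hh.1
  rw [sub_eq_add_neg, Point.neg_some, Point.add_some hne, some_mem_kerRed_iff]
  apply addX_notMem hW hx'A hxA
  intro hlA
  have hlv : W.slope x' x y' (W.negY x y) = (y' + y) / (x' - x) := by
    rw [slope_of_X_ne hxx, hM.negY]; ring
  rw [hlv] at hlA
  have hd0 : x' - x ≠ 0 := sub_ne_zero.mpr hxx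
  have hwd := hcx.lt hd0
  have hnum : y' + y ≠ 0 ∧ C.L.w (y' + y) = C.L.w y := by
    have e : y' + y = 2 * y + (y' - y) := by ring
    rw [e]
    have h2y : C.L.w (2 * y) = C.L.w y := by rw [C.L.map_mul C.two_ne hy0, C.two_unit, zero_add]
    have := C.L.map_add_of_gt (mul_ne_zero C.two_ne hy0) (by rw [h2y]; exact hcy)
    rwa [h2y] at this
  have hl0 : (y' + y) / (x' - x) ≠ 0 := div_ne_zero hnum.1 hd0
  have hwl : C.L.w ((y' + y) / (x' - x)) < 0 := by
    rw [C.L.map_div hnum.1 hd0, hnum.2]; linarith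
  have := C.L.nonneg_of_mem hl0 hlA
  linarith

end NodeCtxAux

end Fermat.Agent.S13
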