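import Mathlib
import Fermat.Prelude.Def_FLTPrelim_GaloisRep
import Fermat.Agent.S13.Ip_helper8_Chord
import Fermat.Agent.Tate.NodeGalois
import Fermat.Agent.Tate.NonsingRed

/-!
# S13 (I-p), part 4: inertia moves integral torsion points inside the kernel of reduction

`σ` an automorphism stabilising `A` and acting trivially modulo `𝔪` (an element of the inertia
group).  For a point `Q` of an integral Weierstrass curve:
* `smul_sub_mem_kerRed_of_good`: good reduction, `Q` integral ⇒ `σ • Q - Q ∈ E₁`;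
* `smul_sub_mem_kerRed_of_node`: nodal model with `n = w(a₆) = 2 p k`, `σ π = π`, `w π = 1`,
  `Q` a `p`-torsion point all of whose multiples are integral ⇒ `σ • Q - Q ∈ E₁`.
-/

set_option autoImplicit false
set_option linter.unusedSectionVars false

namespace Fermat.Agent.S13

open WeierstrassCurve WeierstrassCurve.Affine
open scoped WeierstrassCurve.Affine
open Fermat.Agent.Tate

variable {K : Type*} [Field K] [DecidableEq K] {A : ValuationSubring K}
  {R : Type*} {S : Type*} [CommRing R] [CommRing S] [Algebra R S]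
  [Algebra R K] [Algebra S K] [IsScalarTower R S K]

/-- **good case** -/
theorem smul_sub_mem_kerRed_of_good (W' : Affine R) (hW : IsIntegralCurve A (W'⁄K))
    (hΔ : (W'⁄K).Δ ∉ A.nonunits) (σ : K ≃ₐ[S] K)
    (hσ : ∀ a ∈ A, σ a ∈ A ∧ σ a - a ∈ A.nonunits)
    (Q : (W'⁄K).Point) (hQ : IntegralPt A Q) : σ • Q - Q ∈ kerRed hW := by
  rcases Q with _ | ⟨x, y, h⟩
  · have : σ • (0 : (W'⁄K).Point) - 0 = 0 := by rw [smul_zero, sub_zero]
    exact this ▸ (kerRed hW).zero_mem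
  obtain ⟨hxA, hyA⟩ := hQ
  rw [smul_some]
  exact sub_mem_kerRed_of_congr hW h _ hxA hyA (hσ x hxA).2 (hσ y hyA).2
    (not_partials_mem_of_Δ hW.a₁ hW.a₂ hΔ hxA h.1)

/-- **nodal case** -/
theorem smul_sub_mem_kerRed_of_node (W' : Affine R) (C : NodeCtx K A) (hM : C.IsModel (W'⁄K))
    (hW : IsIntegralCurve A (W'⁄K)) {p : ℕ} (hp : p.Prime) (hp2 : p ≠ 2)
    {π : K} (hπ0 : π ≠ 0) (hπ : C.L.w π = 1) (k : ℕ) (hn : C.n = 2 * p * k)
    (σ : K ≃ₐ[S] K) (hσπ : σ π = π) (hσ : ∀ a ∈ A, σ a ∈ A ∧ σ a - a ∈ A.nonunits)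
    (Q : (W'⁄K).Point) (hQ : p • Q = 0) (hint : ∀ j : ℕ, j ≤ p → IntegralPt A (j • Q)) :
    σ • Q - Q ∈ kerRed hW := by
  rcases Q with _ | ⟨x, y, h⟩
  · have : σ • (0 : (W'⁄K).Point) - 0 = 0 := by rw [smul_zero, sub_zero]
    exact this ▸ (kerRed hW).zero_mem
  obtain ⟨hxA, hyA⟩ : x ∈ A ∧ y ∈ A := by
    have := hint 1 hp.one_lt.le
    rwa [one_smul] at this
  rw [smul_some]
  have hp0 : (p : ℚ) ≠ 0 := Nat.cast_ne_zero.mpr hp.ne_zero
  have hσ' : ∀ a ∈ A, (σ : K →+* K) a - a ∈ A.nonunits := fun a ha => (hσ a ha).2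
  by_cases hx : x ∈ A.nonunits
  · -- near the node
    obtain ⟨hx0, hy0, hwy, -, m, hm⟩ := NodeCtxAux.torsion_near_node' hM hp hp2 h hQ hint hx
    have hj : C.L.w x = ((2 * m * k : ℤ) : ℚ) := by
      rw [hn] at hm
      have : (p : ℚ) * C.L.w x = p * (2 * m * k) := by rw [hm]; ring
      have := mul_left_cancel₀ hp0 this
      rw [this]; push_cast; ring
    have hcx : C.L.Gt (C.L.w x) (σ x - x) :=
      C.L.gt_of_inertia hπ0 hπ (σ := (σ : K →+* K)) hσπ hσ' hx0 hj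
    have hcy : C.L.Gt (C.L.w y) (σ y - y) :=
      C.L.gt_of_inertia hπ0 hπ (σ := (σ : K →+* K)) hσπ hσ' hy0 (hwy.trans hj)
    exact NodeCtxAux.sub_mem_kerRed_of_close hM hW h _ hx0 hy0 hwy hxA (hσ x hxA).1 hcx hcy
  · -- away from the node: nonsingular reduction
    have h2 : (2 : K) ∉ A.nonunits := by
      intro h2
      have := C.L.pos_of_mem_nonunits C.two_ne h2
      rw [C.two_unit] at this
      exact lt_irrefl _ this
    have hred := not_partials_mem_of_node hM.a₁ hM.a₃ hW.a₂ h2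
      (by rw [hM.a₄]; exact C.a₄_mem) (by rw [hM.a₆]; exact C.a₆_mem) hxA hyA hx h.1
    exact sub_mem_kerRed_of_congr hW h _ hxA hyA (hσ x hxA).2 (hσ y hyA).2 hred

end Fermat.Agent.S13

namespace Fermat.Agent.S13

open WeierstrassCurve WeierstrassCurve.Affine
open scoped WeierstrassCurve.Affine
open Fermat.Agent.Tate

variable {K : Type*} [Field K] [DecidableEq K] {A : ValuationSubring K}
  {R : Type*} {S : Type*} [CommRing R] [CommRing S] [Algebra R S]
  [Algebra R K] [Algebra S K] [IsScalarTower R S K]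

/-- **nodal case**, from the explicit normal form `y² = (x² - d²)(x + c)` with `c = α²` a
unit and `d = π^(p k) · unit` -/
theorem smul_sub_mem_kerRed_of_nodal_form (W' : Affine R) (L : LogVal A) {π : K} (hπ0 : π ≠ 0)
    (hπ : L.w π = 1) {α c d : K} (hα : α ^ 2 = c)
    (h1 : (W'⁄K).a₁ = 0) (h2 : (W'⁄K).a₂ = c) (h3 : (W'⁄K).a₃ = 0) (h4 : (W'⁄K).a₄ = -d ^ 2)
    (h6 : (W'⁄K).a₆ = -d ^ 2 * c) (hcA : c ∈ A) (hcu : c ∉ A.nonunits)
    (two_ne : (2 : K) ≠ 0) (h2u : (2 : K) ∉ A.nonunits)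
    {p : ℕ} (hp : p.Prime) (hp2 : p ≠ 2) {k : ℕ} (hk : 0 < k) {d' : K} (hd'A : d' ∈ A)
    (hd'u : d' ∉ A.nonunits) (hd : d = π ^ (p * k) * d')
    (hW : IsIntegralCurve A (W'⁄K))
    (σ : K ≃ₐ[S] K) (hσπ : σ π = π) (hσ : ∀ a ∈ A, σ a ∈ A ∧ σ a - a ∈ A.nonunits)
    (Q : (W'⁄K).Point) (hQ : p • Q = 0) (hint : ∀ j : ℕ, j ≤ p → IntegralPt A (j • Q)) :
    σ • Q - Q ∈ kerRed hW := by
  have hc0 : c ≠ 0 := by rintro rfl; exact hcu A.nonunits.zero_mem
  have hd'0 : d' ≠ 0 := by rintro rfl; exact hd'u A.nonunits.zero_mem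
  have hα0 : α ≠ 0 := by rintro rfl; exact hc0 (by rw [← hα]; ring)
  have hπpk : π ^ (p * k) ≠ 0 := pow_ne_zero _ hπ0
  have hd0 : d ≠ 0 := by rw [hd]; exact mul_ne_zero hπpk hd'0
  have hwc : L.w c = 0 := L.eq_zero_of_unit hcA hcu
  have hwd' : L.w d' = 0 := L.eq_zero_of_unit hd'A hd'u
  have hwα : L.w α = 0 := by
    have : L.w (α ^ 2) = 0 := by rw [hα]; exact hwc
    rw [L.map_pow hα0] at this
    push_cast at this
    linarith
  have hwd : L.w d = p * k := by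
    rw [hd, L.map_mul hπpk hd'0, L.map_pow hπ0, hπ, hwd']
    push_cast; ring
  have hd2 : d ^ 2 ≠ 0 := pow_ne_zero 2 hd0
  have hwd2 : L.w (-d ^ 2) = 2 * p * k := by
    rw [L.map_neg, L.map_pow hd0, hwd]; push_cast; ring
  have hw6 : L.w (-d ^ 2 * c) = 2 * p * k := by
    rw [L.map_mul (neg_ne_zero.mpr hd2) hc0, hwd2, hwc, add_zero]
  have hpos : (0 : ℚ) < 2 * p * k := by
    have : (0 : ℚ) < p := Nat.cast_pos.mpr hp.pos
    have : (0 : ℚ) < k := Nat.cast_pos.mpr hk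
    positivity
  let C : NodeCtx K A :=
    { L := L
      α := α
      a₄ := -d ^ 2
      a₆ := -d ^ 2 * c
      α_ne := hα0
      α_unit := hwα
      two_ne := two_ne
      two_unit := L.eq_zero_of_unit (by exact_mod_cast natCast_mem A 2) h2u
      a₆_ne := mul_ne_zero (neg_ne_zero.mpr hd2) hc0
      a₆_pos := by rw [hw6]; exact hpos
      a₄_le := Or.inr (by rw [hw6, hwd2]) }
  have hM : C.IsModel (W'⁄K) :=
    { a₁ := h1
      a₂ := by rw [h2]; exact hα.symm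
      a₃ := h3
      a₄ := h4
      a₆ := h6 }
  exact smul_sub_mem_kerRed_of_node W' C hM hW hp hp2 hπ0 hπ k hw6 σ hσπ hσ Q hQ hint

end Fermat.Agent.S13
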