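import Mathlib
import Fermat.Prelude.Def_FLTPrelim_Ramification
import Fermat.Agent.S13.At2_helper2_FreyModel
import Fermat.Agent.S13.At2_helper2_Inertia
import Fermat.Agent.Tate.Inertia
import Fermat.Agent.Tate.VC_helper7_Galois
import Fermat.Agent.Tate.R1_helper8

set_option autoImplicit false
set_option linter.unusedSectionVars false

/-!
# (S13, AT 2), package (3a): inertia at `2` acts unipotently on the `p`-torsion of the Frey curve

For every valuation subring `A` of `K` above `2` there is a subgroup `T` of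
`V = E[p](K)` (the points with nonsingular reduction) such that every `σ` in the inertia group
of `A` fixes `T` pointwise and maps `V` to `T` under `σ - 1`.  In particular `(σ - 1)² = 0` on `V`.
-/

namespace Fermat.Agent.S13

open Fermat.Agent.Tate
open WeierstrassCurve WeierstrassCurve.Affine
open scoped WeierstrassCurve.Affine

section General

variable {K : Type*} [Field K] [DecidableEq K] {A : ValuationSubring K}
  {C : GNodeCtx K A} {α β : K} {W : Affine K}

theorem GNodeCtx.IsModel.isIntegralCurve (hM : C.IsModel W α β) : IsIntegralCurve A W where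
  a₁ := by rw [hM.a₁]; exact neg_mem (A.add_mem _ _ hM.hα hM.hβ)
  a₂ := by rw [hM.a₂]; exact neg_mem (mul_mem hM.hα hM.hβ)
  a₃ := by rw [hM.a₃]; exact A.zero_mem
  a₄ := by rw [hM.a₄]; exact A.nonunits_le GNodeCtx.a₄_mem
  a₆ := by rw [hM.a₆]; exact A.nonunits_le GNodeCtx.a₆_mem

variable {p : ℕ}
  (hR1 : ∀ {x y : K} (h : W.Nonsingular x y), p • Point.some x y h = 0 → x ∈ A ∧ y ∈ A)

include hR1 in
theorem integralPt_of_nsmul_eq_zero {Q : W.Point} (hQ : p • Q = 0) : IntegralPt A Q := by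
  rcases Q with _ | ⟨x, y, h⟩
  · trivial
  · exact hR1 h hQ

/-- the `p`-torsion points on the identity component (nonsingular reduction) -/
def GNodeCtx.IsModel.torsionZero (hM : C.IsModel W α β)
    (hR1 : ∀ {x y : K} (h : W.Nonsingular x y), p • Point.some x y h = 0 → x ∈ A ∧ y ∈ A) :
    AddSubgroup W.Point where
  carrier := {Q | p • Q = 0 ∧ C.depthPt α Q = 0}
  zero_mem' := ⟨smul_zero _, rfl⟩
  add_mem' := by
    rintro Q₁ Q₂ ⟨h₁, d₁⟩ ⟨h₂, d₂⟩
    have h12 : p • (Q₁ + Q₂) = 0 := by rw [smul_add, h₁, h₂, add_zero]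
    refine ⟨h12, ?_⟩
    obtain ⟨k, hk⟩ := hM.depthPt_add Q₁ Q₂ (integralPt_of_nsmul_eq_zero hR1 h₁)
      (integralPt_of_nsmul_eq_zero hR1 h₂) (integralPt_of_nsmul_eq_zero hR1 h12)
    obtain ⟨h0, h1⟩ := GNodeCtx.depthPt_range (C := C) α (Q₁ + Q₂)
    refine GNodeCtx.eq_zero_of_int_mul h0 h1 (k := k) ?_
    rw [hk, d₁, d₂]; ring
  neg_mem' := by
    rintro Q ⟨h₁, d₁⟩
    refine ⟨by rw [smul_neg, h₁, neg_zero], ?_⟩
    obtain ⟨k, hk⟩ := hM.depthPt_neg Q
    obtain ⟨h0, h1⟩ := GNodeCtx.depthPt_range (C := C) α (-Q)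
    refine GNodeCtx.eq_zero_of_int_mul h0 h1 (k := k) ?_
    rw [hk, d₁]; ring

theorem GNodeCtx.IsModel.mem_torsionZero (hM : C.IsModel W α β)
    (hR1 : ∀ {x y : K} (h : W.Nonsingular x y), p • Point.some x y h = 0 → x ∈ A ∧ y ∈ A)
    {Q : W.Point} : Q ∈ hM.torsionZero hR1 ↔ p • Q = 0 ∧ C.depthPt α Q = 0 := Iff.rfl

end General

section Frey

variable (P : FreyPackage) {K : Type*} [Field K] [DecidableEq K] [Algebra ℚ K] [IsAlgClosed K]
  [Algebra.IsAlgebraic ℚ K]

/-- `p`-torsion points of a nodal model of the Frey curve at `2` are integral -/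
theorem frey_hR1 {A : ValuationSubring K} (hA : ((2 : ℕ) : K) ∈ A.nonunits) {C : GNodeCtx K A}
    {α β : K} (hM : C.IsModel ((freyVC2 P • P.freyCurve).toAffine⁄K) α β) :
    ∀ {x y : K} (h : ((freyVC2 P • P.freyCurve).toAffine⁄K).Nonsingular x y),
      P.p • Point.some x y h = 0 → x ∈ A ∧ y ∈ A := by
  have : CharZero K := algebraRat.charZero K
  intro x y h ht
  exact mem_of_nsmul_eq_zero' hM.isIntegralCurve P.hp0
    (prime_cast_mem_and_inv_mem A Nat.prime_two hA P.pp (by have := P.hp5; omega)).2 h ht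

/-- the inverse of the change of variables is Galois equivariant -/
theorem symm_vcPtBaseChange_smul (C₀ : VariableChange ℚ) (σ : K ≃ₐ[ℚ] K)
    (y : (P.freyCurve.toAffine⁄K).Point) :
    (vcPtBaseChange P.freyCurve C₀ K).symm (σ • y) =
      σ • (vcPtBaseChange P.freyCurve C₀ K).symm y := by
  rw [AddEquiv.symm_apply_eq, ← smul_vcPtBaseChange, AddEquiv.apply_symm_apply]

/-- **(3a)**: the inertia groups above `2` act unipotently on the `p`-torsion of the Frey
curve, through the subgroup `T` of points with nonsingular reduction. -/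
theorem frey_inertia_two (A : ValuationSubring K) (hA : A.LiesOverPrime 2) :
    ∃ T : AddSubgroup (Submodule.torsionBy ℤ (P.freyCurve.toAffine⁄K).Point P.p),
      (∀ σ ∈ A.inertiaSubgroupIn ℚ, ∀ x ∈ T, σ • x = x) ∧
      (∀ σ ∈ A.inertiaSubgroupIn ℚ, ∀ x, σ • x - x ∈ T) := by
  have : CharZero K := algebraRat.charZero K
  have hA' : ((2 : ℕ) : K) ∈ A.nonunits := hA
  obtain ⟨C, α, β, N, hL, hn, hpN, hM⟩ := exists_frey_nodeCtx P A hA'
  have hR1 : ∀ {x y : K} (h : ((freyVC2 P • P.freyCurve).toAffine⁄K).Nonsingular x y),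
      P.p • Point.some x y h = 0 → x ∈ A ∧ y ∈ A := frey_hR1 P hA' hM
  have h2K : ((2 : ℕ) : K) ≠ 0 := by norm_num
  have hw2 : C.L.w ((2 : ℕ) : K) ≠ 0 := by rw [hL]; exact one_ne_zero
  let f : Submodule.torsionBy ℤ (P.freyCurve.toAffine⁄K).Point P.p →+
      ((freyVC2 P • P.freyCurve).toAffine⁄K).Point :=
    ((vcPtBaseChange P.freyCurve (freyVC2 P) K).symm : _ →+ _).comp
      (Submodule.torsionBy ℤ (P.freyCurve.toAffine⁄K).Point P.p).subtype.toAddMonoidHom
  have hf : ∀ x, f x = (vcPtBaseChange P.freyCurve (freyVC2 P) K).symm x.1 := fun x => rfl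
  have hfp : ∀ x, P.p • f x = 0 := by
    intro x
    rw [hf, ← map_nsmul]
    have := x.2
    rw [Submodule.mem_torsionBy_iff, natCast_zsmul] at this
    rw [this, map_zero]
  have hfσ : ∀ (σ : K ≃ₐ[ℚ] K) x, f (σ • x) = σ • f x := by
    intro σ x
    rw [hf, hf]
    exact symm_vcPtBaseChange_smul P (freyVC2 P) σ x.1
  have hfinj : Function.Injective f := by
    intro x y hxy
    rw [hf, hf] at hxy
    exact Subtype.ext ((vcPtBaseChange P.freyCurve (freyVC2 P) K).symm.injective hxy)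
  refine ⟨(hM.torsionZero hR1).comap f, ?_, ?_⟩
  · intro σ hσ x hx
    have hin : ∀ a ∈ A, σ a ∈ A ∧ σ a - a ∈ A.nonunits :=
      fun a ha => inertia_map_mem_and_sub_mem hσ ha
    obtain ⟨hx1, hx2⟩ := hx
    apply hfinj
    rw [hfσ]
    change P.p • f x = 0 at hx1
    change C.depthPt α (f x) = 0 at hx2
    rcases hQ : f x with _ | ⟨x', y', h'⟩
    · rfl
    · rw [hQ] at hx1 hx2
      rw [GNodeCtx.depthPt_some, GNodeCtx.depth_eq_zero_iff] at hx2
      exact smul_eq_of_not_near _ C hM P.hp_odd hR1 σ hin h' hx1 hx2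
  · intro σ hσ x
    have hin : ∀ a ∈ A, σ a ∈ A ∧ σ a - a ∈ A.nonunits :=
      fun a ha => inertia_map_mem_and_sub_mem hσ ha
    have hin' : ∀ a ∈ A, σ.symm a ∈ A :=
      fun a ha => (inertia_map_mem_and_sub_mem (inv_mem hσ) ha).1
    have hsub : f (σ • x - x) = σ • f x - f x := by rw [map_sub, hfσ]
    refine ⟨?_, ?_⟩
    · change P.p • f (σ • x - x) = 0
      exact hfp _
    · change C.depthPt α (f (σ • x - x)) = 0
      rw [hsub]
      exact depthPt_smul_sub_eq_zero _ C hM hR1 σ hin h2K hw2 (map_natCast σ 2) hin' (hfp x)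

/-- **(3a), corollary**: `(σ - 1)² = 0` on the `p`-torsion of the Frey curve for `σ` in an
inertia group above `2`. -/
theorem frey_inertia_two_unipotent (A : ValuationSubring K) (hA : A.LiesOverPrime 2)
    (σ : K ≃ₐ[ℚ] K) (hσ : σ ∈ A.inertiaSubgroupIn ℚ)
    (x : Submodule.torsionBy ℤ (P.freyCurve.toAffine⁄K).Point P.p) :
    σ • (σ • x - x) = σ • x - x := by
  obtain ⟨T, h1, h2⟩ := frey_inertia_two P A hA
  exact h1 σ hσ _ (h2 σ hσ x)

end Frey

end Fermat.Agent.S13
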