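import Mathlib
import Fermat.Prelude.Def_FLTPrelim_CofixedLine
import Fermat.Prelude.Def_FLTPrelim_Ramification
import Fermat.Agent.S05
import Fermat.Agent.EC.GlobalTrivial_helper5
import Fermat.Agent.EC.Tors_helper6_Frey

/-!
# S13: assembly (helper6)

`frey_cofixedLine_of_local` proves the frozen statement S13 from three local inputs:

* `(I-2a)` the inertia groups over `2` act unipotently on `E[p]`;
* `(I-2b)` `E[p]` has no nonzero `G_ℚ`-fixed point;
* `(I-p)` for a valuation subring `A` over `p` and a stable line `N`, the inertia group `I_A`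
  acts trivially on `N` or on `E[p]/N`;

and the conjugacy `(CONJ)` of the inertia groups over `p`.  The global inputs are `S05`
(unramified outside `2p`), Minkowski (helper5) and `dim E[p] = 2` (TORS).
-/

set_option autoImplicit false

open WeierstrassCurve WeierstrassCurve.Affine WeierstrassCurve.Affine.Point

namespace Fermat.Agent.S13

open Fermat.Agent.CFT.S14

/-- A nilpotent endomorphism `u` (`u² = 0`) of a plane preserving a line `N` kills `N` and maps
everything into `N`. -/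
theorem asm_nilpotent_of_stable_line {F V : Type*} [Field F] [AddCommGroup V] [Module F V]
    (hV : Module.finrank F V = 2) (N : Submodule F V) (hbot : N ≠ ⊥) (htop : N ≠ ⊤)
    (u : V →ₗ[F] V) (hu : ∀ x, u (u x) = 0) (huN : ∀ x ∈ N, u x ∈ N) :
    (∀ x ∈ N, u x = 0) ∧ (∀ x, u x ∈ N) := by
  have : FiniteDimensional F V := Module.finite_of_finrank_pos (by omega)
  have h1 : Module.finrank F N = 1 := by
    have hlt : Module.finrank F N < 2 := hV ▸ Submodule.finrank_lt htop
    have hpos : 0 < Module.finrank F N := by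
      rw [Module.finrank_pos_iff]
      exact Submodule.nontrivial_iff_ne_bot.mpr hbot
    omega
  have hA : ∀ x ∈ N, u x = 0 := by
    intro x hx
    by_cases hx0 : x = 0
    · simp [hx0]
    have hx0' : (⟨x, hx⟩ : N) ≠ 0 := by
      intro h
      exact hx0 (congrArg Subtype.val h)
    obtain ⟨c, hc⟩ := (finrank_eq_one_iff_of_nonzero' (⟨x, hx⟩ : N) hx0').mp h1 ⟨u x, huN x hx⟩
    have hc' : c • x = u x := congrArg Subtype.val hc
    have h2 := hu x
    rw [← hc', map_smul, ← hc', smul_smul] at h2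
    rcases smul_eq_zero.mp h2 with h | h
    · have hc0 : c = 0 := mul_self_eq_zero.mp h
      rw [← hc', hc0, zero_smul]
    · exact absurd h hx0
  refine ⟨hA, ?_⟩
  by_contra hB
  push Not at hB
  obtain ⟨y, hy⟩ := hB
  have hle : N ≤ LinearMap.ker u := fun x hx => LinearMap.mem_ker.mpr (hA x hx)
  have hlt : N < LinearMap.ker u := lt_of_le_of_ne hle (by
    intro h
    apply hy
    rw [h]
    exact LinearMap.mem_ker.mpr (hu y))
  have h3 := Submodule.finrank_lt_finrank_of_lt hlt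
  have h4 : Module.finrank F (LinearMap.ker u) ≤ 2 := hV ▸ Submodule.finrank_le _
  have h5 : LinearMap.ker u = ⊤ := Submodule.eq_top_of_finrank_eq (by omega)
  apply hy
  have h6 : u y = 0 := LinearMap.mem_ker.mp (h5 ▸ Submodule.mem_top)
  rw [h6]
  exact N.zero_mem

/-- The `p`-torsion of the Frey curve over `ℚ̄`, as in the frozen statement. -/
abbrev FreyTors (P : FreyPackage) : Type :=
  Submodule.torsionBy ℤ (P.freyCurve⁄Qbar).Point P.p

/-- `σ - 1` as a `ZMod p`-linear endomorphism of `E[p]`. -/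
noncomputable def asmSubOne (P : FreyPackage) (σ : GQ) : FreyTors P →ₗ[ZMod P.p] FreyTors P :=
  (DistribSMul.toAddMonoidHom (FreyTors P) σ).toZModLinearMap P.p - LinearMap.id

theorem asmSubOne_apply (P : FreyPackage) (σ : GQ) (x : FreyTors P) :
    asmSubOne P σ x = σ • x - x := rfl

/-- **Unipotent + stable line**: if `(σ - 1)² = 0` on `E[p]` and `N` is a stable line, then `σ`
is trivial on `N` and on `E[p]/N`. -/
theorem asm_unipotent (P : FreyPackage) (N : Submodule (ZMod P.p) (FreyTors P))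
    (hN : IsGaloisStable ℚ N) (hbot : N ≠ ⊥) (htop : N ≠ ⊤) (σ : GQ)
    (hσ : ∀ x : FreyTors P, σ • (σ • x - x) = σ • x - x) :
    (∀ x ∈ N, σ • x = x) ∧ (∀ x : FreyTors P, σ • x - x ∈ N) := by
  have : Fact P.p.Prime := ⟨P.pp⟩
  have h := asm_nilpotent_of_stable_line (F := ZMod P.p) (Fermat.Agent.EC.frey_finrank_torsionBy P)
    N hbot htop (asmSubOne P σ)
    (fun x => by
      rw [asmSubOne_apply, asmSubOne_apply, hσ x, sub_self])
    (fun x hx => by
      rw [asmSubOne_apply]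
      exact N.sub_mem (hN σ x hx) hx)
  refine ⟨fun x hx => ?_, fun x => ?_⟩
  · have := h.1 x hx
    rw [asmSubOne_apply] at this
    exact sub_eq_zero.mp this
  · have := h.2 x
    rwa [asmSubOne_apply] at this

/-- **S13 from the local inputs.** -/
theorem frey_cofixedLine_of_local (P : FreyPackage)
    (h2a : ∀ A : ValuationSubring Qbar, A.LiesOverPrime 2 → ∀ σ ∈ A.inertiaSubgroupIn ℚ,
      ∀ x : FreyTors P, σ • (σ • x - x) = σ • x - x)
    (h2b : ∀ x : FreyTors P, (∀ σ : GQ, σ • x = x) → x = 0)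
    (hp : ∀ A : ValuationSubring Qbar, A.LiesOverPrime P.p →
      ∀ N : Submodule (ZMod P.p) (FreyTors P), IsGaloisStable ℚ N → N ≠ ⊥ → N ≠ ⊤ →
        (∀ σ ∈ A.inertiaSubgroupIn ℚ, ∀ x ∈ N, σ • x = x) ∨
          (∀ σ ∈ A.inertiaSubgroupIn ℚ, ∀ x : FreyTors P, σ • x - x ∈ N))
    (hconj : ∀ A A' : ValuationSubring Qbar, A.LiesOverPrime P.p → A'.LiesOverPrime P.p →
      ∃ τ : GQ, ∀ σ ∈ A'.inertiaSubgroupIn ℚ, τ⁻¹ * σ * τ ∈ A.inertiaSubgroupIn ℚ)
    (hred : ¬ GaloisRepIsIrreducible (K := AlgebraicClosure ℚ) ℚ P.freyCurve P.p) :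
    HasGaloisStableCofixedLine (K := AlgebraicClosure ℚ) ℚ P.freyCurve P.p := by
  have hfin : Finite (FreyTors P) := Fermat.Agent.EC.frey_finite_torsionBy P
  have hnt : Nontrivial (FreyTors P) := Fermat.Agent.EC.frey_nontrivial_torsionBy P
  -- a stable line
  obtain ⟨N, hN, hbot, htop⟩ : ∃ N : Submodule (ZMod P.p) (FreyTors P),
      IsGaloisStable ℚ N ∧ N ≠ ⊥ ∧ N ≠ ⊤ := by
    by_contra hno
    apply hred
    refine ⟨hnt, fun N hN => ?_⟩
    by_contra hN'
    push Not at hN'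
    exact hno ⟨N, hN, hN'.1, hN'.2⟩
  -- inertia outside `2p` acts trivially
  have hout : ∀ ℓ : ℕ, ℓ.Prime → ℓ ≠ 2 → ℓ ≠ P.p → ∀ A : ValuationSubring Qbar,
      A.LiesOverPrime ℓ → ∀ σ ∈ A.inertiaSubgroupIn ℚ, ∀ x : FreyTors P, σ • x = x :=
    fun ℓ hℓ h2 hℓp => Fermat.Agent.S05.result P hℓ h2 hℓp
  -- inertia over `2` is trivial on `N` and on `E[p]/N`
  have htwo : ∀ A : ValuationSubring Qbar, A.LiesOverPrime 2 → ∀ σ ∈ A.inertiaSubgroupIn ℚ,
      (∀ x ∈ N, σ • x = x) ∧ (∀ x : FreyTors P, σ • x - x ∈ N) :=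
    fun A hA σ hσ => asm_unipotent P N hN hbot htop σ (h2a A hA σ hσ)
  by_cases hall : ∀ A : ValuationSubring Qbar, A.LiesOverPrime P.p →
      ∀ σ ∈ A.inertiaSubgroupIn ℚ, ∀ x : FreyTors P, σ • x - x ∈ N
  · -- `G_ℚ` acts trivially on `E[p]/N`
    refine ⟨N, hN, hbot, htop, Fermat.Agent.EC.sub_mem_of_inertia N hN ?_⟩
    intro ℓ A hℓ hA σ hσ x
    by_cases h2 : ℓ = 2
    · subst h2
      exact (htwo A hA σ hσ).2 x
    by_cases hℓp : ℓ = P.p
    · subst hℓp
      exact hall A hA σ hσ x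
    · rw [hout ℓ hℓ h2 hℓp A hA σ hσ x, sub_self]
      exact N.zero_mem
  · -- otherwise `G_ℚ` acts trivially on `N`: impossible
    exfalso
    push Not at hall
    obtain ⟨A₀, hA₀, hA₀'⟩ := hall
    have hleft : ∀ σ ∈ A₀.inertiaSubgroupIn ℚ, ∀ x ∈ N, σ • x = x := by
      rcases hp A₀ hA₀ N hN hbot htop with h | h
      · exact h
      · exfalso
        obtain ⟨σ, hσ, x, hx⟩ := hA₀'
        exact hx (h σ hσ x)
    have hfix : ∀ (σ : GQ) (x : FreyTors P), x ∈ N → σ • x = x := by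
      refine Fermat.Agent.EC.smul_eq_of_inertia N hN ?_
      intro ℓ A hℓ hA σ hσ x hx
      by_cases h2 : ℓ = 2
      · subst h2
        exact (htwo A hA σ hσ).1 x hx
      by_cases hℓp : ℓ = P.p
      · subst hℓp
        obtain ⟨τ, hτ⟩ := hconj A₀ A hA₀ hA
        have h1 := hleft _ (hτ σ hσ) (τ⁻¹ • x) (hN τ⁻¹ x hx)
        rw [mul_smul, mul_smul, smul_inv_smul] at h1
        have h2 := congrArg (fun y => τ • y) h1
        simpa using h2
      · exact hout ℓ hℓ h2 hℓp A hA σ hσ x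
    obtain ⟨x, hxN, hx0⟩ := Submodule.exists_mem_ne_zero_of_ne_bot hbot
    exact hx0 (h2b x (fun σ => hfix σ x hxN))

end Fermat.Agent.S13
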