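import Mathlib
import Fermat.Prelude.Def_FLTPrelim_GaloisRep
import Fermat.Agent.S13.Ip_helper8_Roots
import Fermat.Agent.S13.Ip_helper8_Inertia

/-!
# S13 (I-p), part 5: the dichotomy for an inertia-stable line, on an integral model

`W'` a Weierstrass curve over `ℚ`, integral over the valuation subring `A` of `K`, `w p = 1`,
`I` a set of automorphisms of `K` (the inertia group) such that `I`-fixed elements have integral
valuation (`hval`) and `σ • Q - Q ∈ E₁` for `σ ∈ I` and every `p`-torsion point `Q` all of whose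
multiples are integral (`hC1`).  Then for an `I`-stable subgroup `N` of order `p` of `E[p]`:
`I` acts trivially on `N` or on `E[p] / N` (`dichotomy`).
-/

set_option autoImplicit false
set_option linter.unusedSectionVars false

namespace Fermat.Agent.S13

open WeierstrassCurve WeierstrassCurve.Affine
open scoped WeierstrassCurve.Affine
open Fermat.Agent.Tate

variable {K : Type*} [Field K] [DecidableEq K] [Algebra ℚ K] {A : ValuationSubring K}
  {W' : Affine ℚ}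

theorem integralPt_of_notMem_kerRed (hW : IsIntegralCurve A (W'⁄K)) {Q : (W'⁄K).Point}
    (hQ : Q ≠ 0 → Q ∉ kerRed hW) : IntegralPt A Q := by
  rcases Q with _ | ⟨x, y, h⟩
  · trivial
  · have h1 := hQ (Point.some_ne_zero h)
    rw [some_mem_kerRed_iff, not_not] at h1
    exact ⟨h1, y_mem_of_x_mem hW h.1 h1⟩

theorem xOf_notMem_of_mem_kerRed (hW : IsIntegralCurve A (W'⁄K)) {Q : (W'⁄K).Point}
    (hQ0 : Q ≠ 0) (hQ : Q ∈ kerRed hW) : EC.xOf Q ∉ A := by
  rcases Q with _ | ⟨x, y, h⟩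
  · exact absurd rfl hQ0
  · rwa [some_mem_kerRed_iff] at hQ

theorem smul_ne_zero_of_ne_zero (σ : K ≃ₐ[ℚ] K) {Q : (W'⁄K).Point} (hQ : Q ≠ 0) : σ • Q ≠ 0 := by
  rcases Q with _ | ⟨x, y, h⟩
  · exact absurd rfl hQ
  · rw [smul_some]
    exact Point.some_ne_zero _

/-- a multiple `j • Q`, `0 < j < p`, of a `p`-torsion point lies in a subgroup only if `Q` does -/
theorem mem_of_nsmul_mem {G : Type*} [AddCommGroup G] (N : AddSubgroup G) {p : ℕ} (hp : p.Prime)
    {Q : G} (hQ : p • Q = 0) {j : ℕ} (hj0 : 0 < j) (hjp : j < p) (hjQ : j • Q ∈ N) : Q ∈ N := by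
  have hcop : Nat.Coprime p j :=
    (Nat.Prime.coprime_iff_not_dvd hp).mpr fun hd => absurd (Nat.le_of_dvd hj0 hd) (by omega)
  have hb := Nat.gcd_eq_gcd_ab p j
  rw [Nat.Coprime.gcd_eq_one hcop] at hb
  have e : Q = (Nat.gcdA p j) • ((p : ℤ) • Q) + (Nat.gcdB p j) • ((j : ℤ) • Q) := by
    rw [← mul_smul, ← mul_smul, ← add_smul, mul_comm (Nat.gcdA p j), mul_comm (Nat.gcdB p j), ← hb]
    simp
  rw [e, natCast_zsmul, natCast_zsmul, hQ, smul_zero, zero_add]
  exact N.zsmul_mem hjQ _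

section main

variable (L : LogVal A) (hW : IsIntegralCurve A (W'⁄K)) {p : ℕ} (hp : p.Prime) (hodd : p ≠ 2)
  (hpK : (p : K) ≠ 0) (hL : L.w (p : K) = 1) (I : Set (K ≃ₐ[ℚ] K))
  (hval : ∀ y : K, y ≠ 0 → (∀ σ ∈ I, σ y = y) → ∃ m : ℤ, L.w y = m)
  (hC1 : ∀ σ ∈ I, ∀ Q : (W'⁄K).Point, p • Q = 0 →
    (∀ j : ℕ, j ≤ p → IntegralPt A (j • Q)) → σ • Q - Q ∈ kerRed hW)
  (N : AddSubgroup (W'⁄K).Point) (hNp : ∀ Q ∈ N, p • Q = 0) (hcard : Nat.card N = p)
  (hNI : ∀ σ ∈ I, ∀ Q ∈ N, σ • Q ∈ N)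

include L hp hodd hpK hL hval hC1 hNp hcard hNI

theorem dichotomy :
    (∀ σ ∈ I, ∀ Q ∈ N, σ • Q = Q) ∨
      (∀ σ ∈ I, ∀ Q : (W'⁄K).Point, p • Q = 0 → σ • Q - Q ∈ N) := by
  classical
  have _ : Fact p.Prime := ⟨hp⟩
  have hfin : Finite N := Nat.finite_of_card_ne_zero (by rw [hcard]; exact hp.ne_zero)
  by_cases hcase : ∃ Q₀ ∈ N, Q₀ ≠ 0 ∧ Q₀ ∈ kerRed hW
  · -- `N ⊆ E₁`
    right
    obtain ⟨Q₀, hQ₀N, hQ₀0, hQ₀E⟩ := hcase
    have hNE : ∀ Q ∈ N, Q ∈ kerRed hW := by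
      intro Q hQ
      have h0 : (⟨Q₀, hQ₀N⟩ : N) ≠ 0 := fun h => hQ₀0 (congrArg Subtype.val h)
      have := mem_zmultiples_of_prime_card (G := N) hcard (g' := ⟨Q, hQ⟩) h0
      obtain ⟨m, hm⟩ := AddSubgroup.mem_zmultiples_iff.mp this
      have hm' : m • Q₀ = Q := by
        have := congrArg Subtype.val hm
        simpa using this
      rw [← hm']
      exact (kerRed hW).zsmul_mem hQ₀E m
    -- the finite set `N ∖ 0`
    have hfinset : (N : Set (W'⁄K).Point).Finite := Set.toFinite _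
    set S : Finset (W'⁄K).Point := hfinset.toFinset.erase 0 with hS
    have hmemS : ∀ Q, Q ∈ S ↔ Q ≠ 0 ∧ Q ∈ N := by
      intro Q
      rw [hS, Finset.mem_erase, Set.Finite.mem_toFinset]
      rfl
    have hSne : S.Nonempty := ⟨Q₀, (hmemS Q₀).mpr ⟨hQ₀0, hQ₀N⟩⟩
    have hSprop : ∀ Q ∈ S, Q ≠ 0 ∧ p • Q = 0 ∧ EC.xOf Q ∉ A := by
      intro Q hQ
      obtain ⟨h0, hN⟩ := (hmemS Q).mp hQ
      exact ⟨h0, hNp Q hN, xOf_notMem_of_mem_kerRed hW h0 (hNE Q hN)⟩
    have hSI : ∀ σ ∈ I, ∀ Q ∈ S, σ • Q ∈ S := by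
      intro σ hσ Q hQ
      obtain ⟨h0, hN⟩ := (hmemS Q).mp hQ
      exact (hmemS _).mpr ⟨smul_ne_zero_of_ne_zero σ h0, hNI σ hσ Q hN⟩
    -- (C2)
    have hC2 : ∀ Q : (W'⁄K).Point, Q ≠ 0 → p • Q = 0 → Q ∈ kerRed hW → Q ∈ N := by
      intro Q hQ0 hQp hQE
      obtain ⟨Q', hQ'S, hx⟩ := exists_xOf_eq_of_notMem L hW hp hodd hpK hL I hval S hSne hSprop
        hSI hQ0 hQp (xOf_notMem_of_mem_kerRed hW hQ0 hQE)
      obtain ⟨hQ'0, hQ'N⟩ := (hmemS Q').mp hQ'S
      rcases (EC.xOf_eq_iff hQ0 hQ'0).mp hx with rfl | rfl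
      · exact hQ'N
      · exact N.neg_mem hQ'N
    intro σ hσ Q hQp
    by_cases hQN : Q ∈ N
    · exact N.sub_mem (hNI σ hσ Q hQN) hQN
    -- all multiples of `Q` are integral
    have hint : ∀ j : ℕ, j ≤ p → IntegralPt A (j • Q) := by
      intro j hj
      apply integralPt_of_notMem_kerRed hW
      intro hj0 hjE
      have hjpos : 0 < j := by
        rcases Nat.eq_zero_or_pos j with rfl | h
        · rw [zero_smul] at hj0; exact absurd rfl hj0
        · exact h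
      have hjlt : j < p := by
        rcases Nat.lt_or_ge j p with h | h
        · exact h
        · have : j = p := le_antisymm hj h
          rw [this, hQp] at hj0
          exact absurd rfl hj0
      have hjp : p • (j • Q) = 0 := by rw [smul_comm, hQp, smul_zero]
      exact hQN (mem_of_nsmul_mem N hp hQp hjpos hjlt (hC2 _ hj0 hjp hjE))
    have hD := hC1 σ hσ Q hQp hint
    by_cases hD0 : σ • Q - Q = 0
    · rw [hD0]; exact N.zero_mem
    · refine hC2 _ hD0 ?_ hD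
      rw [smul_sub, nsmul_smul_eq_zero σ hQp, hQp, sub_zero]
  · -- `N ∩ E₁ = 0`
    left
    push Not at hcase
    intro σ hσ Q hQN
    have hint : ∀ j : ℕ, j ≤ p → IntegralPt A (j • Q) := by
      intro j _
      apply integralPt_of_notMem_kerRed hW
      intro hj0
      exact hcase _ (N.nsmul_mem hQN j) hj0
    have hD := hC1 σ hσ Q (hNp Q hQN) hint
    have hDN : σ • Q - Q ∈ N := N.sub_mem (hNI σ hσ Q hQN) hQN
    by_contra hne
    exact hcase _ hDN (sub_ne_zero.mpr hne) hD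

end main

end Fermat.Agent.S13
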