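import Mathlib
import Fermat.Prelude.Def_FLTPrelim_Ramification
import Fermat.Agent.S13.Ip_helper8_Dichotomy
import Fermat.Agent.Tate.S05Core
import Fermat.Agent.EC.InertiaField_helper5
import Fermat.Agent.EC.Tors_helper6_Frey

/-!
# S13 (I-p): inertia at `p` and a Galois-stable line of `E[p]` for the Frey curve

`frey_inertia_at_p`: for a valuation subring `A` of `ℚ̄` over `p = P.p` and a line `N ⊂ E[p]` stable
under the inertia group `I_A`: `I_A` acts trivially on `N` or on `E[p] / N`.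
-/

set_option autoImplicit false
set_option linter.unusedSectionVars false

namespace Fermat.Agent.S13

open WeierstrassCurve WeierstrassCurve.Affine WeierstrassCurve.Affine.Point
open scoped WeierstrassCurve.Affine
open Fermat.Agent.Tate

section transport

variable {K : Type*} [Field K] [DecidableEq K] [Algebra ℚ K]
  {W₀ W₁ : Affine ℚ} (e : (W₁⁄K).Point ≃+ (W₀⁄K).Point)
  (he : ∀ (σ : K ≃ₐ[ℚ] K) (Q : (W₁⁄K).Point), σ • e Q = e (σ • Q))
  {p : ℕ} (I : Set (K ≃ₐ[ℚ] K))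

include he

/-- transport of the dichotomy along a Galois-equivariant isomorphism of point groups -/
theorem transport_dichotomy
    (hdich : ∀ N₁ : AddSubgroup (W₁⁄K).Point, (∀ Q ∈ N₁, p • Q = 0) → Nat.card N₁ = p →
      (∀ σ ∈ I, ∀ Q ∈ N₁, σ • Q ∈ N₁) →
      (∀ σ ∈ I, ∀ Q ∈ N₁, σ • Q = Q) ∨
        (∀ σ ∈ I, ∀ Q : (W₁⁄K).Point, p • Q = 0 → σ • Q - Q ∈ N₁))
    (N : Submodule (ZMod p) (Submodule.torsionBy ℤ (W₀⁄K).Point p)) (hcard : Nat.card N = p)
    (hNI : ∀ σ ∈ I, ∀ x ∈ N, σ • x ∈ N) :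
    (∀ σ ∈ I, ∀ x ∈ N, σ • x = x) ∨
      (∀ σ ∈ I, ∀ x : Submodule.torsionBy ℤ (W₀⁄K).Point p, σ • x - x ∈ N) := by
  have hes : ∀ (σ : K ≃ₐ[ℚ] K) (Q : (W₀⁄K).Point), σ • e.symm Q = e.symm (σ • Q) := by
    intro σ Q
    apply e.injective
    rw [← he, e.apply_symm_apply, e.apply_symm_apply]
  let f : Submodule.torsionBy ℤ (W₀⁄K).Point p →+ (W₁⁄K).Point :=
    e.symm.toAddMonoidHom.comp (Submodule.torsionBy ℤ (W₀⁄K).Point p).subtype.toAddMonoidHom
  have hf : ∀ x, f x = e.symm x.1 := fun _ => rfl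
  have hfinj : Function.Injective f := by
    intro x y hxy
    rw [hf, hf] at hxy
    exact Subtype.ext (e.symm.injective hxy)
  have hptors : ∀ x : Submodule.torsionBy ℤ (W₀⁄K).Point p, p • x.1 = 0 := by
    intro x
    have := x.2
    rwa [Submodule.mem_torsionBy_iff, natCast_zsmul] at this
  set N₁ : AddSubgroup (W₁⁄K).Point := N.toAddSubgroup.map f with hN₁
  have hmem : ∀ Q, Q ∈ N₁ ↔ ∃ x ∈ N, f x = Q := by
    intro Q
    rw [hN₁, AddSubgroup.mem_map]
    rfl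
  have h1 : ∀ Q ∈ N₁, p • Q = 0 := by
    intro Q hQ
    obtain ⟨x, -, rfl⟩ := (hmem Q).mp hQ
    rw [hf, ← map_nsmul, hptors, _root_.map_zero]
  have h2 : Nat.card N₁ = p := by
    rw [hN₁, AddSubgroup.card_map_of_injective hfinj]
    exact hcard
  have h3 : ∀ σ ∈ I, ∀ Q ∈ N₁, σ • Q ∈ N₁ := by
    intro σ hσ Q hQ
    obtain ⟨x, hx, rfl⟩ := (hmem Q).mp hQ
    refine (hmem _).mpr ⟨σ • x, hNI σ hσ x hx, ?_⟩
    rw [hf, hf, hes]
    rfl
  rcases hdich N₁ h1 h2 h3 with hl | hr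
  · left
    intro σ hσ x hx
    have := hl σ hσ (f x) ((hmem _).mpr ⟨x, hx, rfl⟩)
    rw [hf, hes] at this
    exact Subtype.ext (e.symm.injective this)
  · right
    intro σ hσ x
    have h4 : p • f x = 0 := by rw [hf, ← map_nsmul, hptors, _root_.map_zero]
    obtain ⟨n, hn, hnx⟩ := (hmem _).mp (hr σ hσ (f x) h4)
    have : n = σ • x - x := by
      apply hfinj
      rw [hnx, map_sub, hf, hf, hes]
      rfl
    rw [← this]
    exact hn

end transport

section frey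

/-- the algebraic closure of `ℚ` -/
local notation "Kb" => AlgebraicClosure ℚ

variable (P : FreyPackage)

/-- a proper nonzero subspace of `E[p]` has `p` elements -/
theorem card_eq_of_ne_bot_of_ne_top
    (N : Submodule (ZMod P.p) (Submodule.torsionBy ℤ ((P.freyCurve : Affine ℚ)⁄Kb).Point P.p))
    (hbot : N ≠ ⊥) (htop : N ≠ ⊤) : Nat.card N = P.p := by
  have _ : Fact P.p.Prime := ⟨P.pp⟩
  have hfinV := EC.frey_finite_torsionBy (K := Kb) P
  have hrank := EC.frey_finrank_torsionBy (K := Kb) P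
  have h1 : Module.finrank (ZMod P.p) N = 1 := by
    have hle : Module.finrank (ZMod P.p) N ≤ 2 := hrank ▸ Submodule.finrank_le N
    have hne0 : Module.finrank (ZMod P.p) N ≠ 0 := by
      intro h0
      exact hbot (Submodule.finrank_eq_zero.mp h0)
    have hne2 : Module.finrank (ZMod P.p) N ≠ 2 := by
      intro h2
      exact htop (Submodule.eq_top_of_finrank_eq (h2.trans hrank.symm))
    omega
  have := Module.natCard_eq_pow_finrank (K := ZMod P.p) (V := N)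
  rw [this, h1, pow_one, Nat.card_zmod]

/-- **(I-p)**: inertia at `p` acts trivially on a stable line of `E[p]` or on the quotient. -/
theorem frey_inertia_at_p_of_card (A : ValuationSubring Kb) (hA : A.LiesOverPrime P.p)
    (N : Submodule (ZMod P.p) (Submodule.torsionBy ℤ ((P.freyCurve : Affine ℚ)⁄Kb).Point P.p))
    (hNI : ∀ σ ∈ A.inertiaSubgroupIn ℚ, ∀ x ∈ N, σ • x ∈ N) (hcard : Nat.card N = P.p) :
    (∀ σ ∈ A.inertiaSubgroupIn ℚ, ∀ x ∈ N, σ • x = x) ∨
      (∀ σ ∈ A.inertiaSubgroupIn ℚ,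
        ∀ x : Submodule.torsionBy ℤ ((P.freyCurve : Affine ℚ)⁄Kb).Point P.p, σ • x - x ∈ N) := by
  have hp := P.pp
  have hp2 : P.p ≠ 2 := by have := P.hp5; omega
  have hqA' : (P.p : Kb) ∈ A.nonunits := hA
  have hpK : (P.p : Kb) ≠ 0 := Nat.cast_ne_zero.mpr hp.ne_zero
  obtain ⟨L, hL⟩ := exists_logVal A hp hqA'
  set I : Set (Kb ≃ₐ[ℚ] Kb) := (A.inertiaSubgroupIn ℚ : Set (Kb ≃ₐ[ℚ] Kb)) with hI
  have hval : ∀ y : Kb, y ≠ 0 → (∀ σ ∈ I, σ y = y) → ∃ m : ℤ, L.w y = m :=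
    fun y hy hfix => EC.logVal_eq_intCast_of_fixed L hp hA hL y hy hfix
  have hin : ∀ σ ∈ I, ∀ a ∈ A, σ a ∈ A ∧ σ a - a ∈ A.nonunits :=
    fun σ hσ a ha => inertia_map_mem_and_sub_mem hσ ha
  by_cases hbad : (P.p : ℤ) ∣ P.a * P.b * P.c
  · -- multiplicative reduction: nodal model
    obtain ⟨C₀, c, d, k, hC₀, hcA, hcu, hk, d', hd'A, hd'u, hd⟩ :=
      exists_nodal_model A hp hp2 hqA' P hbad
    obtain ⟨α, hα⟩ := IsAlgClosed.exists_pow_nat_eq (algebraMap ℚ Kb c) (by norm_num : 0 < 2)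
    have h2u : (2 : Kb) ∉ A.nonunits := by
      have := natCast_notMem_nonunits A hp hqA' (n := 2)
        (fun h => hp2 ((Nat.prime_dvd_prime_iff_eq hp Nat.prime_two).mp h))
      exact_mod_cast this
    have h1 : ((C₀ • P.freyCurve).toAffine⁄Kb).a₁ = 0 := by rw [hC₀]; simp
    have h2 : ((C₀ • P.freyCurve).toAffine⁄Kb).a₂ = algebraMap ℚ Kb c := by rw [hC₀]; simp
    have h3 : ((C₀ • P.freyCurve).toAffine⁄Kb).a₃ = 0 := by rw [hC₀]; simp
    have h4 : ((C₀ • P.freyCurve).toAffine⁄Kb).a₄ = -(algebraMap ℚ Kb d) ^ 2 := by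
      rw [hC₀]; simp
    have h6 : ((C₀ • P.freyCurve).toAffine⁄Kb).a₆ =
        -(algebraMap ℚ Kb d) ^ 2 * algebraMap ℚ Kb c := by rw [hC₀]; simp
    have hdA : algebraMap ℚ Kb d ∈ A := by
      have hqm : (P.p : Kb) ∈ A := A.nonunits_le hqA'
      rw [hd]; exact mul_mem (pow_mem hqm _) hd'A
    have hW : IsIntegralCurve A ((C₀ • P.freyCurve).toAffine⁄Kb) :=
      { a₁ := by rw [h1]; exact A.zero_mem
        a₂ := by rw [h2]; exact hcA
        a₃ := by rw [h3]; exact A.zero_mem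
        a₄ := by rw [h4]; exact neg_mem (pow_mem hdA 2)
        a₆ := by rw [h6]; exact mul_mem (neg_mem (pow_mem hdA 2)) hcA }
    refine transport_dichotomy (vcPtBaseChange P.freyCurve C₀ Kb)
      (fun σ Q => smul_vcPtBaseChange P.freyCurve C₀ σ Q) I ?_ N hcard hNI
    intro N₁ hN₁p hN₁card hN₁I
    refine dichotomy L hW hp hp2 hpK hL I hval ?_ N₁ hN₁p hN₁card hN₁I
    intro σ hσ Q hQ hint
    exact smul_sub_mem_kerRed_of_nodal_form (C₀ • P.freyCurve).toAffine L hpK hL hα h1 h2 h3 h4 h6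
      hcA hcu two_ne_zero h2u hp hp2 hk hd'A hd'u hd hW σ (by simp) (hin σ hσ) Q hQ hint
  · -- good reduction
    have hW : IsIntegralCurve A ((P.freyCurve : Affine ℚ)⁄Kb) :=
      { a₁ := freyCurve_a₁_mem P A
        a₂ := freyCurve_a₂_mem P A hp hp2 hqA'
        a₃ := freyCurve_a₃_mem P A
        a₄ := freyCurve_a₄_mem P A hp hp2 hqA'
        a₆ := freyCurve_a₆_mem P A }
    refine transport_dichotomy (AddEquiv.refl _) (fun σ Q => rfl) I ?_ N hcard hNI
    intro N₁ hN₁p hN₁card hN₁I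
    refine dichotomy L hW hp hp2 hpK hL I hval ?_ N₁ hN₁p hN₁card hN₁I
    intro σ hσ Q hQ hint
    have hQint : IntegralPt A Q := by
      have := hint 1 hp.one_lt.le
      rwa [one_smul] at this
    exact smul_sub_mem_kerRed_of_good (P.freyCurve : Affine ℚ) hW
      (freyCurve_Δ_notMem_nonunits P A hp hp2 hqA' hbad) σ (hin σ hσ) Q hQint

/-- **(I-p)** in the form consumed by the S13 assembly. -/
theorem frey_inertia_at_p (A : ValuationSubring Kb) (hA : A.LiesOverPrime P.p)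
    (N : Submodule (ZMod P.p) (Submodule.torsionBy ℤ ((P.freyCurve : Affine ℚ)⁄Kb).Point P.p))
    (hN : IsGaloisStable ℚ N) (hbot : N ≠ ⊥) (htop : N ≠ ⊤) :
    (∀ σ ∈ A.inertiaSubgroupIn ℚ, ∀ x ∈ N, σ • x = x) ∨
      (∀ σ ∈ A.inertiaSubgroupIn ℚ,
        ∀ x : Submodule.torsionBy ℤ ((P.freyCurve : Affine ℚ)⁄Kb).Point P.p, σ • x - x ∈ N) :=
  frey_inertia_at_p_of_card P A hA N (fun σ _ x hx => hN σ x hx)
    (card_eq_of_ne_bot_of_ne_top P N hbot htop)

end frey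

end Fermat.Agent.S13
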