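import Mathlib
import Fermat.Agent.Tate.CX_helper8_Add

/-!
# S13 package (A), part 1: surjectivity of `℘` and the zeros of `℘'`

* `exists_weierstrassP_eq`: `℘ : ℂ ∖ Λ → ℂ` is surjective (Liouville);
* `two_mul_mem_lattice_of_derivWeierstrassP_eq_zero`: `℘' z = 0` implies `2 z ∈ Λ`.
-/

set_option autoImplicit false

namespace Fermat.Agent.S13

open Complex Filter Topology
open scoped PeriodPair
open Fermat.Agent.Tate.CX

variable (L : PeriodPair)

open Classical in
/-- `1 / (℘ - c)` extended by `0` to the lattice. -/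
noncomputable def invSubFun (c : ℂ) (z : ℂ) : ℂ :=
  if z ∈ L.lattice then 0 else (℘[L] z - c)⁻¹

theorem invSubFun_of_mem {c z : ℂ} (h : z ∈ L.lattice) : invSubFun L c z = 0 := by
  simp [invSubFun, h]

theorem invSubFun_of_notMem {c z : ℂ} (h : z ∉ L.lattice) :
    invSubFun L c z = (℘[L] z - c)⁻¹ := by
  simp [invSubFun, h]

theorem invSubFun_add_coe (c z : ℂ) (l : L.lattice) :
    invSubFun L c (z + l) = invSubFun L c z := by
  have h1 : z + l ∈ L.lattice ↔ z ∈ L.lattice :=
    L.lattice.toAddSubgroup.add_mem_cancel_right l.2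
  by_cases h : z ∈ L.lattice
  · rw [invSubFun_of_mem L h, invSubFun_of_mem L (h1.mpr h)]
  · rw [invSubFun_of_notMem L h, invSubFun_of_notMem L (fun hh => h (h1.mp hh)),
      L.weierstrassP_add_coe]

theorem analyticAt_invSubFun_zero (c : ℂ) : AnalyticAt ℂ (invSubFun L c) 0 := by
  have he : AnalyticAt ℂ ℘[L - (0 : ℂ)] 0 := L.analyticAt_weierstrassPExcept 0
  have hden : AnalyticAt ℂ (fun z : ℂ => 1 + z ^ 2 * (℘[L - (0 : ℂ)] z - c)) 0 := by fun_prop
  have hden0 : (fun z : ℂ => 1 + z ^ 2 * (℘[L - (0 : ℂ)] z - c)) 0 ≠ 0 := by simp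
  have hg : AnalyticAt ℂ (fun z : ℂ => z ^ 2 / (1 + z ^ 2 * (℘[L - (0 : ℂ)] z - c))) 0 :=
    (by fun_prop : AnalyticAt ℂ (fun z : ℂ => z ^ 2) 0).div hden hden0
  refine hg.congr ?_
  have hden_ev : ∀ᶠ z in 𝓝 (0 : ℂ), 1 + z ^ 2 * (℘[L - (0 : ℂ)] z - c) ≠ 0 :=
    hden.continuousAt.eventually_ne hden0
  filter_upwards [L.compl_lattice_sdiff_singleton_mem_nhds 0, hden_ev] with z hz hzd
  by_cases hz0 : z = 0
  · subst hz0
    rw [invSubFun_of_mem L (zero_mem _)]
    simp
  · have hzL : z ∉ L.lattice := fun h => hz ⟨h, hz0⟩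
    rw [invSubFun_of_notMem L hzL, weierstrassP_eq_except_zero]
    have hz2 : z ^ 2 ≠ 0 := pow_ne_zero 2 hz0
    rw [eq_comm, inv_eq_one_div, div_eq_div_iff _ hzd]
    · field_simp
      ring
    · intro h
      apply hzd
      have : 1 + z ^ 2 * (℘[L - (0 : ℂ)] z - c) = z ^ 2 * (℘[L - (0 : ℂ)] z + 1 / z ^ 2 - c) := by
        field_simp
        ring
      rw [this, h, mul_zero]

theorem analyticAt_invSubFun {c : ℂ} (hc : ∀ z, z ∉ L.lattice → ℘[L] z ≠ c) (z₀ : ℂ) :
    AnalyticAt ℂ (invSubFun L c) z₀ := by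
  by_cases h1 : z₀ ∈ L.lattice
  · have h0 := analyticAt_invSubFun_zero L c
    have : AnalyticAt ℂ (fun a => invSubFun L c (a - z₀)) z₀ := by
      have h0' : AnalyticAt ℂ (invSubFun L c) (z₀ - z₀) := by rwa [sub_self]
      exact h0'.comp_of_eq (by fun_prop) rfl
    refine this.congr (Eventually.of_forall fun a => ?_)
    have := invSubFun_add_coe L c (a - z₀) ⟨z₀, h1⟩
    simp only [sub_add_cancel] at this
    exact this.symm
  · have hP : AnalyticAt ℂ ℘[L] z₀ := L.analyticOnNhd_weierstrassP z₀ h1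
    have h2 : AnalyticAt ℂ (fun z => (℘[L] z - c)⁻¹) z₀ :=
      (hP.sub analyticAt_const).inv (sub_ne_zero.mpr (hc z₀ h1))
    refine h2.congr ?_
    filter_upwards [(isOpen_compl_lattice L).mem_nhds h1] with z hz
    exact (invSubFun_of_notMem L hz).symm

/-- **`℘` is surjective.** -/
theorem exists_weierstrassP_eq (c : ℂ) : ∃ z, z ∉ L.lattice ∧ ℘[L] z = c := by
  by_contra hcon
  push Not at hcon
  have hdiff : Differentiable ℂ (invSubFun L c) :=
    fun x => (analyticAt_invSubFun L hcon x).differentiableAt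
  have hbdd := (IsZLattice.isCompact_range_of_periodic L.lattice _ hdiff.continuous
    (fun z w hw => by
      lift w to L.lattice using hw
      exact invSubFun_add_coe L c z w)).isBounded
  have hω : L.ω₁ / 2 ∉ L.lattice := L.ω₁_div_two_notMem_lattice
  have h := hdiff.apply_eq_apply_of_bounded hbdd (L.ω₁ / 2) 0
  rw [invSubFun_of_mem L (zero_mem _), invSubFun_of_notMem L hω] at h
  exact sub_ne_zero.mpr (hcon _ hω) (inv_eq_zero.mp h)

/-- A zero of `℘'` off the lattice is a half-period. -/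
theorem two_mul_mem_lattice_of_derivWeierstrassP_eq_zero {z : ℂ} (hz : z ∉ L.lattice)
    (h : ℘'[L] z = 0) : 2 * z ∈ L.lattice := by
  have hz' : -z ∉ L.lattice := by rwa [neg_mem_iff]
  have := sub_mem_lattice_of_eq L hz hz' (by rw [L.weierstrassP_neg])
    (by rw [L.derivWeierstrassP_neg, h, neg_zero])
  have e : z - -z = 2 * z := by ring
  rwa [e] at this

end Fermat.Agent.S13
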