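import Mathlib
import Fermat.Agent.S13.A_helper8_Surj

/-!
# S13 package (A), part 5: the symmetric addition formula

`(℘(z+q) + ℘(z-q)) (℘ z - ℘ q)² = (℘ z + ℘ q)(2 ℘ z ℘ q - g₂/2) - g₃` for `q, z, z ± q ∉ Λ`
(`weierstrassP_add_add_sub`).
-/

set_option autoImplicit false

namespace Fermat.Agent.S13

open Complex Filter Topology
open scoped PeriodPair
open Fermat.Agent.Tate.CX

variable (L : PeriodPair)

/-- The symmetric addition formula in generic position. -/
theorem weierstrassP_add_add_sub_of_generic {z q : ℂ} (hz : z ∉ L.lattice) (hq : q ∉ L.lattice)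
    (h1 : z + q ∉ L.lattice) (h2 : z - q ∉ L.lattice) (h3 : 2 * z + q ∉ L.lattice)
    (h4 : 2 * z - q ∉ L.lattice) (h5 : z + 2 * q ∉ L.lattice) (h6 : z - 2 * q ∉ L.lattice) :
    (℘[L] (z + q) + ℘[L] (z - q)) * (℘[L] z - ℘[L] q) ^ 2 =
      (℘[L] z + ℘[L] q) * (2 * ℘[L] z * ℘[L] q - L.g₂ / 2) - L.g₃ := by
  have hne : ℘[L] z ≠ ℘[L] q := by
    intro h
    rcases sub_or_add_mem_lattice_of_eq L hz hq h with h' | h'
    · exact h2 h'
    · exact h1 h'
  have hd : ℘[L] z - ℘[L] q ≠ 0 := sub_ne_zero.mpr hne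
  have hq' : -q ∉ L.lattice := by rwa [neg_mem_iff]
  obtain ⟨hx1, -⟩ := weierstrassP_add_of_generic' L hz hq h1 hne h3 h5
    (m := (℘'[L] z - ℘'[L] q) / (℘[L] z - ℘[L] q)) (by field_simp)
  have hne' : ℘[L] z ≠ ℘[L] (-q) := by rwa [L.weierstrassP_neg]
  obtain ⟨hx2, -⟩ := weierstrassP_add_of_generic' L hz hq' (by rwa [← sub_eq_add_neg]) hne'
    (by rwa [← sub_eq_add_neg]) (by
      have e : z + 2 * -q = z - 2 * q := by ring
      rwa [e])
    (m := (℘'[L] z + ℘'[L] q) / (℘[L] z - ℘[L] q)) (by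
      rw [L.weierstrassP_neg, L.derivWeierstrassP_neg]
      field_simp
      ring)
  rw [L.weierstrassP_neg] at hx2
  have e : z - q = z + -q := by ring
  rw [e, hx1, hx2]
  have hcz := L.derivWeierstrassP_sq z hz
  have hcq := L.derivWeierstrassP_sq q hq
  field_simp
  linear_combination (4 : ℂ) * hcz + (4 : ℂ) * hcq

theorem isClosed_setOf_mul_add_mem (α β : ℂ) : IsClosed {z : ℂ | α * z + β ∈ L.lattice} := by
  have : Continuous fun z : ℂ => α * z + β := by fun_prop
  exact L.isClosed_lattice.preimage this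

theorem countable_setOf_mul_add_mem {α : ℂ} (hα : α ≠ 0) (β : ℂ) :
    {z : ℂ | α * z + β ∈ L.lattice}.Countable := by
  have hinj : Function.Injective fun z : ℂ => α * z + β := by
    intro x y h
    simp only [add_left_inj] at h
    exact mul_left_cancel₀ hα h
  exact (countable_lattice L).preimage hinj

/-- **The symmetric addition formula.** -/
theorem weierstrassP_add_add_sub {z q : ℂ} (hz : z ∉ L.lattice) (hq : q ∉ L.lattice)
    (h1 : z + q ∉ L.lattice) (h2 : z - q ∉ L.lattice) :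
    (℘[L] (z + q) + ℘[L] (z - q)) * (℘[L] z - ℘[L] q) ^ 2 =
      (℘[L] z + ℘[L] q) * (2 * ℘[L] z * ℘[L] q - L.g₂ / 2) - L.g₃ := by
  -- the domain
  set S : Set ℂ := {z | (1 : ℂ) * z + 0 ∈ L.lattice} ∪ {z | (1 : ℂ) * z + q ∈ L.lattice} ∪
    {z | (1 : ℂ) * z + -q ∈ L.lattice} with hS
  set S' : Set ℂ := {z | (2 : ℂ) * z + q ∈ L.lattice} ∪ {z | (2 : ℂ) * z + -q ∈ L.lattice} ∪
    {z | (1 : ℂ) * z + 2 * q ∈ L.lattice} ∪ {z | (1 : ℂ) * z + -(2 * q) ∈ L.lattice} with hS'
  have hScl : IsClosed S :=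
    ((isClosed_setOf_mul_add_mem L _ _).union (isClosed_setOf_mul_add_mem L _ _)).union
      (isClosed_setOf_mul_add_mem L _ _)
  have hS'cl : IsClosed S' :=
    (((isClosed_setOf_mul_add_mem L _ _).union (isClosed_setOf_mul_add_mem L _ _)).union
      (isClosed_setOf_mul_add_mem L _ _)).union (isClosed_setOf_mul_add_mem L _ _)
  have hSc : S.Countable :=
    ((countable_setOf_mul_add_mem L one_ne_zero _).union
      (countable_setOf_mul_add_mem L one_ne_zero _)).union
      (countable_setOf_mul_add_mem L one_ne_zero _)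
  have hS'c : S'.Countable :=
    (((countable_setOf_mul_add_mem L two_ne_zero _).union
      (countable_setOf_mul_add_mem L two_ne_zero _)).union
      (countable_setOf_mul_add_mem L one_ne_zero _)).union
      (countable_setOf_mul_add_mem L one_ne_zero _)
  have hmemS : ∀ w : ℂ, w ∉ S ↔ w ∉ L.lattice ∧ w + q ∉ L.lattice ∧ w - q ∉ L.lattice := by
    intro w
    simp only [hS, Set.mem_union, Set.mem_ofPred_eq, one_mul, add_zero, not_or, ← sub_eq_add_neg,
      and_assoc]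
  have hmemS' : ∀ w : ℂ, w ∉ S' ↔ 2 * w + q ∉ L.lattice ∧ 2 * w - q ∉ L.lattice ∧
      w + 2 * q ∉ L.lattice ∧ w - 2 * q ∉ L.lattice := by
    intro w
    simp only [hS', Set.mem_union, Set.mem_ofPred_eq, one_mul, not_or, ← sub_eq_add_neg, and_assoc]
  have hUpre : IsPreconnected Sᶜ := isPreconnected_compl_of_countable hSc
  -- the two functions
  set f : ℂ → ℂ := fun w => (℘[L] (w + q) + ℘[L] (w - q)) * (℘[L] w - ℘[L] q) ^ 2 with hf
  set g : ℂ → ℂ := fun w => (℘[L] w + ℘[L] q) * (2 * ℘[L] w * ℘[L] q - L.g₂ / 2) - L.g₃ with hg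
  have hfan : AnalyticOnNhd ℂ f Sᶜ := by
    intro w hw
    obtain ⟨hw1, hw2, hw3⟩ := (hmemS w).mp hw
    have a1 : AnalyticAt ℂ ℘[L] w := L.analyticOnNhd_weierstrassP w hw1
    have a2 : AnalyticAt ℂ (fun w => ℘[L] (w + q)) w :=
      (L.analyticOnNhd_weierstrassP (w + q) hw2).comp_of_eq (by fun_prop) rfl
    have a3 : AnalyticAt ℂ (fun w => ℘[L] (w - q)) w :=
      (L.analyticOnNhd_weierstrassP (w - q) hw3).comp_of_eq (by fun_prop) rfl
    exact (a2.add a3).mul ((a1.sub analyticAt_const).pow 2)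
  have hgan : AnalyticOnNhd ℂ g Sᶜ := by
    intro w hw
    obtain ⟨hw1, -, -⟩ := (hmemS w).mp hw
    have a1 : AnalyticAt ℂ ℘[L] w := L.analyticOnNhd_weierstrassP w hw1
    exact ((a1.add analyticAt_const).mul (((analyticAt_const.mul a1).mul analyticAt_const).sub
      analyticAt_const)).sub analyticAt_const
  -- a generic point
  obtain ⟨w₀, hw₀⟩ := ((hSc.union hS'c).isConnected_compl_of_one_lt_rank
    (by simp [rank_real_complex])).nonempty
  have hw₀S : w₀ ∉ S := fun h => hw₀ (Or.inl h)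
  have hev : f =ᶠ[𝓝 w₀] g := by
    filter_upwards [(hScl.union hS'cl).isOpen_compl.mem_nhds hw₀] with w hw
    have hwS : w ∉ S := fun h => hw (Or.inl h)
    have hwS' : w ∉ S' := fun h => hw (Or.inr h)
    obtain ⟨b1, b2, b3⟩ := (hmemS w).mp hwS
    obtain ⟨c1, c2, c3, c4⟩ := (hmemS' w).mp hwS'
    exact weierstrassP_add_add_sub_of_generic L b1 hq b2 b3 c1 c2 c3 c4
  have := hfan.eqOn_of_preconnected_of_eventuallyEq hgan hUpre hw₀S hev
  exact this ((hmemS z).mpr ⟨hz, h1, h2⟩)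

end Fermat.Agent.S13
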