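import Mathlib
import Fermat.Agent.S13.A_helper8_Surj

/-!
# S13 package (A), part 2: the uniformisation `ℂ / Λ ≃ E_Λ(ℂ)`

For a period pair `L` the Weierstrass curve `curveOf L : y² = x³ - (g₂/4) x - g₃/4` and the map
`ptOf L : ℂ → (curveOf L).toAffine.Point`, `z ↦ (℘ z, ℘' z / 2)` (`0` on the lattice).
Main results: `ptOf_add` (group homomorphism), `ptOf_eq_zero_iff` (kernel `= Λ`),
`ptOf_surjective`.
-/

set_option autoImplicit false

namespace Fermat.Agent.S13

open Complex Filter Topology WeierstrassCurve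
open scoped PeriodPair
open Fermat.Agent.Tate.CX

variable (L : PeriodPair)

/-- The Weierstrass curve `y² = x³ - (g₂/4) x - g₃/4` attached to a period pair. -/
noncomputable def curveOf : WeierstrassCurve ℂ := ⟨0, 0, 0, -(L.g₂ / 4), -(L.g₃ / 4)⟩

@[simp] theorem curveOf_a₁ : (curveOf L).a₁ = 0 := rfl
@[simp] theorem curveOf_a₂ : (curveOf L).a₂ = 0 := rfl
@[simp] theorem curveOf_a₃ : (curveOf L).a₃ = 0 := rfl
@[simp] theorem curveOf_a₄ : (curveOf L).a₄ = -(L.g₂ / 4) := rfl
@[simp] theorem curveOf_a₆ : (curveOf L).a₆ = -(L.g₃ / 4) := rfl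

theorem curveOf_equation_iff (x y : ℂ) :
    (curveOf L).toAffine.Equation x y ↔ (2 * y) ^ 2 = 4 * x ^ 3 - L.g₂ * x - L.g₃ := by
  rw [Affine.equation_iff]
  simp only [curveOf_a₁, curveOf_a₂, curveOf_a₃, curveOf_a₄, curveOf_a₆]
  constructor
  · intro h
    linear_combination (4 : ℂ) * h
  · intro h
    linear_combination (1 / 4 : ℂ) * h

theorem curveOf_nonsingular_iff (x y : ℂ) :
    (curveOf L).toAffine.Nonsingular x y ↔
      (2 * y) ^ 2 = 4 * x ^ 3 - L.g₂ * x - L.g₃ ∧ (6 * x ^ 2 - L.g₂ / 2 ≠ 0 ∨ y ≠ 0) := by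
  rw [Affine.nonsingular_iff', curveOf_equation_iff]
  simp only [curveOf_a₁, curveOf_a₂, curveOf_a₃, curveOf_a₄]
  refine and_congr Iff.rfl (or_congr ?_ ?_)
  · constructor
    · intro h h'
      apply h
      linear_combination (-1 / 2 : ℂ) * h'
    · intro h h'
      apply h
      linear_combination (-2 : ℂ) * h'
  · constructor
    · intro h h'
      apply h
      rw [h']; ring
    · intro h h'
      apply h
      linear_combination (1 / 2 : ℂ) * h'

theorem nonsingular_weierstrassP {z : ℂ} (hz : z ∉ L.lattice) :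
    (curveOf L).toAffine.Nonsingular (℘[L] z) (℘'[L] z / 2) := by
  rw [curveOf_nonsingular_iff]
  refine ⟨?_, ?_⟩
  · rw [← L.derivWeierstrassP_sq z hz]; ring
  · by_cases h : ℘'[L] z = 0
    · left
      have := deriv_derivWeierstrassP_ne_zero L hz h
      rwa [deriv_derivWeierstrassP L hz] at this
    · right
      exact div_ne_zero h two_ne_zero

open Classical in
/-- The uniformisation map `ℂ → E_Λ(ℂ)`. -/
noncomputable def ptOf (z : ℂ) : (curveOf L).toAffine.Point :=
  if h : z ∈ L.lattice then 0 else Affine.Point.some _ _ (nonsingular_weierstrassP L h)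

theorem ptOf_of_mem {z : ℂ} (h : z ∈ L.lattice) : ptOf L z = 0 := by
  simp [ptOf, h]

theorem ptOf_of_notMem {z : ℂ} (h : z ∉ L.lattice) :
    ptOf L z = Affine.Point.some _ _ (nonsingular_weierstrassP L h) := by
  simp [ptOf, h]

theorem ptOf_eq_zero_iff {z : ℂ} : ptOf L z = 0 ↔ z ∈ L.lattice := by
  constructor
  · intro h
    by_contra hz
    rw [ptOf_of_notMem L hz] at h
    exact Affine.Point.some_ne_zero _ h
  · exact ptOf_of_mem L

theorem ptOf_add_coe (z : ℂ) (l : L.lattice) : ptOf L (z + l) = ptOf L z := by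
  have h1 : z + l ∈ L.lattice ↔ z ∈ L.lattice :=
    L.lattice.toAddSubgroup.add_mem_cancel_right l.2
  by_cases h : z ∈ L.lattice
  · rw [ptOf_of_mem L h, ptOf_of_mem L (h1.mpr h)]
  · rw [ptOf_of_notMem L h, ptOf_of_notMem L (fun hh => h (h1.mp hh))]
    simp only [L.weierstrassP_add_coe, L.derivWeierstrassP_add_coe]

theorem ptOf_neg (z : ℂ) : ptOf L (-z) = -ptOf L z := by
  by_cases h : z ∈ L.lattice
  · rw [ptOf_of_mem L h, ptOf_of_mem L (neg_mem h)]; rfl
  · have h' : -z ∉ L.lattice := by rwa [neg_mem_iff]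
    rw [ptOf_of_notMem L h, ptOf_of_notMem L h', Affine.Point.neg_some]
    simp only [Affine.negY, curveOf_a₁, curveOf_a₃, L.weierstrassP_neg, L.derivWeierstrassP_neg]
    congr 1
    ring

theorem ptOf_eq_of_sub_mem {z w : ℂ} (h : z - w ∈ L.lattice) : ptOf L z = ptOf L w := by
  have := ptOf_add_coe L w ⟨z - w, h⟩
  simpa using this

theorem sub_mem_of_ptOf_eq {z w : ℂ} (h : ptOf L z = ptOf L w) : z - w ∈ L.lattice := by
  by_cases hz : z ∈ L.lattice
  · rw [ptOf_of_mem L hz, eq_comm, ptOf_eq_zero_iff] at h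
    exact sub_mem hz h
  · by_cases hw : w ∈ L.lattice
    · rw [ptOf_of_mem L hw, ptOf_eq_zero_iff] at h
      exact absurd h hz
    · rw [ptOf_of_notMem L hz, ptOf_of_notMem L hw] at h
      simp only [Affine.Point.some.injEq] at h
      exact sub_mem_lattice_of_eq L hz hw h.1 (by linear_combination (2 : ℂ) * h.2)

theorem ptOf_surjective : Function.Surjective (ptOf L) := by
  rintro (_ | ⟨x, y, h⟩)
  · exact ⟨0, ptOf_of_mem L (zero_mem _)⟩
  · obtain ⟨z, hz, hx⟩ := exists_weierstrassP_eq L x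
    have heq := ((curveOf_nonsingular_iff L x y).mp h).1
    have h2 : (2 * y) ^ 2 = ℘'[L] z ^ 2 := by
      rw [heq, L.derivWeierstrassP_sq z hz, hx]
    rcases sq_eq_sq_iff_eq_or_eq_neg.mp h2 with h3 | h3
    · refine ⟨z, ?_⟩
      rw [ptOf_of_notMem L hz]
      simp only [Affine.Point.some.injEq]
      exact ⟨hx, by linear_combination (-1 / 2 : ℂ) * h3⟩
    · refine ⟨-z, ?_⟩
      have hz' : -z ∉ L.lattice := by rwa [neg_mem_iff]
      rw [ptOf_of_notMem L hz']
      simp only [Affine.Point.some.injEq, L.weierstrassP_neg, L.derivWeierstrassP_neg]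
      exact ⟨hx, by linear_combination (-1 / 2 : ℂ) * h3⟩

/-- Additivity in generic position. -/
theorem ptOf_add_of_generic {a b : ℂ} (ha : a ∉ L.lattice) (hb : b ∉ L.lattice)
    (hab : a + b ∉ L.lattice) (hamb : a - b ∉ L.lattice) (h2ab : 2 * a + b ∉ L.lattice)
    (ha2b : a + 2 * b ∉ L.lattice) : ptOf L (a + b) = ptOf L a + ptOf L b := by
  have hne : ℘[L] a ≠ ℘[L] b := by
    intro h
    rcases sub_or_add_mem_lattice_of_eq L ha hb h with h1 | h1
    · exact hamb h1
    · exact hab h1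
  obtain ⟨hx, hy⟩ := weierstrassP_add_of_generic L ha hb hab hne h2ab ha2b
  rw [ptOf_of_notMem L ha, ptOf_of_notMem L hb, ptOf_of_notMem L hab,
    Affine.Point.add_of_X_ne hne]
  simp only [Affine.Point.some.injEq]
  have hd : ℘[L] a - ℘[L] b ≠ 0 := sub_ne_zero.mpr hne
  have hs : (curveOf L).toAffine.slope (℘[L] a) (℘[L] b) (℘'[L] a / 2) (℘'[L] b / 2) =
      (℘'[L] a - ℘'[L] b) / (℘[L] a - ℘[L] b) / 2 := by
    rw [Affine.slope_of_X_ne hne]
    field_simp
  have hX : (curveOf L).toAffine.addX (℘[L] a) (℘[L] b)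
      ((curveOf L).toAffine.slope (℘[L] a) (℘[L] b) (℘'[L] a / 2) (℘'[L] b / 2)) = ℘[L] (a + b) := by
    rw [hs, hx]
    simp only [Affine.addX, curveOf_a₁, curveOf_a₂]
    ring
  refine ⟨hX.symm, ?_⟩
  rw [Affine.addY, Affine.negAddY, hX, hs, hy]
  simp only [Affine.negY, curveOf_a₁, curveOf_a₃]
  ring

/-- Finitely many conditions `α c + β ∉ Λ` (`α ≠ 0`) can be satisfied simultaneously. -/
theorem exists_forall_notMem_lattice (s : Finset (ℂ × ℂ)) (hs : ∀ p ∈ s, p.1 ≠ 0) :
    ∃ c : ℂ, ∀ p ∈ s, p.1 * c + p.2 ∉ L.lattice := by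
  have hcount : (⋃ p ∈ s, (fun l : ℂ => (l - p.2) / p.1) '' (L.lattice : Set ℂ)).Countable :=
    Set.Countable.biUnion (Finset.countable_toSet s) fun p _ => (countable_lattice L).image _
  obtain ⟨c, hc⟩ := (hcount.isConnected_compl_of_one_lt_rank
    (by simp [rank_real_complex])).nonempty
  refine ⟨c, fun p hp hmem => hc ?_⟩
  simp only [Set.mem_iUnion, Set.mem_image, SetLike.mem_coe]
  refine ⟨p, hp, p.1 * c + p.2, hmem, ?_⟩
  have := hs p hp
  field_simp
  ring

/-- **The uniformisation map is a group homomorphism.** -/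
theorem ptOf_add (a b : ℂ) : ptOf L (a + b) = ptOf L a + ptOf L b := by
  by_cases ha : a ∈ L.lattice
  · rw [ptOf_of_mem L ha, zero_add]
    exact ptOf_eq_of_sub_mem L (by simpa using ha)
  by_cases hb : b ∈ L.lattice
  · rw [ptOf_of_mem L hb, add_zero]
    exact ptOf_eq_of_sub_mem L (by simpa using hb)
  by_cases hab : a + b ∈ L.lattice
  · rw [ptOf_of_mem L hab]
    have : ptOf L b = ptOf L (-a) := ptOf_eq_of_sub_mem L (by
      have : b - -a = a + b := by ring
      rwa [this])
    rw [this, ptOf_neg, add_neg_cancel]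
  -- the generic case: choose an auxiliary `c`
  obtain ⟨c, hc⟩ := exists_forall_notMem_lattice L
    {((1 : ℂ), (0 : ℂ)), (1, a), (1, -a), (1, 2 * a), (2, a), (1, -b), (1, b), (-1, 2 * b),
      (-2, b), (2, a - b), (1, 2 * a + b), (-1, a + 2 * b), (-1, 0), (-1, b), (-1, a)}
    (by
      intro p hp
      simp only [Finset.mem_insert, Finset.mem_singleton] at hp
      rcases hp with rfl | rfl | rfl | rfl | rfl | rfl | rfl | rfl | rfl | rfl | rfl | rfl | rfl |
        rfl | rfl <;> norm_num)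
  simp only [Finset.mem_insert, Finset.mem_singleton, forall_eq_or_imp, forall_eq, one_mul,
    add_zero] at hc
  obtain ⟨h1, h2, h3, h4, h5, h6, h7, h8, h9, h10, h11, h12, h13, h14, h15⟩ := hc
  have hc0 : c ∉ L.lattice := h1
  have hnc : -c ∉ L.lattice := by rwa [neg_mem_iff]
  -- pair `(a, c)`
  have e1 : ptOf L (a + c) = ptOf L a + ptOf L c :=
    ptOf_add_of_generic L ha hc0 (by rwa [add_comm]) (by
      intro h; apply h3; have := neg_mem h; rwa [neg_sub, sub_eq_add_neg] at this)
      (by rwa [add_comm]) (by rwa [add_comm])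
  -- pair `(b, -c)`
  have e2 : ptOf L (b + -c) = ptOf L b + ptOf L (-c) :=
    ptOf_add_of_generic L hb hnc (by
      intro h; apply h14; rwa [add_comm, neg_one_mul])
      (by intro h; apply h7; rwa [sub_neg_eq_add, add_comm] at h)
      (by intro h; apply h8; rwa [add_comm, neg_one_mul])
      (by intro h; apply h9; have e : b + 2 * -c = -2 * c + b := by ring
          rwa [e] at h)
  -- pair `(a + c, b - c)`
  have e3 : ptOf L ((a + c) + (b + -c)) = ptOf L (a + c) + ptOf L (b + -c) :=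
    ptOf_add_of_generic L (by rwa [add_comm]) (by
      intro h; apply h14; rwa [add_comm, neg_one_mul])
      (by
        have e : a + c + (b + -c) = a + b := by ring
        rwa [e])
      (by
        have e : a + c - (b + -c) = 2 * c + (a - b) := by ring
        rwa [e])
      (by
        have e : 2 * (a + c) + (b + -c) = c + (2 * a + b) := by ring
        rwa [e])
      (by
        have e : a + c + 2 * (b + -c) = -1 * c + (a + 2 * b) := by ring
        rwa [e])
  have e : a + b = (a + c) + (b + -c) := by ring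
  rw [e, e3, e1, e2, ptOf_neg]
  abel

/-- The uniformisation homomorphism. -/
noncomputable def ptHom : ℂ →+ (curveOf L).toAffine.Point where
  toFun := ptOf L
  map_zero' := ptOf_of_mem L (zero_mem _)
  map_add' := ptOf_add L

@[simp] theorem ptHom_apply (z : ℂ) : ptHom L z = ptOf L z := rfl

theorem ptOf_nsmul (n : ℕ) (z : ℂ) : ptOf L (n * z) = n • ptOf L z := by
  have := map_nsmul (ptHom L) n z
  simpa [nsmul_eq_mul] using this

end Fermat.Agent.S13
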