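import Mathlib
import Fermat.Agent.S13.A_helper8_Unif

/-!
# S13 package (A), part 3: torsion points and fibres of `[n]` on `E_Λ(ℂ)`

* `divPt L n a b = (a ω₁ + b ω₂) / n`; `divPt_sub_mem_iff`, `mul_mem_lattice_iff`;
* `card_torsionBy_curveOf`: `#E_Λ(ℂ)[n] = n²`;
* `exists_nsmul_eq_curveOf`: `E_Λ(ℂ)` is divisible;
* `nsmul_eq_ptOf_iff`: the fibre of `[n]` over `ptOf t`.
-/

set_option autoImplicit false

namespace Fermat.Agent.S13

open Complex Filter Topology WeierstrassCurve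
open scoped PeriodPair
open Fermat.Agent.Tate.CX

variable (L : PeriodPair)

/-- The division point `(a ω₁ + b ω₂) / n`. -/
noncomputable def divPt (n : ℕ) (a b : ℤ) : ℂ := ((a : ℂ) * L.ω₁ + (b : ℂ) * L.ω₂) / n

theorem int_mul_add_mem_lattice (m k : ℤ) : (m : ℂ) * L.ω₁ + (k : ℂ) * L.ω₂ ∈ L.lattice :=
  PeriodPair.mem_lattice.mpr ⟨m, k, rfl⟩

theorem real_coeff_eq_zero {s t : ℝ} (h : (s : ℂ) * L.ω₁ + (t : ℂ) * L.ω₂ = 0) :
    s = 0 ∧ t = 0 :=
  LinearIndependent.pair_iff.mp L.indep s t (by simpa using h)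

theorem divPt_sub_mem_iff {n : ℕ} (hn : n ≠ 0) (a b a' b' : ℤ) :
    divPt L n a b - divPt L n a' b' ∈ L.lattice ↔ (n : ℤ) ∣ a - a' ∧ (n : ℤ) ∣ b - b' := by
  have hn' : (n : ℂ) ≠ 0 := Nat.cast_ne_zero.mpr hn
  have hnr : (n : ℝ) ≠ 0 := Nat.cast_ne_zero.mpr hn
  constructor
  · intro h
    obtain ⟨m, k, e⟩ := PeriodPair.mem_lattice.mp h
    have h0 : (((m : ℝ) - ((a - a' : ℤ) : ℝ) / n : ℝ) : ℂ) * L.ω₁ +
        (((k : ℝ) - ((b - b' : ℤ) : ℝ) / n : ℝ) : ℂ) * L.ω₂ = 0 := by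
      simp only [divPt] at e
      push_cast
      field_simp
      field_simp at e
      linear_combination e
    obtain ⟨h1, h2⟩ := real_coeff_eq_zero L h0
    refine ⟨⟨m, ?_⟩, ⟨k, ?_⟩⟩
    · have : ((a - a' : ℤ) : ℝ) = (n : ℝ) * m := by
        field_simp at h1
        linarith
      exact_mod_cast this
    · have : ((b - b' : ℤ) : ℝ) = (n : ℝ) * k := by
        field_simp at h2
        linarith
      exact_mod_cast this
  · rintro ⟨⟨m, hm⟩, ⟨k, hk⟩⟩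
    have e : divPt L n a b - divPt L n a' b' = (m : ℂ) * L.ω₁ + (k : ℂ) * L.ω₂ := by
      simp only [divPt]
      have h1 : (a : ℂ) - a' = n * m := by exact_mod_cast congrArg (Int.cast : ℤ → ℂ) hm
      have h2 : (b : ℂ) - b' = n * k := by exact_mod_cast congrArg (Int.cast : ℤ → ℂ) hk
      field_simp
      linear_combination L.ω₁ * h1 + L.ω₂ * h2
    rw [e]
    exact int_mul_add_mem_lattice L m k

/-- The index `(a, b) ∈ (Fin n)²` as a division point. -/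
noncomputable def divPtFin (n : ℕ) (i : Fin n × Fin n) : ℂ :=
  divPt L n ((i.1 : ℕ) : ℤ) ((i.2 : ℕ) : ℤ)

theorem divPtFin_injective_mod {n : ℕ} (hn : n ≠ 0) {i j : Fin n × Fin n}
    (h : divPtFin L n i - divPtFin L n j ∈ L.lattice) : i = j := by
  obtain ⟨h1, h2⟩ := (divPt_sub_mem_iff L hn _ _ _ _).mp h
  have key : ∀ x y : Fin n, (n : ℤ) ∣ ((x : ℕ) : ℤ) - ((y : ℕ) : ℤ) → x = y := by
    intro x y hd
    have hx := x.2
    have hy := y.2
    apply Fin.ext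
    have := Int.eq_zero_of_abs_lt_dvd hd (by
      rw [abs_lt]
      constructor <;> omega)
    omega
  exact Prod.ext (key _ _ h1) (key _ _ h2)

theorem mul_divPt_mem (n : ℕ) (hn : n ≠ 0) (a b : ℤ) : (n : ℂ) * divPt L n a b ∈ L.lattice := by
  have hn' : (n : ℂ) ≠ 0 := Nat.cast_ne_zero.mpr hn
  have : (n : ℂ) * divPt L n a b = (a : ℂ) * L.ω₁ + (b : ℂ) * L.ω₂ := by
    simp only [divPt]; field_simp
  rw [this]
  exact int_mul_add_mem_lattice L a b

theorem exists_divPtFin_sub_mem {n : ℕ} (hn : n ≠ 0) {z : ℂ} (h : (n : ℂ) * z ∈ L.lattice) :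
    ∃ i : Fin n × Fin n, z - divPtFin L n i ∈ L.lattice := by
  have hn' : (n : ℂ) ≠ 0 := Nat.cast_ne_zero.mpr hn
  have hnpos : (0 : ℤ) < n := by exact_mod_cast Nat.pos_of_ne_zero hn
  obtain ⟨m, k, e⟩ := PeriodPair.mem_lattice.mp h
  have hm0 : 0 ≤ m % (n : ℤ) := Int.emod_nonneg _ hnpos.ne'
  have hk0 : 0 ≤ k % (n : ℤ) := Int.emod_nonneg _ hnpos.ne'
  have hm1 : m % (n : ℤ) < n := Int.emod_lt_of_pos _ hnpos
  have hk1 : k % (n : ℤ) < n := Int.emod_lt_of_pos _ hnpos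
  refine ⟨(⟨(m % (n : ℤ)).toNat, by omega⟩, ⟨(k % (n : ℤ)).toNat, by omega⟩), ?_⟩
  have e1 : (((m % (n : ℤ)).toNat : ℕ) : ℤ) = m % n := Int.toNat_of_nonneg hm0
  have e2 : (((k % (n : ℤ)).toNat : ℕ) : ℤ) = k % n := Int.toNat_of_nonneg hk0
  have hz : z = divPt L n m k := by
    simp only [divPt]
    field_simp
    linear_combination -e
  simp only [divPtFin]
  rw [hz, divPt_sub_mem_iff L hn, e1, e2]
  exact ⟨dvd_sub_comm.mp (Int.dvd_sub_self_of_emod_eq rfl), dvd_sub_comm.mp (Int.dvd_sub_self_of_emod_eq rfl)⟩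

theorem nsmul_ptOf_eq_zero_iff (n : ℕ) (z : ℂ) :
    n • ptOf L z = 0 ↔ (n : ℂ) * z ∈ L.lattice := by
  rw [← ptOf_nsmul, ptOf_eq_zero_iff]

/-- The `n`-torsion of `E_Λ(ℂ)` is parametrised by `(Fin n)²`. -/
theorem bijective_torsion {n : ℕ} (hn : n ≠ 0) :
    Function.Bijective (fun i : Fin n × Fin n =>
      (⟨ptOf L (divPtFin L n i), by
        rw [Submodule.mem_torsionBy_iff, natCast_zsmul, nsmul_ptOf_eq_zero_iff]
        exact mul_divPt_mem L n hn _ _⟩ :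
        Submodule.torsionBy ℤ (curveOf L).toAffine.Point (n : ℤ))) := by
  constructor
  · intro i j h
    have h' : ptOf L (divPtFin L n i) = ptOf L (divPtFin L n j) := congrArg Subtype.val h
    exact divPtFin_injective_mod L hn (sub_mem_of_ptOf_eq L h')
  · rintro ⟨P, hP⟩
    obtain ⟨z, rfl⟩ := ptOf_surjective L P
    rw [Submodule.mem_torsionBy_iff, natCast_zsmul, nsmul_ptOf_eq_zero_iff] at hP
    obtain ⟨i, hi⟩ := exists_divPtFin_sub_mem L hn hP
    refine ⟨i, Subtype.ext ?_⟩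
    exact (ptOf_eq_of_sub_mem L hi).symm

theorem card_torsionBy_curveOf {n : ℕ} (hn : n ≠ 0) :
    Nat.card (Submodule.torsionBy ℤ (curveOf L).toAffine.Point (n : ℤ)) = n ^ 2 := by
  rw [← Nat.card_congr (Equiv.ofBijective _ (bijective_torsion L hn)), Nat.card_prod,
    Nat.card_fin, sq]

theorem exists_nsmul_eq_curveOf {n : ℕ} (hn : n ≠ 0) (T : (curveOf L).toAffine.Point) :
    ∃ R : (curveOf L).toAffine.Point, n • R = T := by
  have hn' : (n : ℂ) ≠ 0 := Nat.cast_ne_zero.mpr hn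
  obtain ⟨t, rfl⟩ := ptOf_surjective L T
  refine ⟨ptOf L (t / n), ?_⟩
  rw [← ptOf_nsmul]
  congr 1
  field_simp

/-- The fibre of `[n]` over `ptOf t`. -/
theorem nsmul_eq_ptOf_iff {n : ℕ} (hn : n ≠ 0) (t : ℂ) (R : (curveOf L).toAffine.Point) :
    n • R = ptOf L t ↔ ∃ i : Fin n × Fin n, R = ptOf L (t / n + divPtFin L n i) := by
  have hn' : (n : ℂ) ≠ 0 := Nat.cast_ne_zero.mpr hn
  obtain ⟨z, rfl⟩ := ptOf_surjective L R
  constructor
  · intro h
    rw [← ptOf_nsmul] at h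
    have h1 := sub_mem_of_ptOf_eq L h
    have h2 : (n : ℂ) * (z - t / n) ∈ L.lattice := by
      have e : (n : ℂ) * (z - t / n) = n * z - t := by field_simp
      rwa [e]
    obtain ⟨i, hi⟩ := exists_divPtFin_sub_mem L hn h2
    refine ⟨i, ptOf_eq_of_sub_mem L ?_⟩
    have e : z - (t / n + divPtFin L n i) = z - t / n - divPtFin L n i := by ring
    rwa [e]
  · rintro ⟨i, hi⟩
    rw [hi, ← ptOf_nsmul]
    apply ptOf_eq_of_sub_mem
    have e : (n : ℂ) * (t / n + divPtFin L n i) - t = n * divPtFin L n i := by field_simp; ring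
    rw [e]
    exact mul_divPt_mem L n hn _ _

end Fermat.Agent.S13
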