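import Mathlib
import Fermat.Agent.S13.A_helper8_Torsion

/-!
# S13 package (A), part 4: the multiplication-by-`n` formula for `℘`

`n² ℘(n z) = ∑_{i ∈ (Fin n)²} (℘ (z - q_i) - ℘ (q_i))`, `q_i = (a ω₁ + b ω₂) / n`
(`mulN_formula`), by regrouping the defining series of `℘` along the cosets of `n Λ` in `Λ`.
-/

set_option autoImplicit false

namespace Fermat.Agent.S13

open Complex Filter Topology
open scoped PeriodPair

variable (L : PeriodPair)

theorem hasSum_weierstrassP_sub (w u : ℂ) :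
    HasSum (fun l : L.lattice => 1 / (w - l) ^ 2 - 1 / (u - l) ^ 2) (℘[L] w - ℘[L] u) :=
  ((L.hasSum_weierstrassP w).sub (L.hasSum_weierstrassP u)).congr_fun fun l => by ring

/-- The lattice element `n l₁ + (a ω₁ + b ω₂)`. -/
noncomputable def recomb (n : ℕ) (hn : n ≠ 0) (p : (Fin n × Fin n) × L.lattice) : L.lattice :=
  ⟨(n : ℂ) * (p.2 : ℂ) + (n : ℂ) * divPtFin L n p.1, by
    refine add_mem ?_ (mul_divPt_mem L n hn _ _)
    have : (n : ℂ) * (p.2 : ℂ) = n • (p.2 : ℂ) := by simp [nsmul_eq_mul]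
    rw [this]
    exact nsmul_mem p.2.2 n⟩

theorem recomb_coe (n : ℕ) (hn : n ≠ 0) (p : (Fin n × Fin n) × L.lattice) :
    ((recomb L n hn p : L.lattice) : ℂ) = (n : ℂ) * ((p.2 : ℂ) + divPtFin L n p.1) := by
  simp only [recomb]; ring

theorem recomb_bijective (n : ℕ) (hn : n ≠ 0) : Function.Bijective (recomb L n hn) := by
  have hn' : (n : ℂ) ≠ 0 := Nat.cast_ne_zero.mpr hn
  constructor
  · rintro ⟨i, l⟩ ⟨j, l'⟩ h
    have h1 : (n : ℂ) * ((l : ℂ) + divPtFin L n i) = (n : ℂ) * ((l' : ℂ) + divPtFin L n j) := by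
      rw [← recomb_coe L n hn (i, l), ← recomb_coe L n hn (j, l'), h]
    have h2 : (l : ℂ) + divPtFin L n i = (l' : ℂ) + divPtFin L n j := mul_left_cancel₀ hn' h1
    have h3 : divPtFin L n i - divPtFin L n j ∈ L.lattice := by
      have e : divPtFin L n i - divPtFin L n j = (l' : ℂ) - (l : ℂ) := by linear_combination h2
      rw [e]
      exact sub_mem l'.2 l.2
    have hij : i = j := divPtFin_injective_mod L hn h3
    subst hij
    have : (l : ℂ) = (l' : ℂ) := by linear_combination h2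
    rw [Subtype.ext this]
  · intro l
    have h : (n : ℂ) * ((l : ℂ) / n) ∈ L.lattice := by
      rw [mul_div_cancel₀ _ hn']; exact l.2
    obtain ⟨i, hi⟩ := exists_divPtFin_sub_mem L hn h
    refine ⟨(i, ⟨_, hi⟩), Subtype.ext ?_⟩
    rw [recomb_coe]
    simp only
    field_simp
    ring

/-- **Multiplication-by-`n` formula** (valid for all `z`, with the convention `℘ = 0` on `Λ`). -/
theorem mulN_formula {n : ℕ} (hn : n ≠ 0) (z : ℂ) :
    (n : ℂ) ^ 2 * ℘[L] (n * z) =
      ∑ i : Fin n × Fin n, (℘[L] (z - divPtFin L n i) - ℘[L] (-divPtFin L n i)) := by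
  have hn' : (n : ℂ) ≠ 0 := Nat.cast_ne_zero.mpr hn
  -- the series of `n² ℘(n z)`
  have h1 : HasSum (fun l : L.lattice => 1 / (z - (l : ℂ) / n) ^ 2 - 1 / ((l : ℂ) / n) ^ 2)
      ((n : ℂ) ^ 2 * ℘[L] (n * z)) := by
    refine ((L.hasSum_weierstrassP (n * z)).mul_left ((n : ℂ) ^ 2)).congr_fun fun l => ?_
    have e1 : z - (l : ℂ) / n = (n * z - l) / n := by field_simp
    rw [e1, div_pow, div_pow, one_div_div, one_div_div]
    ring
  -- regroup
  have h2 := (Equiv.ofBijective _ (recomb_bijective L n hn)).hasSum_iff.mpr h1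
  have h3 : ∀ i : Fin n × Fin n, HasSum
      (fun l : L.lattice => ((fun l : L.lattice =>
        1 / (z - (l : ℂ) / n) ^ 2 - 1 / ((l : ℂ) / n) ^ 2) ∘
          (Equiv.ofBijective _ (recomb_bijective L n hn))) (i, l))
      (℘[L] (z - divPtFin L n i) - ℘[L] (-divPtFin L n i)) := by
    intro i
    refine (hasSum_weierstrassP_sub L (z - divPtFin L n i) (-divPtFin L n i)).congr_fun fun l => ?_
    simp only [Function.comp_apply, Equiv.ofBijective_apply, recomb_coe]
    rw [mul_div_cancel_left₀ _ hn']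
    have e1 : z - ((l : ℂ) + divPtFin L n i) = z - divPtFin L n i - l := by ring
    have e2 : ((l : ℂ) + divPtFin L n i) ^ 2 = (-divPtFin L n i - l) ^ 2 := by ring
    rw [e1, e2]
  have h4 := h2.prod_fiberwise h3
  exact (h4.unique (hasSum_fintype _))

/-- The `+` version of the multiplication formula. -/
theorem mulN_formula' {n : ℕ} (hn : n ≠ 0) (z : ℂ) :
    (n : ℂ) ^ 2 * ℘[L] (n * z) =
      ∑ i : Fin n × Fin n, (℘[L] (z + divPtFin L n i) - ℘[L] (divPtFin L n i)) := by
  have h := mulN_formula L hn (-z)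
  rw [mul_neg, L.weierstrassP_neg] at h
  rw [h]
  refine Finset.sum_congr rfl fun i _ => ?_
  rw [L.weierstrassP_neg, ← L.weierstrassP_neg (-z - divPtFin L n i)]
  congr 2
  ring

theorem mulN_formula_sym {n : ℕ} (hn : n ≠ 0) (z : ℂ) :
    2 * ((n : ℂ) ^ 2 * ℘[L] (n * z)) =
      ∑ i : Fin n × Fin n, (℘[L] (z + divPtFin L n i) + ℘[L] (z - divPtFin L n i)
        - 2 * ℘[L] (divPtFin L n i)) := by
  have h1 := mulN_formula L hn z
  have h2 := mulN_formula' L hn z
  rw [two_mul]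
  nth_rewrite 1 [h2]
  rw [h1, ← Finset.sum_add_distrib]
  refine Finset.sum_congr rfl fun i _ => ?_
  rw [L.weierstrassP_neg]
  ring

end Fermat.Agent.S13
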