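import Mathlib
import Fermat.Agent.S13.A_helper8_MulN
import Fermat.Agent.S13.A_helper8_AddSym

/-!
# S13 package (A), part 6: the key identity over `ℂ`

For `n` odd, `t, 2t ∉ Λ`, `n z₀ ∉ Λ`:
`(℘(n z₀) - ℘ t) · n² · ∏_{i ≠ 0} (℘ z₀ - ℘ q_i) = ∏_i (℘ z₀ - ℘ (t/n + q_i))` (`key_identity_C`).
-/

set_option autoImplicit false

namespace Fermat.Agent.S13

open Complex Polynomial
open scoped PeriodPair
open Fermat.Agent.Tate.CX

/-- A polynomial `c A + R` (`A` monic of degree `#s`, `deg R < #s`) vanishing at `#s` distinct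
points is `c ∏ (X - ρ i)`. -/
theorem poly_key {ι : Type*} (s : Finset ι) (ρ : ι → ℂ) (hρ : Set.InjOn ρ s) (A R : ℂ[X])
    (hA : A.Monic) (hAd : A.natDegree = s.card) (hR : R.degree < s.card) (c : ℂ)
    (hroots : ∀ i ∈ s, (C c * A + R).eval (ρ i) = 0) :
    C c * A + R = C c * ∏ i ∈ s, (X - C (ρ i)) := by
  classical
  apply Polynomial.eq_of_degree_sub_lt_of_eval_index_eq s hρ
  · have hB : (∏ i ∈ s, (X - C (ρ i))).Monic := monic_prod_X_sub_C ρ s
    have hBd : (∏ i ∈ s, (X - C (ρ i))).natDegree = s.card :=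
      natDegree_finsetProd_X_sub_C_eq_card s ρ
    have e : C c * A + R - C c * ∏ i ∈ s, (X - C (ρ i)) =
        C c * (A - ∏ i ∈ s, (X - C (ρ i))) + R := by ring
    rw [e]
    refine lt_of_le_of_lt (degree_add_le _ _) (max_lt ?_ hR)
    refine lt_of_le_of_lt (degree_mul_le _ _) ?_
    have h1 : (A - ∏ i ∈ s, (X - C (ρ i))).degree < s.card := by
      by_cases hs : s.card = 0
      · have hA1 : A = 1 := by
          rw [hs] at hAd
          exact hA.natDegree_eq_zero.mp hAd
        have hB1 : ∏ i ∈ s, (X - C (ρ i)) = 1 := by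
          rw [Finset.card_eq_zero.mp hs]; simp
        rw [hA1, hB1, sub_self, degree_zero]
        exact WithBot.bot_lt_coe _
      · have hdeg : A.degree = (∏ i ∈ s, (X - C (ρ i))).degree := by
          rw [degree_eq_natDegree hA.ne_zero, degree_eq_natDegree hB.ne_zero, hAd, hBd]
        have := degree_sub_lt_left hdeg hA.ne_zero (by rw [hA.leadingCoeff, hB.leadingCoeff])
        rwa [degree_eq_natDegree hA.ne_zero, hAd] at this
    calc (C c).degree + (A - ∏ i ∈ s, (X - C (ρ i))).degree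
        ≤ 0 + (A - ∏ i ∈ s, (X - C (ρ i))).degree := by gcongr; exact degree_C_le
      _ = (A - ∏ i ∈ s, (X - C (ρ i))).degree := zero_add _
      _ < s.card := h1
  · intro i hi
    rw [hroots i hi, eval_mul, eval_prod, Finset.prod_eq_zero hi (by simp), mul_zero]

variable (L : PeriodPair) (n : ℕ) [NeZero n]

theorem divPtFin_zero : divPtFin L n 0 = 0 := by
  simp [divPtFin, divPt]

theorem divPtFin_notMem {i : Fin n × Fin n} (hi : i ≠ 0) : divPtFin L n i ∉ L.lattice := by
  intro h
  apply hi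
  apply divPtFin_injective_mod L (NeZero.ne n)
  rw [divPtFin_zero, sub_zero]
  exact h

theorem mul_divPtFin_mem (i : Fin n × Fin n) : (n : ℂ) * divPtFin L n i ∈ L.lattice :=
  mul_divPt_mem L n (NeZero.ne n) _ _

theorem exists_negIdx (i : Fin n × Fin n) :
    ∃ j : Fin n × Fin n, divPtFin L n i + divPtFin L n j ∈ L.lattice := by
  have h : (n : ℂ) * (-divPtFin L n i) ∈ L.lattice := by
    rw [mul_neg]; exact neg_mem (mul_divPtFin_mem L n i)
  obtain ⟨j, hj⟩ := exists_divPtFin_sub_mem L (NeZero.ne n) h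
  refine ⟨j, ?_⟩
  have := neg_mem hj
  have e : -(-divPtFin L n i - divPtFin L n j) = divPtFin L n i + divPtFin L n j := by ring
  rwa [e] at this

/-- The index of `-q_i`. -/
noncomputable def negIdx (i : Fin n × Fin n) : Fin n × Fin n :=
  Classical.choose (exists_negIdx L n i)

theorem negIdx_spec (i : Fin n × Fin n) :
    divPtFin L n i + divPtFin L n (negIdx L n i) ∈ L.lattice :=
  Classical.choose_spec (exists_negIdx L n i)

theorem negIdx_ne_zero {i : Fin n × Fin n} (hi : i ≠ 0) : negIdx L n i ≠ 0 := by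
  intro h
  have := negIdx_spec L n i
  rw [h, divPtFin_zero, add_zero] at this
  exact divPtFin_notMem L n hi this

theorem negIdx_ne_self (hn : Odd n) {i : Fin n × Fin n} (hi : i ≠ 0) : negIdx L n i ≠ i := by
  intro h
  have h2 := negIdx_spec L n i
  rw [h] at h2
  obtain ⟨k, hk⟩ := hn
  have hkc : (n : ℂ) = 2 * (k : ℂ) + 1 := by exact_mod_cast congrArg (Nat.cast : ℕ → ℂ) hk
  have h3 : divPtFin L n i = (n : ℂ) * divPtFin L n i -
      k • (divPtFin L n i + divPtFin L n i) := by
    rw [nsmul_eq_mul, hkc]; ring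
  apply divPtFin_notMem L n hi
  rw [h3]
  exact sub_mem (mul_divPtFin_mem L n i) (nsmul_mem h2 k)

theorem weierstrassP_negIdx (i : Fin n × Fin n) :
    ℘[L] (divPtFin L n (negIdx L n i)) = ℘[L] (divPtFin L n i) := by
  have h := negIdx_spec L n i
  have e : divPtFin L n (negIdx L n i) =
      -divPtFin L n i + (⟨_, h⟩ : L.lattice) := by simp
  rw [e, L.weierstrassP_add_coe, L.weierstrassP_neg]

/-- The value `℘ (q_i)`. -/
noncomputable def eOf (i : Fin n × Fin n) : ℂ := ℘[L] (divPtFin L n i)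

/-- The nonzero indices. -/
noncomputable def idx' : Finset (Fin n × Fin n) := (Finset.univ : Finset (Fin n × Fin n)).erase 0

theorem mem_idx' {i : Fin n × Fin n} : i ∈ idx' n ↔ i ≠ 0 := by simp [idx']

theorem card_idx' : (idx' n).card + 1 = n ^ 2 := by
  rw [idx', Finset.card_erase_add_one (Finset.mem_univ _), Finset.card_univ, Fintype.card_prod,
    Fintype.card_fin, sq]

/-- `∏_{j ≠ 0} (X - ℘ q_j)`. -/
noncomputable def prodPoly : ℂ[X] := ∏ j ∈ idx' n, (X - C (eOf L n j))

/-- `∏_{j ≠ 0, i, -i} (X - ℘ q_j)`. -/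
noncomputable def coPoly (i : Fin n × Fin n) : ℂ[X] :=
  ∏ j ∈ ((idx' n).erase i).erase (negIdx L n i), (X - C (eOf L n j))

/-- numerator of the symmetric addition formula -/
noncomputable def numPoly (i : Fin n × Fin n) : ℂ[X] :=
  (X + C (eOf L n i)) * (C (2 * eOf L n i) * X - C (L.g₂ / 2)) - C L.g₃

/-- the lower order part of `2 Φ_n` -/
noncomputable def restPoly : ℂ[X] :=
  ∑ i ∈ idx' n, (numPoly L n i * coPoly L n i - C (2 * eOf L n i) * prodPoly L n)

theorem prodPoly_eq (hn : Odd n) {i : Fin n × Fin n} (hi : i ≠ 0) :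
    prodPoly L n = (X - C (eOf L n i)) ^ 2 * coPoly L n i := by
  have h1 : i ∈ idx' n := (mem_idx' n).mpr hi
  have h2 : negIdx L n i ∈ (idx' n).erase i :=
    Finset.mem_erase.mpr ⟨negIdx_ne_self L n hn hi, (mem_idx' n).mpr (negIdx_ne_zero L n hi)⟩
  rw [prodPoly, ← Finset.mul_prod_erase _ _ h1, ← Finset.mul_prod_erase _ _ h2, coPoly, eOf, eOf,
    weierstrassP_negIdx]
  ring

theorem card_erase_erase (hn : Odd n) {i : Fin n × Fin n} (hi : i ≠ 0) :
    (((idx' n).erase i).erase (negIdx L n i)).card + 2 = (idx' n).card := by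
  have h1 : i ∈ idx' n := (mem_idx' n).mpr hi
  have h2 : negIdx L n i ∈ (idx' n).erase i :=
    Finset.mem_erase.mpr ⟨negIdx_ne_self L n hn hi, (mem_idx' n).mpr (negIdx_ne_zero L n hi)⟩
  have e1 := Finset.card_erase_add_one h2
  have e2 := Finset.card_erase_add_one h1
  omega

omit [NeZero n] in
theorem notMem_of_mul_notMem {z : ℂ} (hz : (n : ℂ) * z ∉ L.lattice) : z ∉ L.lattice := by
  intro h
  apply hz
  have : (n : ℂ) * z = n • z := (nsmul_eq_mul _ _).symm
  rw [this]
  exact nsmul_mem h n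

theorem add_divPtFin_notMem {z : ℂ} (hz : (n : ℂ) * z ∉ L.lattice) (i : Fin n × Fin n) :
    z + divPtFin L n i ∉ L.lattice := by
  intro h
  apply hz
  have h1 : (n : ℂ) * (z + divPtFin L n i) ∈ L.lattice := by
    have : (n : ℂ) * (z + divPtFin L n i) = n • (z + divPtFin L n i) := (nsmul_eq_mul _ _).symm
    rw [this]
    exact nsmul_mem h n
  have e : (n : ℂ) * z = (n : ℂ) * (z + divPtFin L n i) - (n : ℂ) * divPtFin L n i := by ring
  rw [e]
  exact sub_mem h1 (mul_divPtFin_mem L n i)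

theorem sub_divPtFin_notMem {z : ℂ} (hz : (n : ℂ) * z ∉ L.lattice) (i : Fin n × Fin n) :
    z - divPtFin L n i ∉ L.lattice := by
  intro h
  apply hz
  have h1 : (n : ℂ) * (z - divPtFin L n i) ∈ L.lattice := by
    have : (n : ℂ) * (z - divPtFin L n i) = n • (z - divPtFin L n i) := (nsmul_eq_mul _ _).symm
    rw [this]
    exact nsmul_mem h n
  have e : (n : ℂ) * z = (n : ℂ) * (z - divPtFin L n i) + (n : ℂ) * divPtFin L n i := by ring
  rw [e]
  exact add_mem h1 (mul_divPtFin_mem L n i)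

/-- **Claim 1**: `2 n² ℘(n z) Π(℘ z) = 2 ℘ z Π(℘ z) + rest(℘ z)`. -/
theorem claim_one (hn : Odd n) {z : ℂ} (hz : (n : ℂ) * z ∉ L.lattice) :
    2 * ((n : ℂ) ^ 2 * ℘[L] (n * z)) * (prodPoly L n).eval (℘[L] z) =
      2 * ℘[L] z * (prodPoly L n).eval (℘[L] z) + (restPoly L n).eval (℘[L] z) := by
  have hz0 := notMem_of_mul_notMem L n hz
  rw [mulN_formula_sym L (NeZero.ne n) z, ← Finset.add_sum_erase _ _ (Finset.mem_univ 0)]
  have e0 : ℘[L] (z + divPtFin L n 0) + ℘[L] (z - divPtFin L n 0) -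
      2 * ℘[L] (divPtFin L n 0) = 2 * ℘[L] z := by
    rw [divPtFin_zero, add_zero, sub_zero, L.weierstrassP_zero]; ring
  rw [e0, add_mul, restPoly, eval_finsetSum, Finset.sum_mul]
  congr 1
  refine Finset.sum_congr rfl fun i hi => ?_
  have hi0 : i ≠ 0 := (mem_idx' n).mp hi
  have hq := divPtFin_notMem L n hi0
  have h1 := add_divPtFin_notMem L n hz i
  have h2 := sub_divPtFin_notMem L n hz i
  have hadd := weierstrassP_add_add_sub L hz0 hq h1 h2
  rw [prodPoly_eq L n hn hi0]
  simp only [eval_sub, eval_mul, eval_pow, eval_X, eval_C, numPoly, eval_add, eOf]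
  linear_combination (eval (℘[L] z) (coPoly L n i)) * hadd

/-- The points of the fibre of `[n]` over `t`. -/
noncomputable def fibPt (t : ℂ) (i : Fin n × Fin n) : ℂ := t / n + divPtFin L n i

theorem mul_fibPt (t : ℂ) (i : Fin n × Fin n) :
    (n : ℂ) * fibPt L n t i = t + (n : ℂ) * divPtFin L n i := by
  have hn' : (n : ℂ) ≠ 0 := Nat.cast_ne_zero.mpr (NeZero.ne n)
  simp only [fibPt]
  field_simp

theorem mul_fibPt_notMem {t : ℂ} (ht : t ∉ L.lattice) (i : Fin n × Fin n) :
    (n : ℂ) * fibPt L n t i ∉ L.lattice := by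
  rw [mul_fibPt]
  intro h
  apply ht
  have e : t = t + (n : ℂ) * divPtFin L n i - (n : ℂ) * divPtFin L n i := by ring
  rw [e]
  exact sub_mem h (mul_divPtFin_mem L n i)

theorem weierstrassP_mul_fibPt (t : ℂ) (i : Fin n × Fin n) :
    ℘[L] ((n : ℂ) * fibPt L n t i) = ℘[L] t := by
  rw [mul_fibPt]
  exact L.weierstrassP_add_coe t ⟨_, mul_divPtFin_mem L n i⟩

theorem weierstrassP_fibPt_injective {t : ℂ} (ht : t ∉ L.lattice) (h2t : 2 * t ∉ L.lattice) :
    Function.Injective fun i : Fin n × Fin n => ℘[L] (fibPt L n t i) := by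
  intro i j h
  have hi := notMem_of_mul_notMem L n (mul_fibPt_notMem L n ht i)
  have hj := notMem_of_mul_notMem L n (mul_fibPt_notMem L n ht j)
  rcases sub_or_add_mem_lattice_of_eq L hi hj h with h1 | h1
  · apply divPtFin_injective_mod L (NeZero.ne n)
    have e : divPtFin L n i - divPtFin L n j = fibPt L n t i - fibPt L n t j := by
      simp only [fibPt]; ring
    rwa [e]
  · exfalso
    apply h2t
    have h3 : (n : ℂ) * (fibPt L n t i + fibPt L n t j) ∈ L.lattice := by
      have : (n : ℂ) * (fibPt L n t i + fibPt L n t j) = n • (fibPt L n t i + fibPt L n t j) :=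
        (nsmul_eq_mul _ _).symm
      rw [this]
      exact nsmul_mem h1 n
    have e : 2 * t = (n : ℂ) * (fibPt L n t i + fibPt L n t j) - (n : ℂ) * divPtFin L n i -
        (n : ℂ) * divPtFin L n j := by
      rw [mul_add, mul_fibPt, mul_fibPt]; ring
    rw [e]
    exact sub_mem (sub_mem h3 (mul_divPtFin_mem L n i)) (mul_divPtFin_mem L n j)

omit [NeZero n] in
theorem natDegree_numPoly_le (i : Fin n × Fin n) : (numPoly L n i).natDegree ≤ 2 := by
  unfold numPoly
  compute_degree

theorem natDegree_prodPoly : (prodPoly L n).natDegree = (idx' n).card :=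
  natDegree_finsetProd_X_sub_C_eq_card _ _

theorem natDegree_coPoly (i : Fin n × Fin n) :
    (coPoly L n i).natDegree = (((idx' n).erase i).erase (negIdx L n i)).card :=
  natDegree_finsetProd_X_sub_C_eq_card _ _

theorem degree_restPoly_le (hn : Odd n) : (restPoly L n).degree ≤ ((idx' n).card : ℕ) := by
  unfold restPoly
  refine (degree_sum_le _ _).trans (Finset.sup_le fun i hi => ?_)
  have hi0 : i ≠ 0 := (mem_idx' n).mp hi
  refine (degree_sub_le _ _).trans (max_le ?_ ?_)
  · apply degree_le_of_natDegree_le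
    refine natDegree_mul_le.trans ?_
    have h1 := natDegree_numPoly_le L n i
    have h2 := natDegree_coPoly L n i
    have h3 := card_erase_erase L n hn hi0
    omega
  · apply degree_le_of_natDegree_le
    refine natDegree_mul_le.trans ?_
    rw [natDegree_C, zero_add, natDegree_prodPoly]

/-- **The key identity over `ℂ`.** -/
theorem key_identity_C (hn : Odd n) {t z₀ : ℂ} (ht : t ∉ L.lattice) (h2t : 2 * t ∉ L.lattice)
    (hz₀ : (n : ℂ) * z₀ ∉ L.lattice) :
    (℘[L] (n * z₀) - ℘[L] t) * (n : ℂ) ^ 2 * ∏ i ∈ idx' n, (℘[L] z₀ - ℘[L] (divPtFin L n i)) =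
      ∏ i : Fin n × Fin n, (℘[L] z₀ - ℘[L] (fibPt L n t i)) := by
  have hcard : (Finset.univ : Finset (Fin n × Fin n)).card = (idx' n).card + 1 := by
    rw [card_idx', Finset.card_univ, Fintype.card_prod, Fintype.card_fin, sq]
  have hA : (X * prodPoly L n).Monic := monic_X.mul (monic_prod_X_sub_C _ _)
  have hAd : (X * prodPoly L n).natDegree = (Finset.univ : Finset (Fin n × Fin n)).card := by
    have hm : (prodPoly L n).Monic := monic_prod_X_sub_C _ _
    rw [monic_X.natDegree_mul hm, natDegree_X, natDegree_prodPoly, hcard, add_comm]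
  set R : ℂ[X] := restPoly L n - C (2 * ((n : ℂ) ^ 2 * ℘[L] t)) * prodPoly L n with hRdef
  have hR : R.degree < ((Finset.univ : Finset (Fin n × Fin n)).card : ℕ) := by
    have h1 : R.degree ≤ ((idx' n).card : ℕ) := by
      refine (degree_sub_le _ _).trans (max_le (degree_restPoly_le L n hn) ?_)
      apply degree_le_of_natDegree_le
      refine natDegree_mul_le.trans ?_
      rw [natDegree_C, zero_add, natDegree_prodPoly]
    refine lt_of_le_of_lt h1 ?_
    rw [hcard]
    exact_mod_cast Nat.lt_succ_self _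
  have hpoly := poly_key (Finset.univ : Finset (Fin n × Fin n))
    (fun i => ℘[L] (fibPt L n t i))
    ((weierstrassP_fibPt_injective L n ht h2t).injOn) (X * prodPoly L n) R hA hAd hR 2
    (by
      intro i _
      have hc := claim_one L n hn (mul_fibPt_notMem L n ht i)
      rw [weierstrassP_mul_fibPt] at hc
      simp only [hRdef, eval_add, eval_mul, eval_C, eval_X, eval_sub]
      linear_combination -hc)
  have hev := congrArg (eval (℘[L] z₀)) hpoly
  have hc := claim_one L n hn hz₀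
  simp only [hRdef, eval_add, eval_mul, eval_C, eval_X, eval_sub, eval_prod] at hev
  have hP : eval (℘[L] z₀) (prodPoly L n) = ∏ i ∈ idx' n, (℘[L] z₀ - ℘[L] (divPtFin L n i)) := by
    simp only [prodPoly, eval_prod, eval_sub, eval_X, eval_C, eOf]
  rw [← hP]
  have h2 : (2 : ℂ) ≠ 0 := two_ne_zero
  apply mul_left_cancel₀ h2
  rw [← hev]
  linear_combination hc

end Fermat.Agent.S13
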