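import Mathlib

/-!
# S13 package (A), part 7: the key identity as a property, and its transport

* `xOf`: the `x`-coordinate of a point (`0` at infinity);
* `KeyProp W n`: the key identity for `W` and `n`;
* `TorsProp W n N`: all fibres of `[n]` are finite with `N` elements;
* `keyProp_transport`, `torsProp_transport`: transport along an injective homomorphism of point
  groups which is surjective on `n`-division points and affine on `x`-coordinates.
-/

set_option autoImplicit false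

namespace Fermat.Agent.S13

open WeierstrassCurve Function

/-- The `x`-coordinate of a point, `0` at infinity. -/
def xOf {F : Type*} [Field F] {W : WeierstrassCurve.Affine F} : W.Point → F
  | 0 => 0
  | .some x _ _ => x

@[simp] theorem xOf_zero {F : Type*} [Field F] {W : WeierstrassCurve.Affine F} :
    xOf (0 : W.Point) = 0 := rfl

@[simp] theorem xOf_some {F : Type*} [Field F] {W : WeierstrassCurve.Affine F} {x y : F}
    (h : W.Nonsingular x y) : xOf (Affine.Point.some x y h) = x := rfl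

/-- The key identity for `W` and `n`. -/
def KeyProp {F : Type*} [Field F] [DecidableEq F] (W : WeierstrassCurve F) (n : ℕ) : Prop :=
  ∀ T R₀ : W.toAffine.Point, 2 • T ≠ 0 → n • R₀ ≠ 0 →
    (xOf (n • R₀) - xOf T) * (n : F) ^ 2 *
      ∏ᶠ Q ∈ {Q : W.toAffine.Point | n • Q = 0 ∧ Q ≠ 0}, (xOf R₀ - xOf Q) =
    ∏ᶠ R ∈ {R : W.toAffine.Point | n • R = T}, (xOf R₀ - xOf R)

/-- All fibres of `[n]` on `W` are finite with exactly `N` elements. -/
def TorsProp {F : Type*} [Field F] [DecidableEq F] (W : WeierstrassCurve F) (n N : ℕ) : Prop :=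
  ∀ T : W.toAffine.Point, {R : W.toAffine.Point | n • R = T}.Finite ∧
    {R : W.toAffine.Point | n • R = T}.ncard = N

section transport

variable {F₁ F₂ : Type*} [Field F₁] [Field F₂] [DecidableEq F₁] [DecidableEq F₂]
  {W₁ : WeierstrassCurve F₁} {W₂ : WeierstrassCurve F₂}
  (φ : W₁.toAffine.Point →+ W₂.toAffine.Point) (hφ : Injective φ) {n : ℕ}
  (hsurj : ∀ P₂ : W₂.toAffine.Point, n • P₂ ∈ Set.range φ → P₂ ∈ Set.range φ)

include hφ hsurj

theorem image_fibre (T : W₁.toAffine.Point) :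
    φ '' {R : W₁.toAffine.Point | n • R = T} = {R₂ : W₂.toAffine.Point | n • R₂ = φ T} := by
  ext R₂
  constructor
  · rintro ⟨R, hR, rfl⟩
    show n • φ R = φ T
    rw [← map_nsmul, hR]
  · intro h
    have h' : n • R₂ = φ T := h
    obtain ⟨R, rfl⟩ := hsurj R₂ ⟨T, h'.symm⟩
    refine ⟨R, ?_, rfl⟩
    show n • R = T
    apply hφ
    rw [map_nsmul, h']

theorem image_torsion :
    φ '' {Q : W₁.toAffine.Point | n • Q = 0 ∧ Q ≠ 0} =
      {Q₂ : W₂.toAffine.Point | n • Q₂ = 0 ∧ Q₂ ≠ 0} := by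
  ext Q₂
  constructor
  · rintro ⟨Q, ⟨hQ, hQ0⟩, rfl⟩
    refine ⟨?_, fun h => hQ0 (hφ (by rw [h, map_zero]))⟩
    rw [← map_nsmul, hQ, map_zero]
  · rintro ⟨h, h0⟩
    obtain ⟨Q, rfl⟩ := hsurj Q₂ ⟨0, by rw [map_zero, h]⟩
    refine ⟨Q, ⟨?_, fun hq => h0 (by rw [hq, map_zero])⟩, rfl⟩
    apply hφ
    rw [map_nsmul, h, map_zero]

theorem torsProp_transport {N : ℕ} (h₂ : TorsProp W₂ n N) : TorsProp W₁ n N := by
  intro T
  obtain ⟨hfin, hcard⟩ := h₂ (φ T)
  rw [← image_fibre φ hφ hsurj T] at hfin hcard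
  refine ⟨hfin.of_finite_image hφ.injOn, ?_⟩
  rw [← hcard, Set.ncard_image_of_injective _ hφ]

theorem exists_nsmul_eq_transport (hdiv : ∀ T₂ : W₂.toAffine.Point, ∃ R₂, n • R₂ = T₂)
    (T : W₁.toAffine.Point) : ∃ R : W₁.toAffine.Point, n • R = T := by
  obtain ⟨R₂, hR₂⟩ := hdiv (φ T)
  obtain ⟨R, rfl⟩ := hsurj R₂ ⟨T, hR₂.symm⟩
  exact ⟨R, hφ (by rw [map_nsmul, hR₂])⟩

theorem keyProp_transport {N : ℕ} (hT₂ : TorsProp W₂ n N) (σ : F₁ →+* F₂) (a b : F₂)
    (ha : a ≠ 0) (hx : ∀ P : W₁.toAffine.Point, P ≠ 0 → xOf (φ P) = a * σ (xOf P) + b)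
    (h₂ : KeyProp W₂ n) : KeyProp W₁ n := by
  classical
  intro T R₀ hT hR₀
  have hT₁ := torsProp_transport φ hφ hsurj hT₂
  have hT0 : T ≠ 0 := fun h => hT (by rw [h, smul_zero])
  have hR₀0 : R₀ ≠ 0 := fun h => hR₀ (by rw [h, smul_zero])
  have key := h₂ (φ T) (φ R₀) (by
    rw [← map_nsmul]; exact fun h => hT (hφ (by rw [h, map_zero])))
    (by rw [← map_nsmul]; exact fun h => hR₀ (hφ (by rw [h, map_zero])))
  rw [← map_nsmul, hx _ hR₀, hx _ hT0, hx _ hR₀0, ← image_torsion φ hφ hsurj,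
    ← image_fibre φ hφ hsurj T, finprod_mem_image hφ.injOn, finprod_mem_image hφ.injOn] at key
  -- finiteness
  have hfinT := (hT₁ T).1
  have hfin0 := (hT₁ 0).1
  have hfinS : {Q : W₁.toAffine.Point | n • Q = 0 ∧ Q ≠ 0}.Finite :=
    hfin0.subset fun Q hQ => hQ.1
  -- cardinalities
  have hcardT : hfinT.toFinset.card = N := by
    rw [← Set.ncard_eq_toFinset_card _ hfinT]; exact (hT₁ T).2
  have hcardS : hfinS.toFinset.card + 1 = N := by
    have h0 : hfin0.toFinset.card = N := by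
      rw [← Set.ncard_eq_toFinset_card _ hfin0]; exact (hT₁ 0).2
    have hsub : hfinS.toFinset = hfin0.toFinset.erase 0 := by
      ext Q
      simp only [Set.Finite.mem_toFinset, Set.mem_ofPred_eq, Finset.mem_erase]
      tauto
    rw [hsub, Finset.card_erase_add_one, h0]
    simp
  rw [finprod_mem_eq_finite_toFinset_prod _ hfinS, finprod_mem_eq_finite_toFinset_prod _ hfinT]
    at key ⊢
  -- rewrite the factors
  have e1 : ∀ Q ∈ hfinS.toFinset, a * σ (xOf R₀) + b - xOf (φ Q) = a * σ (xOf R₀ - xOf Q) := by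
    intro Q hQ
    have hQ0 : Q ≠ 0 := ((Set.Finite.mem_toFinset hfinS).mp hQ).2
    rw [hx _ hQ0, map_sub]; ring
  have e2 : ∀ R ∈ hfinT.toFinset, a * σ (xOf R₀) + b - xOf (φ R) = a * σ (xOf R₀ - xOf R) := by
    intro R hR
    have hR0 : R ≠ 0 := by
      rintro rfl
      have : n • (0 : W₁.toAffine.Point) = T := (Set.Finite.mem_toFinset hfinT).mp hR
      rw [smul_zero] at this
      exact hT0 this.symm
    rw [hx _ hR0, map_sub]; ring
  rw [Finset.prod_congr rfl e1, Finset.prod_congr rfl e2, Finset.prod_mul_distrib,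
    Finset.prod_mul_distrib, Finset.prod_const, Finset.prod_const, hcardT, ← map_prod,
    ← map_prod] at key
  have haN : a ^ N ≠ 0 := pow_ne_zero _ ha
  have key' : a ^ N * σ ((xOf (n • R₀) - xOf T) * (n : F₁) ^ 2 *
      ∏ Q ∈ hfinS.toFinset, (xOf R₀ - xOf Q)) =
      a ^ N * σ (∏ R ∈ hfinT.toFinset, (xOf R₀ - xOf R)) := by
    rw [← key, ← hcardS, pow_succ, map_mul, map_mul, map_sub, map_pow, map_natCast]
    ring
  exact σ.injective (mul_left_cancel₀ haN key')

end transport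

end Fermat.Agent.S13
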