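import Mathlib
import Fermat.Agent.S13.A_helper8_KeyC
import Fermat.Agent.S13.A_helper8_Transport

/-!
# S13 package (A), part 8: `KeyProp` and `TorsProp` for the curves `curveOf L`
-/

set_option autoImplicit false

namespace Fermat.Agent.S13

open Complex WeierstrassCurve
open scoped PeriodPair
open Fermat.Agent.Tate.CX

variable (L : PeriodPair) (n : ℕ) [NeZero n]

theorem xOf_ptOf {z : ℂ} (hz : z ∉ L.lattice) : xOf (ptOf L z) = ℘[L] z := by
  rw [ptOf_of_notMem L hz, xOf_some]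

theorem ptOf_divPtFin_injective :
    Function.Injective fun i : Fin n × Fin n => ptOf L (divPtFin L n i) := by
  intro i j h
  exact divPtFin_injective_mod L (NeZero.ne n) (sub_mem_of_ptOf_eq L h)

theorem ptOf_fibPt_injective (t : ℂ) :
    Function.Injective fun i : Fin n × Fin n => ptOf L (fibPt L n t i) := by
  intro i j h
  apply divPtFin_injective_mod L (NeZero.ne n)
  have := sub_mem_of_ptOf_eq L h
  have e : divPtFin L n i - divPtFin L n j = fibPt L n t i - fibPt L n t j := by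
    simp only [fibPt]; ring
  rwa [e]

theorem setOf_nsmul_eq_ptOf (t : ℂ) :
    {R : (curveOf L).toAffine.Point | n • R = ptOf L t} =
      (fun i : Fin n × Fin n => ptOf L (fibPt L n t i)) '' Set.univ := by
  ext R
  simp only [Set.mem_ofPred_eq, Set.image_univ, Set.mem_range]
  rw [nsmul_eq_ptOf_iff L (NeZero.ne n)]
  constructor
  · rintro ⟨i, hi⟩; exact ⟨i, hi.symm⟩
  · rintro ⟨i, hi⟩; exact ⟨i, hi.symm⟩

theorem setOf_torsion_ne_zero :
    {Q : (curveOf L).toAffine.Point | n • Q = 0 ∧ Q ≠ 0} =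
      (fun i : Fin n × Fin n => ptOf L (divPtFin L n i)) '' (idx' n : Set (Fin n × Fin n)) := by
  ext Q
  simp only [Set.mem_ofPred_eq, Set.mem_image, Finset.mem_coe, mem_idx']
  constructor
  · rintro ⟨hQ, hQ0⟩
    obtain ⟨z, rfl⟩ := ptOf_surjective L Q
    rw [nsmul_ptOf_eq_zero_iff] at hQ
    obtain ⟨i, hi⟩ := exists_divPtFin_sub_mem L (NeZero.ne n) hQ
    refine ⟨i, ?_, (ptOf_eq_of_sub_mem L hi).symm⟩
    rintro rfl
    rw [divPtFin_zero, sub_zero] at hi
    exact hQ0 (ptOf_of_mem L hi)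
  · rintro ⟨i, hi, rfl⟩
    refine ⟨?_, ?_⟩
    · rw [nsmul_ptOf_eq_zero_iff]; exact mul_divPtFin_mem L n i
    · rw [Ne, ptOf_eq_zero_iff]; exact divPtFin_notMem L n hi

theorem torsProp_curveOf : TorsProp (curveOf L) n (n ^ 2) := by
  intro T
  obtain ⟨t, rfl⟩ := ptOf_surjective L T
  rw [setOf_nsmul_eq_ptOf]
  refine ⟨Set.toFinite _, ?_⟩
  rw [Set.ncard_image_of_injective _ (ptOf_fibPt_injective L n t), Set.ncard_univ,
    Nat.card_prod, Nat.card_fin, sq]

theorem keyProp_curveOf (hn : Odd n) : KeyProp (curveOf L) n := by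
  intro T R₀ hT hR₀
  obtain ⟨t, rfl⟩ := ptOf_surjective L T
  obtain ⟨z₀, rfl⟩ := ptOf_surjective L R₀
  have h2t : 2 * t ∉ L.lattice := by
    intro h
    apply hT
    have := ptOf_nsmul L 2 t
    rw [← this, ptOf_eq_zero_iff]
    simpa using h
  have ht : t ∉ L.lattice := by
    intro h
    apply h2t
    have : 2 * t = 2 • t := by simp [two_smul, two_mul]
    rw [this]
    exact nsmul_mem h 2
  have hz₀ : (n : ℂ) * z₀ ∉ L.lattice := by
    intro h
    apply hR₀
    rw [← ptOf_nsmul, ptOf_eq_zero_iff]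
    exact h
  have hz₀' : z₀ ∉ L.lattice := notMem_of_mul_notMem L n hz₀
  have key := key_identity_C L n hn ht h2t hz₀
  rw [← ptOf_nsmul, xOf_ptOf L hz₀, xOf_ptOf L ht, xOf_ptOf L hz₀', setOf_torsion_ne_zero,
    setOf_nsmul_eq_ptOf, finprod_mem_image (ptOf_divPtFin_injective L n).injOn,
    finprod_mem_image (ptOf_fibPt_injective L n t).injOn, finprod_mem_coe_finset,
    finprod_mem_univ, finprod_eq_prod_of_fintype]
  have e1 : ∏ i ∈ idx' n, (℘[L] z₀ - xOf (ptOf L (divPtFin L n i))) =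
      ∏ i ∈ idx' n, (℘[L] z₀ - ℘[L] (divPtFin L n i)) :=
    Finset.prod_congr rfl fun i hi => by
      rw [xOf_ptOf L (divPtFin_notMem L n ((mem_idx' n).mp hi))]
  have e2 : ∏ i : Fin n × Fin n, (℘[L] z₀ - xOf (ptOf L (fibPt L n t i))) =
      ∏ i : Fin n × Fin n, (℘[L] z₀ - ℘[L] (fibPt L n t i)) :=
    Finset.prod_congr rfl fun i _ => by
      rw [xOf_ptOf L (notMem_of_mul_notMem L n (mul_fibPt_notMem L n ht i))]
  rw [e1, e2]
  exact key

end Fermat.Agent.S13
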