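import Mathlib
import Fermat.Agent.X0N.J_helper8_Inj
import Fermat.Agent.X0N.J_helper8_Surj
import Fermat.Agent.S13.A_helper8_KeyCurve
import Fermat.Agent.Tate.VC_helper7

/-!
# S13 package (A), part 9: every elliptic curve over `ℂ`

* `exists_periodPair`: every `(g₂, g₃)` with `g₂³ - 27 g₃² ≠ 0` comes from a period pair;
* `torsProp_complex`, `exists_nsmul_eq_complex`, `keyProp_complex`: the three properties for every
  Weierstrass curve over `ℂ` with `Δ ≠ 0`.
-/

set_option autoImplicit false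

namespace Fermat.Agent.S13

open Complex WeierstrassCurve Real Finset
open scoped PeriodPair

theorem bernoulli'_five_aux : bernoulli' 5 = 0 := by
  have h1 : Nat.choose 5 2 = 10 := by decide
  have h2 : Nat.choose 5 3 = 10 := by decide
  have h3 : Nat.choose 5 4 = 5 := by decide
  rw [bernoulli'_def]
  norm_num [sum_range_succ, sum_range_zero, h1, h2, h3]

theorem bernoulli'_six_aux : bernoulli' 6 = 1 / 42 := by
  have h1 : Nat.choose 6 2 = 15 := by decide
  have h2 : Nat.choose 6 3 = 20 := by decide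
  have h3 : Nat.choose 6 4 = 15 := by decide
  have h4 : Nat.choose 6 5 = 6 := by decide
  rw [bernoulli'_def]
  norm_num [sum_range_succ, sum_range_zero, h1, h2, h3, h4, bernoulli'_five_aux]

theorem riemannZeta_six_aux : riemannZeta 6 = (π : ℂ) ^ 6 / 945 := by
  have h := riemannZeta_two_mul_nat (k := 3) (by norm_num)
  norm_num at h
  rw [h, bernoulli_eq_bernoulli'_of_ne_one (by norm_num), bernoulli'_six_aux]
  norm_num [Nat.factorial]
  ring

/-- Two pairs `(a, b)`, `(a', b')` with the same `j` differ by a scaling. -/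
theorem exists_scaling_alg {a b a' b' : ℂ} (hnz : a ^ 3 - b ^ 2 ≠ 0) (hnw : a' ^ 3 - b' ^ 2 ≠ 0)
    (key : a ^ 3 * b' ^ 2 = a' ^ 3 * b ^ 2) :
    ∃ l : ℂ, l ≠ 0 ∧ a' = l ^ 4 * a ∧ b' = l ^ 6 * b := by
  by_cases ha0 : a = 0
  · have hb0 : b ≠ 0 := by
      intro hb0
      apply hnz
      rw [ha0, hb0]; ring
    have ha'0 : a' = 0 := by
      rw [ha0] at key
      have : a' ^ 3 * b ^ 2 = 0 := by rw [← key]; ring
      rcases mul_eq_zero.mp this with h | h
      · exact pow_eq_zero_iff (by norm_num) |>.mp h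
      · exact absurd (pow_eq_zero_iff (by norm_num) |>.mp h) hb0
    have hb'0 : b' ≠ 0 := by
      intro hb0
      apply hnw
      rw [ha'0, hb0]; ring
    obtain ⟨l, hl⟩ := IsAlgClosed.exists_pow_nat_eq (b' / b) (n := 6) (by norm_num)
    have hl0 : l ≠ 0 := by
      rintro rfl
      have : b' / b ≠ 0 := div_ne_zero hb'0 hb0
      apply this
      rw [← hl]; ring
    refine ⟨l, hl0, ?_, ?_⟩
    · rw [ha'0, ha0]; ring
    · rw [hl]; field_simp
  · by_cases hb0 : b = 0
    · have hb'0 : b' = 0 := by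
        rw [hb0] at key
        have : a ^ 3 * b' ^ 2 = 0 := by rw [key]; ring
        rcases mul_eq_zero.mp this with h | h
        · exact absurd (pow_eq_zero_iff (by norm_num) |>.mp h) ha0
        · exact pow_eq_zero_iff (by norm_num) |>.mp h
      have ha'0 : a' ≠ 0 := by
        intro h0
        apply hnw
        rw [h0, hb'0]; ring
      obtain ⟨l, hl⟩ := IsAlgClosed.exists_pow_nat_eq (a' / a) (n := 4) (by norm_num)
      have hl0 : l ≠ 0 := by
        rintro rfl
        have : a' / a ≠ 0 := div_ne_zero ha'0 ha0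
        apply this
        rw [← hl]; ring
      refine ⟨l, hl0, ?_, ?_⟩
      · rw [hl]; field_simp
      · rw [hb'0, hb0]; ring
    · have ha'0 : a' ≠ 0 := by
        intro h0
        rw [h0] at key
        have : a ^ 3 * b' ^ 2 = 0 := by rw [key]; ring
        have hb'0 : b' = 0 := by
          rcases mul_eq_zero.mp this with h | h
          · exact absurd (pow_eq_zero_iff (by norm_num) |>.mp h) ha0
          · exact pow_eq_zero_iff (by norm_num) |>.mp h
        apply hnw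
        rw [h0, hb'0]; ring
      have hb'0 : b' ≠ 0 := by
        intro h0
        rw [h0] at key
        have : a' ^ 3 * b ^ 2 = 0 := by rw [← key]; ring
        rcases mul_eq_zero.mp this with h | h
        · exact ha'0 (pow_eq_zero_iff (by norm_num) |>.mp h)
        · exact hb0 (pow_eq_zero_iff (by norm_num) |>.mp h)
      obtain ⟨l, hl⟩ := IsAlgClosed.exists_pow_nat_eq (a * b' / (a' * b)) (n := 2) (by norm_num)
      have hl0 : l ≠ 0 := by
        rintro rfl
        have : a * b' / (a' * b) ≠ 0 :=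
          div_ne_zero (mul_ne_zero ha0 hb'0) (mul_ne_zero ha'0 hb0)
        apply this
        rw [← hl]; ring
      have h4 : l ^ 4 = a' / a := by
        have : l ^ 4 = (l ^ 2) ^ 2 := by ring
        rw [this, hl, div_pow, div_eq_div_iff (pow_ne_zero 2 (mul_ne_zero ha'0 hb0)) ha0]
        linear_combination key
      have h6 : l ^ 6 = b' / b := by
        have : l ^ 6 = l ^ 2 * l ^ 4 := by ring
        rw [this, hl, h4]
        field_simp
      refine ⟨l, hl0, ?_, ?_⟩
      · rw [h4]; field_simp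
      · rw [h6]; field_simp

open Fermat.Agent.X0N UpperHalfPlane ModularForm EisensteinSeries in
/-- **Uniformisation**: every pair `(g₂, g₃)` with nonzero discriminant comes from a lattice. -/
theorem exists_periodPair (a b : ℂ) (h : a ^ 3 - 27 * b ^ 2 ≠ 0) :
    ∃ L : PeriodPair, L.g₂ = a ∧ L.g₃ = b := by
  have hπ : (π : ℂ) ≠ 0 := Complex.ofReal_ne_zero.mpr Real.pi_ne_zero
  obtain ⟨c₄, hc₄⟩ : ∃ c : ℂ, c = 4 * (π : ℂ) ^ 4 / 3 := ⟨_, rfl⟩
  obtain ⟨c₆, hc₆⟩ : ∃ c : ℂ, c = 8 * (π : ℂ) ^ 6 / 27 := ⟨_, rfl⟩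
  have hc₄0 : c₄ ≠ 0 := by
    rw [hc₄]
    exact div_ne_zero (mul_ne_zero (by norm_num) (pow_ne_zero 4 hπ)) (by norm_num)
  have hc₆0 : c₆ ≠ 0 := by
    rw [hc₆]
    exact div_ne_zero (mul_ne_zero (by norm_num) (pow_ne_zero 6 hπ)) (by norm_num)
  have hcc : c₄ ^ 3 = 27 * c₆ ^ 2 := by rw [hc₄, hc₆]; ring
  obtain ⟨a', ha'⟩ : ∃ c : ℂ, c = a / c₄ := ⟨_, rfl⟩
  obtain ⟨b', hb'⟩ : ∃ c : ℂ, c = b / c₆ := ⟨_, rfl⟩
  have hnw : a' ^ 3 - b' ^ 2 ≠ 0 := by
    have hc6 : c₆ ^ 2 = c₄ ^ 3 / 27 := by rw [hcc]; ring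
    have e : a' ^ 3 - b' ^ 2 = (a ^ 3 - 27 * b ^ 2) / c₄ ^ 3 := by
      rw [ha', hb', div_pow, div_pow, hc6]
      field_simp
    rw [e]
    exact div_ne_zero h (pow_ne_zero 3 hc₄0)
  obtain ⟨τ, hτ⟩ := exists_jFun_eq (1728 * a' ^ 3 / (a' ^ 3 - b' ^ 2))
  have hΔ := discriminant_ne_zero τ
  have hd := discriminant_eq_E₄_cube_sub_E₆_sq τ
  have hj := jFun_mul_discriminant τ
  have hnz : E₄ τ ^ 3 - E₆ τ ^ 2 ≠ 0 := by
    intro h0
    rw [hd, h0] at hΔ
    simp at hΔ
  have key : E₄ τ ^ 3 * b' ^ 2 = a' ^ 3 * E₆ τ ^ 2 := by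
    rw [hτ, hd] at hj
    field_simp at hj
    linear_combination hj
  obtain ⟨l, hl0, h4, h6⟩ := exists_scaling_alg hnz hnw key
  refine ⟨pairOf l⁻¹ (inv_ne_zero hl0) τ, ?_, ?_⟩
  · rw [PeriodPair.g₂, pairOf_G _ _ _ (by norm_num : 3 ≤ 4)]
    have hz : riemannZeta ((4 : ℕ) : ℂ) = (π : ℂ) ^ 4 / 90 := by
      have := riemannZeta_four
      simpa using this
    rw [hz]
    have e : a = c₄ * a' := by rw [ha']; field_simp
    rw [e, h4, hc₄, inv_pow, inv_inv]
    show 60 * (l ^ 4 * (2 * ((π : ℂ) ^ 4 / 90) * E₄ τ)) = _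
    ring
  · rw [PeriodPair.g₃, pairOf_G _ _ _ (by norm_num : 3 ≤ 6)]
    have hz : riemannZeta ((6 : ℕ) : ℂ) = (π : ℂ) ^ 6 / 945 := by
      have := riemannZeta_six_aux
      simpa using this
    rw [hz]
    have e : b = c₆ * b' := by rw [hb']; field_simp
    rw [e, h6, hc₆, inv_pow, inv_inv]
    show 140 * (l ^ 6 * (2 * ((π : ℂ) ^ 6 / 945) * E₆ τ)) = _
    ring

section VC

open Fermat.Agent.Tate

variable {F : Type*} [Field F] [DecidableEq F] (W : WeierstrassCurve F)
  (C : WeierstrassCurve.VariableChange F)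

theorem xOf_vcPtEquiv_symm (P : W.toAffine.Point) (hP : P ≠ 0) :
    xOf ((vcPtEquiv W C).symm P) =
      ((C.u : F) ^ 2)⁻¹ * (RingHom.id F) (xOf P) + -(C.r * ((C.u : F) ^ 2)⁻¹) := by
  have hu : (C.u : F) ^ 2 ≠ 0 := pow_ne_zero _ C.u.ne_zero
  obtain ⟨Q, rfl⟩ := (vcPtEquiv W C).surjective P
  rw [AddEquiv.symm_apply_apply]
  rcases Q with _ | ⟨x, y, h⟩
  · exact absurd (map_zero (vcPtEquiv W C)) hP
  · rw [vcPtEquiv_apply, vcPt_some, xOf_some, xOf_some, RingHom.id_apply, vcX]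
    field_simp
    ring

theorem torsProp_of_variableChange {n N : ℕ} (h : TorsProp (C • W) n N) : TorsProp W n N :=
  torsProp_transport (vcPtEquiv W C).symm.toAddMonoidHom (vcPtEquiv W C).symm.injective
    (fun P₂ _ => (vcPtEquiv W C).symm.surjective P₂) h

theorem exists_nsmul_eq_of_variableChange {n : ℕ}
    (h : ∀ T : (C • W).toAffine.Point, ∃ R, n • R = T) (T : W.toAffine.Point) :
    ∃ R : W.toAffine.Point, n • R = T :=
  exists_nsmul_eq_transport (vcPtEquiv W C).symm.toAddMonoidHom (vcPtEquiv W C).symm.injective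
    (fun P₂ _ => (vcPtEquiv W C).symm.surjective P₂) h T

theorem keyProp_of_variableChange {n N : ℕ} (hT : TorsProp (C • W) n N)
    (h : KeyProp (C • W) n) : KeyProp W n :=
  keyProp_transport (vcPtEquiv W C).symm.toAddMonoidHom (vcPtEquiv W C).symm.injective
    (fun P₂ _ => (vcPtEquiv W C).symm.surjective P₂) hT (RingHom.id F) _ _
    (inv_ne_zero (pow_ne_zero _ C.u.ne_zero)) (xOf_vcPtEquiv_symm W C) h

end VC

/-- Every elliptic curve over `ℂ` is a variable change of some `curveOf L`. -/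
theorem exists_variableChange_eq_curveOf (W : WeierstrassCurve ℂ) (hΔ : W.Δ ≠ 0) :
    ∃ (C : WeierstrassCurve.VariableChange ℂ) (L : PeriodPair), C • W = curveOf L := by
  have : Invertible (2 : ℂ) := invertibleOfNonzero two_ne_zero
  have : Invertible (3 : ℂ) := invertibleOfNonzero three_ne_zero
  set W' := W.toShortNF • W with hW'
  have : W'.IsShortNF := W.toShortNF_spec
  have hΔ' : W'.Δ ≠ 0 := by
    rw [hW', variableChange_Δ]
    exact mul_ne_zero (pow_ne_zero _ (Units.ne_zero _)) hΔ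
  rw [Δ_of_isShortNF] at hΔ'
  obtain ⟨L, h2, h3⟩ := exists_periodPair (-4 * W'.a₄) (-4 * W'.a₆) (by
    intro h
    apply hΔ'
    linear_combination h)
  refine ⟨W.toShortNF, L, ?_⟩
  rw [← hW']
  ext
  · rw [a₁_of_isShortNF]; rfl
  · rw [a₂_of_isShortNF]; rfl
  · rw [a₃_of_isShortNF]; rfl
  · rw [curveOf_a₄, h2]; ring
  · rw [curveOf_a₆, h3]; ring

theorem torsProp_complex (W : WeierstrassCurve ℂ) (hΔ : W.Δ ≠ 0) {n : ℕ} (hn : n ≠ 0) :
    TorsProp W n (n ^ 2) := by
  have : NeZero n := ⟨hn⟩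
  obtain ⟨C, L, h⟩ := exists_variableChange_eq_curveOf W hΔ
  apply torsProp_of_variableChange W C
  rw [h]
  exact torsProp_curveOf L n

theorem exists_nsmul_eq_complex (W : WeierstrassCurve ℂ) (hΔ : W.Δ ≠ 0) {n : ℕ} (hn : n ≠ 0)
    (T : W.toAffine.Point) : ∃ R : W.toAffine.Point, n • R = T := by
  obtain ⟨C, L, h⟩ := exists_variableChange_eq_curveOf W hΔ
  apply exists_nsmul_eq_of_variableChange W C
  rw [h]
  exact exists_nsmul_eq_curveOf L hn

theorem keyProp_complex (W : WeierstrassCurve ℂ) (hΔ : W.Δ ≠ 0) {n : ℕ} (hn : Odd n) :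
    KeyProp W n := by
  have hn0 : n ≠ 0 := by rintro rfl; exact absurd hn (by decide)
  have : NeZero n := ⟨hn0⟩
  obtain ⟨C, L, h⟩ := exists_variableChange_eq_curveOf W hΔ
  apply keyProp_of_variableChange W C (N := n ^ 2)
  · rw [h]; exact torsProp_curveOf L n
  · rw [h]; exact keyProp_curveOf L n hn

end Fermat.Agent.S13
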