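import Mathlib

/-!
# S13 package (A), part 10: elements with finite orbit are algebraic

Let `L` be an algebraically closed field of characteristic zero and `k` a subfield.  If
`t : L` is transcendental over `k`, then for every `c : k` there is a `k`-automorphism of `L`
with `t ↦ t + c` (`exists_algEquiv_apply_eq_add`).  Hence an element of `L` whose orbit under
`Aut(L/k)` is finite is algebraic over `k` (`isAlgebraic_of_finite_orbit`), and lies in `k`
when `k` is algebraically closed (`mem_range_of_finite_orbit`).
-/

set_option autoImplicit false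

namespace Fermat.Agent.S13

open MvPolynomial

section shift

variable {k : Type*} [Field k] {ι : Type*}

/-- The shift automorphism `X i ↦ X i + C (c i)` of a polynomial ring. -/
noncomputable def shiftAlgEquiv (c : ι → k) : MvPolynomial ι k ≃ₐ[k] MvPolynomial ι k :=
  AlgEquiv.ofAlgHom (aeval fun i => X i + C (c i)) (aeval fun i => X i - C (c i))
    (by ext i; simp) (by ext i; simp)

@[simp] theorem shiftAlgEquiv_X (c : ι → k) (i : ι) :
    shiftAlgEquiv c (X i) = X i + C (c i) := by
  simp [shiftAlgEquiv]

end shift

variable {k L : Type*} [Field k] [Field L] [Algebra k L] [IsAlgClosed L]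

theorem exists_algEquiv_apply_eq_add {t : L} (ht : Transcendental k t) (c : k) :
    ∃ τ : L ≃ₐ[k] L, τ t = t + algebraMap k L c := by
  classical
  have hs : AlgebraicIndepOn k id ({t} : Set L) := by
    have : AlgebraicIndependent k (fun x : ({t} : Set L) => (x : L)) := by
      rw [algebraicIndependent_singleton_iff (⟨t, rfl⟩ : ({t} : Set L))]
      exact ht
    exact this
  obtain ⟨B, hB, hBasis⟩ := exists_isTranscendenceBasis_superset hs
  have htB : t ∈ B := hB rfl
  set v : B → L := fun b => (b : L) with hv
  have hv1 : AlgebraicIndependent k v := hBasis.1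
  have := IsAlgClosed.isAlgClosure_of_transcendence_basis v hBasis
  set cc : B → k := fun b => if (b : L) = t then c else 0 with hcc
  let e₀ : Algebra.adjoin k (Set.range v) ≃ₐ[k] Algebra.adjoin k (Set.range v) :=
    (hv1.aevalEquiv.symm.trans (shiftAlgEquiv cc)).trans hv1.aevalEquiv
  let τ₀ : L ≃+* L := IsAlgClosure.equivOfEquiv L L e₀.toRingEquiv
  have hτ₀ : ∀ s : Algebra.adjoin k (Set.range v),
      τ₀ (algebraMap _ L s) = algebraMap _ L (e₀ s) := fun s =>
    IsAlgClosure.equivOfEquiv_algebraMap L L e₀.toRingEquiv s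
  have hcomm : ∀ x : k, τ₀ (algebraMap k L x) = algebraMap k L x := by
    intro x
    have h1 : algebraMap k L x
        = algebraMap (Algebra.adjoin k (Set.range v)) L (algebraMap k _ x) := rfl
    rw [h1, hτ₀, e₀.commutes]
  refine ⟨AlgEquiv.ofRingEquiv (f := τ₀) hcomm, ?_⟩
  show τ₀ t = t + algebraMap k L c
  have h2 : t = algebraMap (Algebra.adjoin k (Set.range v)) L (hv1.aevalEquiv (X ⟨t, htB⟩)) := by
    rw [hv1.algebraMap_aevalEquiv, aeval_X]
  conv_lhs => rw [h2]
  rw [hτ₀]
  have h3 : e₀ (hv1.aevalEquiv (X ⟨t, htB⟩)) = hv1.aevalEquiv (X ⟨t, htB⟩ + C c) := by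
    simp [e₀, hcc]
  rw [h3, hv1.algebraMap_aevalEquiv]
  simp [hv]

theorem isAlgebraic_of_finite_orbit [CharZero L] (x : L)
    (h : (Set.range fun τ : L ≃ₐ[k] L => τ x).Finite) : IsAlgebraic k x := by
  by_contra hx
  have hx' : Transcendental k x := hx
  choose τ hτ using fun m : ℕ => exists_algEquiv_apply_eq_add hx' (m : k)
  have hinj : Function.Injective fun m : ℕ => x + algebraMap k L (m : k) := by
    intro a b hab
    simpa using hab
  have : (Set.range fun m : ℕ => x + algebraMap k L (m : k)).Finite := by
    refine h.subset ?_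
    rintro _ ⟨m, rfl⟩
    exact ⟨τ m, hτ m⟩
  exact Set.infinite_range_of_injective hinj this

theorem mem_range_of_finite_orbit [CharZero L] [IsAlgClosed k] (x : L)
    (h : (Set.range fun τ : L ≃ₐ[k] L => τ x).Finite) : x ∈ Set.range (algebraMap k L) := by
  have halg : IsAlgebraic k x := isAlgebraic_of_finite_orbit x h
  have hint : IsIntegral k x := halg.isIntegral
  have hdeg : (minpoly k x).degree = 1 :=
    IsAlgClosed.degree_eq_one_of_irreducible k (minpoly.irreducible hint)
  exact minpoly.mem_range_of_degree_eq_one k x hdeg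

end Fermat.Agent.S13
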