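import Mathlib
import Fermat.Agent.S13.A_helper8_Model
import Fermat.Agent.S13.A_helper8_Orbit

/-!
# S13 package (A), part 11: descent from `ℂ` to an algebraically closed subfield

* `ptMap f W₁ W₂ h`: the homomorphism on points induced by a field homomorphism;
* `mem_range_ptMap_of_nsmul_mem`: for `K` algebraically closed and `ι : K →+* ℂ`, a point `P` of
  `E(ℂ)` with `n • P ∈ E(K)` lies in `E(K)` (finite orbit under `Aut(ℂ/K)`).
-/

set_option autoImplicit false

namespace Fermat.Agent.S13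

open WeierstrassCurve

section ptMap

variable {F₁ F₂ : Type*} [Field F₁] [Field F₂] [DecidableEq F₁] [DecidableEq F₂]

/-- The homomorphism on points induced by a field homomorphism `f` with `W₁.map f = W₂`. -/
noncomputable def ptMap (f : F₁ →+* F₂) (W₁ : WeierstrassCurve F₁) (W₂ : WeierstrassCurve F₂)
    (h : W₁.map f = W₂) : W₁.toAffine.Point →+ W₂.toAffine.Point where
  toFun P := match P with
    | 0 => 0
    | .some x y hP => .some (f x) (f y)
        (h ▸ (Affine.map_nonsingular (W := W₁.toAffine) f.injective x y).mpr hP)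
  map_zero' := rfl
  map_add' := by
    subst h
    rintro (_ | ⟨x₁, y₁, h₁⟩) (_ | ⟨x₂, y₂, h₂⟩)
    any_goals rfl
    by_cases hxy : x₁ = x₂ ∧ y₁ = W₁.toAffine.negY x₂ y₂
    · rw [Affine.Point.add_of_Y_eq hxy.left hxy.right,
        Affine.Point.add_of_Y_eq (congr_arg _ hxy.left) <| by rw [hxy.right, Affine.map_negY]]
    · simpa only [Affine.Point.add_some hxy, ← Affine.map_addX, ← Affine.map_addY,
        ← Affine.map_slope] using!
        (Affine.Point.add_some fun h ↦ hxy ⟨f.injective h.1,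
          f.injective (Affine.map_negY (W' := W₁.toAffine) f .. ▸ h).2⟩).symm

variable (f : F₁ →+* F₂) (W₁ : WeierstrassCurve F₁) (W₂ : WeierstrassCurve F₂)
  (h : W₁.map f = W₂)

theorem ptMap_some {x y : F₁} (hP : W₁.toAffine.Nonsingular x y) :
    ptMap f W₁ W₂ h (.some x y hP) = .some (f x) (f y)
      (h ▸ (Affine.map_nonsingular (W := W₁.toAffine) f.injective x y).mpr hP) := rfl

theorem ptMap_injective : Function.Injective (ptMap f W₁ W₂ h) := by
  rintro (_ | ⟨x₁, y₁, h₁⟩) (_ | ⟨x₂, y₂, h₂⟩) hPQ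
  · rfl
  · have h0 : (Affine.Point.zero : W₂.toAffine.Point) = .some _ _ _ := hPQ
    cases h0
  · have h0 : (.some _ _ _ : W₂.toAffine.Point) = Affine.Point.zero := hPQ
    cases h0
  · rw [ptMap_some, ptMap_some] at hPQ
    simp only [Affine.Point.some.injEq] at hPQ
    have hx := f.injective hPQ.1
    have hy := f.injective hPQ.2
    subst hx hy
    rfl

theorem xOf_ptMap (P : W₁.toAffine.Point) : xOf (ptMap f W₁ W₂ h P) = f (xOf P) := by
  rcases P with _ | ⟨x, y, hP⟩
  · exact (map_zero f).symm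
  · rfl

/-- The `y`-coordinate of a point, `0` at infinity. -/
def yOf {F : Type*} [Field F] {W : WeierstrassCurve.Affine F} : W.Point → F
  | 0 => 0
  | .some _ y _ => y

@[simp] theorem yOf_zero {F : Type*} [Field F] {W : WeierstrassCurve.Affine F} :
    yOf (0 : W.Point) = 0 := rfl

@[simp] theorem yOf_some {F : Type*} [Field F] {W : WeierstrassCurve.Affine F} {x y : F}
    (h : W.Nonsingular x y) : yOf (Affine.Point.some x y h) = y := rfl

theorem yOf_ptMap (P : W₁.toAffine.Point) : yOf (ptMap f W₁ W₂ h P) = f (yOf P) := by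
  rcases P with _ | ⟨x, y, hP⟩
  · exact (map_zero f).symm
  · rfl

end ptMap

section descent

variable {K : Type*} [Field K] [DecidableEq K] [IsAlgClosed K] (W : WeierstrassCurve K)
  (ι : K →+* ℂ)

omit [DecidableEq K] [IsAlgClosed K] in
theorem map_Δ_ne_zero (hΔ : W.Δ ≠ 0) : (W.map ι).Δ ≠ 0 := by
  rw [WeierstrassCurve.map_Δ]
  exact (map_ne_zero_iff ι ι.injective).mpr hΔ

theorem mem_range_ptMap_of_nsmul_mem (hΔ : W.Δ ≠ 0) {n : ℕ} (hn : n ≠ 0)
    (P : (W.map ι).toAffine.Point) (hP : n • P ∈ Set.range (ptMap ι W (W.map ι) rfl)) :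
    P ∈ Set.range (ptMap ι W (W.map ι) rfl) := by
  let _ : Algebra K ℂ := ι.toAlgebra
  obtain ⟨T, hT⟩ := hP
  obtain ⟨hfin, -⟩ := torsProp_complex (W.map ι) (map_Δ_ne_zero W ι hΔ) hn (ptMap ι W _ rfl T)
  have hτW : ∀ τ : ℂ ≃ₐ[K] ℂ, (W.map ι).map (τ : ℂ →+* ℂ) = W.map ι := by
    intro τ
    rw [WeierstrassCurve.map_map]
    congr 1
    ext x
    exact τ.commutes x
  have hfix : ∀ (τ : ℂ ≃ₐ[K] ℂ) (T : W.toAffine.Point),
      ptMap (τ : ℂ →+* ℂ) _ _ (hτW τ) (ptMap ι W _ rfl T) = ptMap ι W _ rfl T := by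
    intro τ T
    rcases T with _ | ⟨x, y, hxy⟩
    · rfl
    · rw [ptMap_some, ptMap_some]
      congr 1 <;> exact τ.commutes _
  have hmem : ∀ τ : ℂ ≃ₐ[K] ℂ, ptMap (τ : ℂ →+* ℂ) _ _ (hτW τ) P ∈
      {R : (W.map ι).toAffine.Point | n • R = ptMap ι W _ rfl T} := by
    intro τ
    show n • _ = _
    rw [← map_nsmul, ← hT, hfix]
  have hx : xOf P ∈ Set.range (algebraMap K ℂ) := by
    apply mem_range_of_finite_orbit
    refine (hfin.image xOf).subset ?_
    rintro _ ⟨τ, rfl⟩
    exact ⟨_, hmem τ, by rw [xOf_ptMap]; rfl⟩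
  have hy : yOf P ∈ Set.range (algebraMap K ℂ) := by
    apply mem_range_of_finite_orbit
    refine (hfin.image yOf).subset ?_
    rintro _ ⟨τ, rfl⟩
    exact ⟨_, hmem τ, by rw [yOf_ptMap]; rfl⟩
  rcases P with _ | ⟨x, y, hxy⟩
  · exact ⟨0, rfl⟩
  · obtain ⟨a, ha⟩ := hx
    obtain ⟨b, hb⟩ := hy
    have ha' : ι a = x := ha
    have hb' : ι b = y := hb
    subst ha' hb'
    exact ⟨.some a b ((Affine.map_nonsingular (W := W.toAffine) ι.injective a b).mp hxy), rfl⟩

end descent

end Fermat.Agent.S13
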