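import Mathlib
import Fermat.Agent.S13.A_helper8_Descent

/-!
# S13 package (A): main statements

For an algebraically closed field `K` algebraic over `ℚ` (e.g. `AlgebraicClosure ℚ`) and a
Weierstrass curve `W` over `K` with `Δ ≠ 0`:

* `card_torsionBy`: `#E(K)[n] = n²`;
* `exists_nsmul_eq`: `E(K)` is `n`-divisible;
* `finite_setOf_nsmul_eq`, `ncard_setOf_nsmul_eq`: the fibres of `[n]` have `n²` elements;
* `key_identity`: for `n` odd, `2T ≠ 0`, `nR₀ ≠ 0`: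
  `(x(nR₀) - x(T)) n² ∏_{Q ∈ E[n]∖0} (x(R₀) - x(Q)) = ∏_{nR = T} (x(R₀) - x(R))`.
-/

set_option autoImplicit false

namespace Fermat.Agent.S13

open WeierstrassCurve

section main

variable {K : Type*} [Field K] [DecidableEq K] [Algebra ℚ K] [IsAlgClosed K]
  [Algebra.IsAlgebraic ℚ K] (W : WeierstrassCurve K)

variable (K) in
/-- An embedding of `K` in `ℂ`. -/
noncomputable def embC : K →+* ℂ := (IsAlgClosed.lift : K →ₐ[ℚ] ℂ).toRingHom

theorem torsProp_algClosed (hΔ : W.Δ ≠ 0) {n : ℕ} (hn : n ≠ 0) : TorsProp W n (n ^ 2) :=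
  torsProp_transport (ptMap (embC K) W _ rfl) (ptMap_injective ..)
    (mem_range_ptMap_of_nsmul_mem W (embC K) hΔ hn)
    (torsProp_complex _ (map_Δ_ne_zero W _ hΔ) hn)

theorem keyProp_algClosed (hΔ : W.Δ ≠ 0) {n : ℕ} (hn : Odd n) : KeyProp W n :=
  keyProp_transport (ptMap (embC K) W _ rfl) (ptMap_injective ..)
    (mem_range_ptMap_of_nsmul_mem W (embC K) hΔ hn.pos.ne')
    (torsProp_complex _ (map_Δ_ne_zero W _ hΔ) hn.pos.ne') (embC K) 1 0 one_ne_zero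
    (fun P _ => by rw [xOf_ptMap]; ring) (keyProp_complex _ (map_Δ_ne_zero W _ hΔ) hn)

/-- `E(K)` is `n`-divisible. -/
theorem exists_nsmul_eq (hΔ : W.Δ ≠ 0) {n : ℕ} (hn : n ≠ 0) (T : W.toAffine.Point) :
    ∃ R : W.toAffine.Point, n • R = T :=
  exists_nsmul_eq_transport (ptMap (embC K) W _ rfl) (ptMap_injective ..)
    (mem_range_ptMap_of_nsmul_mem W (embC K) hΔ hn)
    (exists_nsmul_eq_complex _ (map_Δ_ne_zero W _ hΔ) hn) T

theorem finite_setOf_nsmul_eq (hΔ : W.Δ ≠ 0) {n : ℕ} (hn : n ≠ 0) (T : W.toAffine.Point) :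
    {R : W.toAffine.Point | n • R = T}.Finite :=
  (torsProp_algClosed W hΔ hn T).1

theorem ncard_setOf_nsmul_eq (hΔ : W.Δ ≠ 0) {n : ℕ} (hn : n ≠ 0) (T : W.toAffine.Point) :
    {R : W.toAffine.Point | n • R = T}.ncard = n ^ 2 :=
  (torsProp_algClosed W hΔ hn T).2

/-- `#E(K)[n] = n²`. -/
theorem card_torsionBy (hΔ : W.Δ ≠ 0) {n : ℕ} (hn : n ≠ 0) :
    Nat.card (Submodule.torsionBy ℤ W.toAffine.Point (n : ℤ)) = n ^ 2 := by
  rw [← ncard_setOf_nsmul_eq W hΔ hn 0, ← _root_.Nat.card_coe_set_eq]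
  apply Nat.card_congr
  refine Equiv.subtypeEquivRight fun R => ?_
  rw [Submodule.mem_torsionBy_iff, natCast_zsmul]
  rfl

/-- The key identity. -/
theorem key_identity (hΔ : W.Δ ≠ 0) {n : ℕ} (hn : Odd n) (T R₀ : W.toAffine.Point)
    (hT : 2 • T ≠ 0) (hR₀ : n • R₀ ≠ 0) :
    (xOf (n • R₀) - xOf T) * (n : K) ^ 2 *
      ∏ᶠ Q ∈ {Q : W.toAffine.Point | n • Q = 0 ∧ Q ≠ 0}, (xOf R₀ - xOf Q) =
    ∏ᶠ R ∈ {R : W.toAffine.Point | n • R = T}, (xOf R₀ - xOf R) :=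
  keyProp_algClosed W hΔ hn T R₀ hT hR₀

end main

end Fermat.Agent.S13
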