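import Mathlib
import Fermat.Prelude.Def_FLTPrelim_GaloisRep
import Fermat.Agent.S13.A_helper8_Main

/-!
# S13 package (A): the main statements for `W'⁄(AlgebraicClosure ℚ)`, `W'` over `ℚ`

The statements of `A_helper8_Main` specialised to the base change to `AlgebraicClosure ℚ` of a
Weierstrass curve over `ℚ`, with exactly the instances used by the frozen statements
(`instDecEqAlgebraicClosureRat`, `DivisionRing.toRatAlgebra`).
-/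

set_option autoImplicit false

namespace Fermat.Agent.S13

open WeierstrassCurve WeierstrassCurve.Affine

/-- `AlgebraicClosure ℚ` is algebraic over `ℚ`, for the `ℚ`-algebra structure found by instance
synthesis (`DivisionRing.toRatAlgebra`). -/
theorem isAlgebraic_Qbar : Algebra.IsAlgebraic ℚ (AlgebraicClosure ℚ) :=
  AlgebraicClosure.isAlgebraic ℚ

variable (W' : WeierstrassCurve ℚ)

theorem baseChange_Δ_ne_zero (hΔ : W'.Δ ≠ 0) : (W'⁄(AlgebraicClosure ℚ)).Δ ≠ 0 := by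
  show (W'.map (algebraMap ℚ (AlgebraicClosure ℚ))).Δ ≠ 0
  rw [WeierstrassCurve.map_Δ]
  exact (map_ne_zero_iff _ (algebraMap ℚ (AlgebraicClosure ℚ)).injective).mpr hΔ

theorem card_torsionBy_Qbar (hΔ : W'.Δ ≠ 0) {n : ℕ} (hn : n ≠ 0) :
    Nat.card (Submodule.torsionBy ℤ (W'⁄(AlgebraicClosure ℚ)).Point (n : ℤ)) = n ^ 2 :=
  haveI := isAlgebraic_Qbar
  card_torsionBy (W'⁄(AlgebraicClosure ℚ)) (baseChange_Δ_ne_zero W' hΔ) hn

theorem exists_nsmul_eq_Qbar (hΔ : W'.Δ ≠ 0) {n : ℕ} (hn : n ≠ 0)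
    (T : (W'⁄(AlgebraicClosure ℚ)).Point) : ∃ R : (W'⁄(AlgebraicClosure ℚ)).Point, n • R = T :=
  haveI := isAlgebraic_Qbar
  exists_nsmul_eq (W'⁄(AlgebraicClosure ℚ)) (baseChange_Δ_ne_zero W' hΔ) hn T

theorem finite_setOf_nsmul_eq_Qbar (hΔ : W'.Δ ≠ 0) {n : ℕ} (hn : n ≠ 0)
    (T : (W'⁄(AlgebraicClosure ℚ)).Point) :
    {R : (W'⁄(AlgebraicClosure ℚ)).Point | n • R = T}.Finite :=
  haveI := isAlgebraic_Qbar
  finite_setOf_nsmul_eq (W'⁄(AlgebraicClosure ℚ)) (baseChange_Δ_ne_zero W' hΔ) hn T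

theorem ncard_setOf_nsmul_eq_Qbar (hΔ : W'.Δ ≠ 0) {n : ℕ} (hn : n ≠ 0)
    (T : (W'⁄(AlgebraicClosure ℚ)).Point) :
    {R : (W'⁄(AlgebraicClosure ℚ)).Point | n • R = T}.ncard = n ^ 2 :=
  haveI := isAlgebraic_Qbar
  ncard_setOf_nsmul_eq (W'⁄(AlgebraicClosure ℚ)) (baseChange_Δ_ne_zero W' hΔ) hn T

theorem key_identity_Qbar (hΔ : W'.Δ ≠ 0) {n : ℕ} (hn : Odd n)
    (T R₀ : (W'⁄(AlgebraicClosure ℚ)).Point) (hT : 2 • T ≠ 0) (hR₀ : n • R₀ ≠ 0) :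
    (xOf (n • R₀) - xOf T) * (n : AlgebraicClosure ℚ) ^ 2 *
      ∏ᶠ Q ∈ {Q : (W'⁄(AlgebraicClosure ℚ)).Point | n • Q = 0 ∧ Q ≠ 0}, (xOf R₀ - xOf Q) =
    ∏ᶠ R ∈ {R : (W'⁄(AlgebraicClosure ℚ)).Point | n • R = T}, (xOf R₀ - xOf R) :=
  haveI := isAlgebraic_Qbar
  key_identity (W'⁄(AlgebraicClosure ℚ)) (baseChange_Δ_ne_zero W' hΔ) hn T R₀ hT hR₀

end Fermat.Agent.S13
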