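import Mathlib
import Fermat.Agent.S13.At2_helper2_FreyInertia

set_option autoImplicit false
set_option linter.unusedSectionVars false

/-!
# (S13, AT 2), package (3b): the Frey curve has no rational point of order `p`

A point of `E[p](K)` fixed by the whole Galois group is zero.  Proof at `2`: on the nodal model,
a rational `p`-torsion point near the node would have `p · w(x) ∈ n ℤ` with `w(x) ∈ ℤ`,
`0 < 2 w(x) < n` and `p ∤ n`; a rational `p`-torsion point `Q` away from the node gives three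
distinct points `Q, 2Q, 3Q` with nonsingular reduction and coordinates `x ≡ 1`, `y ≡ 0, 1`
modulo `𝔪`, two of which are congruent, hence equal.
-/

namespace Fermat.Agent.S13

open Fermat.Agent.Tate
open WeierstrassCurve WeierstrassCurve.Affine
open scoped WeierstrassCurve.Affine

section Basic

variable {K : Type*} [Field K] [Algebra ℚ K]

/-- there is a valuation subring above `2` -/
theorem exists_valuationSubring_over_two :
    ∃ A : ValuationSubring K, ((2 : ℕ) : K) ∈ A.nonunits := by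
  have : CharZero K := algebraRat.charZero K
  let A₀ : Subring K := (Int.castRingHom K).range
  have h2 : ((2 : ℕ) : K) ∈ A₀ := ⟨2, by simp⟩
  let I : Ideal A₀ := Ideal.span {⟨((2 : ℕ) : K), h2⟩}
  have hI : I ≠ ⊤ := by
    rw [Ne, Ideal.span_singleton_eq_top]
    intro hu
    obtain ⟨⟨c, n, hn⟩, hc⟩ := hu.exists_right_inv
    have h1 : ((2 * n : ℤ) : K) = 1 := by
      have := congrArg Subtype.val hc
      simp only [Subring.coe_mul, Subring.coe_one] at this
      push_cast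
      rw [← this, ← hn]
      simp
    have h3 : (2 * n : ℤ) = 1 := by exact_mod_cast h1
    omega
  obtain ⟨B, -, hB⟩ := Ideal.image_subset_nonunits_valuationSubring I hI
  exact ⟨B, hB ⟨⟨_, h2⟩, Ideal.subset_span rfl, rfl⟩⟩

/-- an element fixed by the whole Galois group is rational -/
theorem exists_rat_of_forall_fixed [IsAlgClosed K] [Algebra.IsAlgebraic ℚ K] (x : K)
    (h : ∀ σ : K ≃ₐ[ℚ] K, σ x = x) : ∃ q : ℚ, algebraMap ℚ K q = x := by
  have : IsAlgClosure ℚ K := ⟨inferInstance, inferInstance⟩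
  have : IsGalois ℚ K := IsAlgClosure.isGalois ℚ K
  have := (InfiniteGalois.mem_bot_iff_fixed (k := ℚ) (K := K) x).2 h
  exact IntermediateField.mem_bot.1 this

variable (A : ValuationSubring K) (hA : ((2 : ℕ) : K) ∈ A.nonunits)

include hA in
/-- an integral rational number is congruent to `0` or `1` modulo `𝔪` -/
theorem ratCast_mem_nonunits_or (s : ℚ) (hs : algebraMap ℚ K s ∈ A) :
    algebraMap ℚ K s ∈ A.nonunits ∨ algebraMap ℚ K s - 1 ∈ A.nonunits := by
  have : CharZero K := algebraRat.charZero K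
  have hcast : algebraMap ℚ K s = (s.num : K) / (s.den : K) := by
    rw [eq_ratCast]; exact Rat.cast_def s
  have hden0 : (s.den : K) ≠ 0 := by exact_mod_cast s.den_ne_zero
  -- the denominator is odd
  have hden : ¬ 2 ∣ s.den := by
    intro hd
    have hnum : ¬ (2 : ℤ) ∣ s.num := by
      intro hn
      have h1 : (2 : ℕ) ∣ s.num.natAbs := Int.natCast_dvd.mp (by exact_mod_cast hn)
      have := Nat.dvd_gcd h1 hd
      rw [s.reduced] at this
      norm_num at this
    obtain ⟨hnA, hnu, hn0⟩ := intCast_odd_unit (K := K) A hA hnum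
    have hdm : (s.den : K) ∈ A.nonunits := by
      have := intCast_mem_nonunits (K := K) A hA (z := (s.den : ℤ)) (by exact_mod_cast hd)
      simpa using this
    apply hnu
    have : (s.num : K) = algebraMap ℚ K s * (s.den : K) := by
      rw [hcast]; field_simp
    rw [this]
    exact mul_mem_nonunits_right hs hdm
  have hdinv : ((s.den : K))⁻¹ ∈ A := inv_natCast_mem A Nat.prime_two hA hden
  by_cases hnum : (2 : ℤ) ∣ s.num
  · left
    rw [hcast, div_eq_mul_inv]
    exact mul_mem_nonunits_left (intCast_mem_nonunits A hA (by exact_mod_cast hnum)) hdinv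
  · right
    have h2 : (2 : ℤ) ∣ s.num - s.den := by
      have h1 : ¬ (2 : ℤ) ∣ (s.den : ℤ) := by exact_mod_cast hden
      omega
    have : algebraMap ℚ K s - 1 = ((s.num - s.den : ℤ) : K) * ((s.den : K))⁻¹ := by
      rw [hcast]; push_cast; field_simp
    rw [this]
    exact mul_mem_nonunits_left (intCast_mem_nonunits A hA (by exact_mod_cast h2)) hdinv

end Basic

section Rational

variable {K : Type*} [Field K] [DecidableEq K] [Algebra ℚ K] [IsAlgClosed K]
  [Algebra.IsAlgebraic ℚ K]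

/-- the coordinates of a Galois-fixed point are rational -/
theorem coords_rational {W' : Affine ℚ} {x y : K} (h : (W'⁄K).Nonsingular x y)
    (hσ : ∀ σ : K ≃ₐ[ℚ] K, σ • Point.some x y h = Point.some x y h) :
    (∃ r : ℚ, algebraMap ℚ K r = x) ∧ ∃ s : ℚ, algebraMap ℚ K s = y := by
  have key : ∀ σ : K ≃ₐ[ℚ] K, σ x = x ∧ σ y = y := by
    intro σ
    have := hσ σ
    rw [smul_some, Point.some.injEq] at this
    exact this
  exact ⟨exists_rat_of_forall_fixed x fun σ => (key σ).1,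
    exists_rat_of_forall_fixed y fun σ => (key σ).2⟩

variable {A : ValuationSubring K} (hA : ((2 : ℕ) : K) ∈ A.nonunits) {W' : Affine ℚ}
  {C : GNodeCtx K A} {α β : K} (hM : C.IsModel (W'⁄K) α β) {p : ℕ} (hpodd : Odd p)
  (hR1 : ∀ {x y : K} (h : (W'⁄K).Nonsingular x y), p • Point.some x y h = 0 → x ∈ A ∧ y ∈ A)

include hA hM hR1 in
/-- the shape of a rational `p`-torsion point with nonsingular reduction -/
theorem rational_point_data {Q : (W'⁄K).Point} (hQ0 : Q ≠ 0) (hQp : p • Q = 0)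
    (hQd : C.depthPt α Q = 0) (hQσ : ∀ σ : K ≃ₐ[ℚ] K, σ • Q = Q) :
    ∃ (x y : K) (h : (W'⁄K).Nonsingular x y), Q = Point.some x y h ∧ x ∈ A ∧ y ∈ A ∧
      x ∉ A.nonunits ∧ x - 1 ∈ A.nonunits ∧ (y ∈ A.nonunits ∨ y - 1 ∈ A.nonunits) := by
  rcases Q with _ | ⟨x, y, h⟩
  · exact absurd rfl hQ0
  obtain ⟨hxA, hyA⟩ := hR1 h hQp
  rw [GNodeCtx.depthPt_some, GNodeCtx.depth_eq_zero_iff] at hQd
  obtain ⟨⟨r, hr⟩, ⟨s, hs⟩⟩ := coords_rational h hQσ
  refine ⟨x, y, h, rfl, hxA, hyA, hQd, ?_, ?_⟩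
  · have := ratCast_mem_nonunits_or A hA r (hr ▸ hxA)
    rw [hr] at this
    exact this.resolve_left hQd
  · have := ratCast_mem_nonunits_or A hA s (hs ▸ hyA)
    rw [hs] at this
    exact this

include hM hpodd hR1 in
/-- two `p`-torsion points with nonsingular reduction, `x ≡ x' ≡ 1` and `y ≡ y'`, are equal -/
theorem eq_of_congr {x y x' y' : K} (h : (W'⁄K).Nonsingular x y) (h' : (W'⁄K).Nonsingular x' y')
    (ht : p • Point.some x y h = 0) (ht' : p • Point.some x' y' h' = 0)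
    (hxA : x ∈ A) (hyA : y ∈ A) (hx : x ∉ A.nonunits) (hx1 : x - 1 ∈ A.nonunits)
    (hx1' : x' - 1 ∈ A.nonunits) (hyy' : y' - y ∈ A.nonunits) :
    Point.some x' y' h' = Point.some x y h := by
  have hI := hM.isIntegralCurve
  have hxx' : x' - x ∈ A.nonunits := by
    have : x' - x = (x' - 1) - (x - 1) := by ring
    rw [this]
    exact A.nonunits.sub_mem hx1' hx1
  exact eq_of_nonsingular_red hI.a₁ hI.a₂ hI.a₃ hR1 hpodd h h' hxA hyA hxx' hyy'
    (hM.not_partials_mem hxA hyA hx h.1) ht ht'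

include hA hM hpodd hR1 in
/-- a nonzero rational `p`-torsion point (`p ≥ 5` prime) of a nodal model over `2` cannot have
nonsingular reduction: `Q, 2Q, 3Q` would reduce to the two points `(1, 0), (1, 1)`. -/
theorem no_rational_torsion_zero (hp : p.Prime) (hp5 : 5 ≤ p) {Q : (W'⁄K).Point} (hQ0 : Q ≠ 0)
    (hQp : p • Q = 0) (hQσ : ∀ σ : K ≃ₐ[ℚ] K, σ • Q = Q) (hQd : C.depthPt α Q = 0) : False := by
  have hord : ∀ k : ℕ, 0 < k → k < p → k • Q ≠ 0 := by
    intro k hk0 hkp hk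
    have h1 : addOrderOf Q ∣ p := addOrderOf_dvd_of_nsmul_eq_zero hQp
    have h2 : addOrderOf Q ∣ k := addOrderOf_dvd_of_nsmul_eq_zero hk
    rcases (Nat.dvd_prime hp).mp h1 with h | h
    · exact hQ0 (AddMonoid.addOrderOf_eq_one_iff.mp h)
    · rw [h] at h2
      exact absurd (Nat.le_of_dvd hk0 h2) (not_le.mpr hkp)
  have hmem : Q ∈ hM.torsionZero hR1 := ⟨hQp, hQd⟩
  have hk : ∀ k : ℕ, 0 < k → k < p → ∃ (x y : K) (h : (W'⁄K).Nonsingular x y),
      k • Q = Point.some x y h ∧ x ∈ A ∧ y ∈ A ∧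
      x ∉ A.nonunits ∧ x - 1 ∈ A.nonunits ∧ (y ∈ A.nonunits ∨ y - 1 ∈ A.nonunits) := by
    intro k hk0 hkp
    have hmemk := (hM.torsionZero hR1).nsmul_mem hmem k
    refine rational_point_data hA hM hR1 (hord k hk0 hkp) hmemk.1 hmemk.2 (fun σ => ?_)
    rw [Point.algEquiv_smul_def, map_nsmul, ← Point.algEquiv_smul_def, hQσ]
  have hdist : ∀ i j : ℕ, 0 < i → i < j → j < p → i • Q ≠ j • Q := by
    intro i j hi hij hj h
    have : j • Q = (j - i) • Q + i • Q := by rw [← add_nsmul]; congr 1; omega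
    rw [← h] at this
    have h0 : (j - i) • Q = 0 := by
      have h' : (j - i) • Q + i • Q = 0 + i • Q := by rw [zero_add]; exact this.symm
      exact add_right_cancel h'
    exact hord (j - i) (by omega) (by omega) h0
  obtain ⟨x₁, y₁, h₁, e₁, hx₁A, hy₁A, hx₁, hx₁', hy₁⟩ := hk 1 (by norm_num) (by omega)
  obtain ⟨x₂, y₂, h₂, e₂, hx₂A, hy₂A, hx₂, hx₂', hy₂⟩ := hk 2 (by norm_num) (by omega)
  obtain ⟨x₃, y₃, h₃, e₃, hx₃A, hy₃A, hx₃, hx₃', hy₃⟩ := hk 3 (by norm_num) (by omega)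
  have ht : ∀ k : ℕ, p • (k • Q) = 0 := fun k => by rw [smul_comm, hQp, smul_zero]
  have t₁ : p • Point.some x₁ y₁ h₁ = 0 := e₁ ▸ ht 1
  have t₂ : p • Point.some x₂ y₂ h₂ = 0 := e₂ ▸ ht 2
  have t₃ : p • Point.some x₃ y₃ h₃ = 0 := e₃ ▸ ht 3
  have hsame : ∀ y y' : K, (y ∈ A.nonunits ∧ y' ∈ A.nonunits) ∨
      (y - 1 ∈ A.nonunits ∧ y' - 1 ∈ A.nonunits) → y' - y ∈ A.nonunits := by
    rintro y y' (⟨h, h'⟩ | ⟨h, h'⟩)
    · exact A.nonunits.sub_mem h' h
    · have : y' - y = (y' - 1) - (y - 1) := by ring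
      rw [this]
      exact A.nonunits.sub_mem h' h
  have hpair : y₂ - y₁ ∈ A.nonunits ∨ y₃ - y₁ ∈ A.nonunits ∨ y₃ - y₂ ∈ A.nonunits := by
    rcases hy₁ with a | a <;> rcases hy₂ with b | b <;> rcases hy₃ with c | c
    · exact Or.inl (hsame _ _ (Or.inl ⟨a, b⟩))
    · exact Or.inl (hsame _ _ (Or.inl ⟨a, b⟩))
    · exact Or.inr (Or.inl (hsame _ _ (Or.inl ⟨a, c⟩)))
    · exact Or.inr (Or.inr (hsame _ _ (Or.inr ⟨b, c⟩)))
    · exact Or.inr (Or.inr (hsame _ _ (Or.inl ⟨b, c⟩)))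
    · exact Or.inr (Or.inl (hsame _ _ (Or.inr ⟨a, c⟩)))
    · exact Or.inl (hsame _ _ (Or.inr ⟨a, b⟩))
    · exact Or.inl (hsame _ _ (Or.inr ⟨a, b⟩))
  rcases hpair with h | h | h
  · have := eq_of_congr hM hpodd hR1 h₁ h₂ t₁ t₂ hx₁A hy₁A hx₁ hx₁' hx₂' h
    rw [← e₁, ← e₂] at this
    exact hdist 1 2 (by norm_num) (by norm_num) (by omega) this.symm
  · have := eq_of_congr hM hpodd hR1 h₁ h₃ t₁ t₃ hx₁A hy₁A hx₁ hx₁' hx₃' h
    rw [← e₁, ← e₃] at this
    exact hdist 1 3 (by norm_num) (by norm_num) (by omega) this.symm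
  · have := eq_of_congr hM hpodd hR1 h₂ h₃ t₂ t₃ hx₂A hy₂A hx₂ hx₂' hx₃' h
    rw [← e₂, ← e₃] at this
    exact hdist 2 3 (by norm_num) (by norm_num) (by omega) this.symm

end Rational

section Frey

variable (P : FreyPackage) {K : Type*} [Field K] [DecidableEq K] [Algebra ℚ K] [IsAlgClosed K]
  [Algebra.IsAlgebraic ℚ K]

/-- **(3b)**: a point of `E[p](K)` of the Frey curve fixed by the whole Galois group is zero;
i.e. the Frey curve has no rational point of order `p`. -/
theorem frey_no_fixed_torsion (x : Submodule.torsionBy ℤ (P.freyCurve.toAffine⁄K).Point P.p)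
    (hx : ∀ σ : K ≃ₐ[ℚ] K, σ • x = x) : x = 0 := by
  by_contra hx0
  have : CharZero K := algebraRat.charZero K
  obtain ⟨A, hA'⟩ := exists_valuationSubring_over_two (K := K)
  obtain ⟨C, α, β, N, hL, hn, hpN, hM⟩ := exists_frey_nodeCtx P A hA'
  have hR1 : ∀ {x y : K} (h : ((freyVC2 P • P.freyCurve).toAffine⁄K).Nonsingular x y),
      P.p • Point.some x y h = 0 → x ∈ A ∧ y ∈ A := frey_hR1 P hA' hM
  obtain ⟨Q, hQdef⟩ : ∃ Q, Q = (vcPtBaseChange P.freyCurve (freyVC2 P) K).symm x.1 := ⟨_, rfl⟩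
  have hQ0 : Q ≠ 0 := by
    intro h0
    apply hx0
    apply Subtype.ext
    have := congrArg (vcPtBaseChange P.freyCurve (freyVC2 P) K) h0
    rw [hQdef, AddEquiv.apply_symm_apply, map_zero] at this
    exact this
  have hQp : P.p • Q = 0 := by
    rw [hQdef, ← map_nsmul]
    have := x.2
    rw [Submodule.mem_torsionBy_iff, natCast_zsmul] at this
    rw [this, map_zero]
  have hQσ : ∀ σ : K ≃ₐ[ℚ] K, σ • Q = Q := by
    intro σ
    rw [hQdef, ← symm_vcPtBaseChange_smul]
    congr 1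
    exact congrArg Subtype.val (hx σ)
  by_cases hd : C.depthPt α Q = 0
  · exact no_rational_torsion_zero hA' hM P.hp_odd hR1 P.pp P.hp5 hQ0 hQp hQσ hd
  · -- near the node
    rcases Q with _ | ⟨x', y', h'⟩
    · exact hQ0 rfl
    rw [GNodeCtx.depthPt_some, GNodeCtx.depth_eq_zero_iff, not_not] at hd
    obtain ⟨hx0', h2w, m, hm⟩ := hM.torsion_near_node P.hp_odd hR1 h' hQp hd
    obtain ⟨⟨r, hr⟩, -⟩ := coords_rational h' hQσ
    have hr0 : r ≠ 0 := by
      rintro rfl
      rw [map_zero] at hr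
      exact hx0' hr.symm
    obtain ⟨j, hj⟩ := exists_w_ratCast A hA' C.L hL hr0
    rw [hr] at hj
    have hjpos : 0 < C.L.w x' := C.L.pos_of_mem_nonunits hx0' hd
    rw [hn, hj] at hm h2w
    rw [hj] at hjpos
    have hm' : (P.p : ℤ) * j = m * N := by exact_mod_cast hm
    have h2w' : 2 * j < N := by exact_mod_cast h2w
    have hjpos' : 0 < j := by exact_mod_cast hjpos
    have hpm : (P.p : ℤ) ∣ m := by
      rcases (Nat.prime_iff_prime_int.mp P.pp).dvd_or_dvd ⟨j, hm'.symm⟩ with h | h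
      · exact h
      · exact absurd h hpN
    obtain ⟨m', rfl⟩ := hpm
    have hp0 : (P.p : ℤ) ≠ 0 := by exact_mod_cast P.hp0
    have hjm : j = m' * N := by
      apply mul_left_cancel₀ hp0
      rw [hm']; ring
    have hN : 0 < N := by omega
    rcases le_or_gt m' 0 with h | h
    · nlinarith
    · nlinarith

end Frey

end Fermat.Agent.S13
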