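import Mathlib
import Fermat.Prelude.Def_FLTPrelim_CofixedLine
import Fermat.Prelude.Def_FLTPrelim_Ramification
import Fermat.Agent.S13.P1_helper5
import Fermat.Agent.EC.Tors_helper6_Dagger
import Fermat.Agent.EC.Tors_helper6_Frey
import Fermat.Agent.Tate.LogValExists
import Fermat.Agent.Tate.Frey_helper7

/-!
# S13, `(I-p)`: the dichotomy at `p` from `(C1')` (helper6)

On the Frey model `W = P.freyCurve⁄ℚ̄` (integral at every `A` over the odd prime `p`), with
`E₁ = kerRed` and `L₁ = E[p] ∩ E₁`: for an `I_A`-stable line `N ⊆ E[p]`,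

* if `N ⊆ L₁` then `L₁ = N` (from `(†')`: `-2 ≤ ∑_{L₁∖0} w(x)` and `(P-1)`: `∑_{N∖0} w(x) ≤ -2`,
  all terms negative), and `(C1')` gives `σ x - x ∈ L₁ = N` for `x ∉ N`;
* otherwise `N ∩ L₁ = 0` and `(C1')` gives `σ x - x ∈ N ∩ L₁ = 0` for `x ∈ N`.
-/

set_option autoImplicit false

open WeierstrassCurve WeierstrassCurve.Affine WeierstrassCurve.Affine.Point

namespace Fermat.Agent.S13

open Fermat.Agent.CFT.S14 Fermat.Agent.Tate

/-- a proper nonzero subspace of a plane is a line -/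
theorem ip_finrank_eq_one {F V : Type*} [Field F] [AddCommGroup V] [Module F V]
    (hV : Module.finrank F V = 2) (N : Submodule F V) (hbot : N ≠ ⊥) (htop : N ≠ ⊤) :
    Module.finrank F N = 1 := by
  have : FiniteDimensional F V := Module.finite_of_finrank_pos (by omega)
  have hlt : Module.finrank F N < 2 := hV ▸ Submodule.finrank_lt htop
  have hpos : 0 < Module.finrank F N := by
    rw [Module.finrank_pos_iff]
    exact Submodule.nontrivial_iff_ne_bot.mpr hbot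
  omega

/-- the Frey model is integral at every valuation subring over an odd prime -/
theorem frey_isIntegralCurve (P : FreyPackage) (A : ValuationSubring Qbar) {q : ℕ} (hq : q.Prime)
    (hq2 : q ≠ 2) (hA : A.LiesOverPrime q) : IsIntegralCurve A (P.freyCurve⁄Qbar) where
  a₁ := freyCurve_a₁_mem P A
  a₂ := freyCurve_a₂_mem P A hq hq2 hA
  a₃ := freyCurve_a₃_mem P A
  a₄ := freyCurve_a₄_mem P A hq hq2 hA
  a₆ := freyCurve_a₆_mem P A

/-- the `p`-torsion of the Frey curve -/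
abbrev IpTors (P : FreyPackage) : Type :=
  Submodule.torsionBy ℤ (P.freyCurve⁄Qbar).Point P.p

theorem ipTors_nsmul (P : FreyPackage) (x : IpTors P) : P.p • (x : (P.freyCurve⁄Qbar).Point) = 0 := by
  have := x.2
  rw [Submodule.mem_torsionBy_iff, natCast_zsmul] at this
  exact this

theorem ipTors_coe_zmod_smul (P : FreyPackage) (c : ZMod P.p) (x : IpTors P) :
    ((c • x : IpTors P) : (P.freyCurve⁄Qbar).Point) = c.val • (x : (P.freyCurve⁄Qbar).Point) := by
  have : NeZero P.p := ⟨P.hp0⟩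
  conv_lhs => rw [← ZMod.natCast_zmod_val c, Nat.cast_smul_eq_nsmul]
  rfl

theorem ipTors_coe_smul (P : FreyPackage) (σ : GQ) (x : IpTors P) :
    ((σ • x : IpTors P) : (P.freyCurve⁄Qbar).Point) = σ • (x : (P.freyCurve⁄Qbar).Point) := rfl

/-- **`(I-p)` from `(C1')`.** -/
theorem frey_inertia_at_p_of_C1 (P : FreyPackage) (A : ValuationSubring Qbar)
    (hA : A.LiesOverPrime P.p) (hW : IsIntegralCurve A (P.freyCurve⁄Qbar))
    (hC1 : ∀ Q : (P.freyCurve⁄Qbar).Point, P.p • Q = 0 →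
      (∀ j : ℕ, j • Q ∈ kerRed hW → j • Q = 0) →
      ∀ σ ∈ A.inertiaSubgroupIn ℚ, σ • Q - Q ∈ kerRed hW)
    (N : Submodule (ZMod P.p) (IpTors P)) (hN : IsGaloisStable ℚ N) (hbot : N ≠ ⊥) (htop : N ≠ ⊤) :
    (∀ σ ∈ A.inertiaSubgroupIn ℚ, ∀ x ∈ N, σ • x = x) ∨
      (∀ σ ∈ A.inertiaSubgroupIn ℚ, ∀ x : IpTors P, σ • x - x ∈ N) := by
  classical
  have : Fact P.p.Prime := ⟨P.pp⟩
  have hfin : Finite (IpTors P) := Fermat.Agent.EC.frey_finite_torsionBy P
  have : Fintype (IpTors P) := Fintype.ofFinite _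
  have hp2 : P.p ≠ 2 := Fermat.Agent.EC.frey_p_ne_two P
  have hrank : Module.finrank (ZMod P.p) N = 1 :=
    ip_finrank_eq_one (Fermat.Agent.EC.frey_finrank_torsionBy P) N hbot htop
  have : CharZero Qbar := algebraRat.charZero Qbar
  obtain ⟨L, hL⟩ := exists_logVal A P.pp hA
  -- membership in `E₁` means non-integral `x`
  have hker : ∀ Q : (P.freyCurve⁄Qbar).Point, Q ≠ 0 →
      (Q ∈ kerRed hW ↔ Fermat.Agent.EC.xOf Q ∉ A) := by
    intro Q hQ
    rcases Q with _ | ⟨x, y, h⟩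
    · exact absurd rfl hQ
    · exact some_mem_kerRed_iff hW
  by_cases hNL : ∀ x ∈ N, (x : (P.freyCurve⁄Qbar).Point) ∈ kerRed hW
  · -- `N ⊆ L₁`, hence `L₁ = N`
    right
    have hL1 : ∀ y : IpTors P, (y : (P.freyCurve⁄Qbar).Point) ∈ kerRed hW → y ∈ N := by
      set S₁ : Finset (P.freyCurve⁄Qbar).Point :=
        (Finset.univ.filter (fun y : IpTors P =>
          y ≠ 0 ∧ (y : (P.freyCurve⁄Qbar).Point) ∈ kerRed hW)).image Subtype.val with hS₁
      set SN : Finset (P.freyCurve⁄Qbar).Point :=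
        (Finset.univ.filter (fun y : IpTors P => y ≠ 0 ∧ y ∈ N)).image Subtype.val with hSN
      have hmem₁ : ∀ Q, Q ∈ S₁ ↔ ∃ y : IpTors P, (y ≠ 0 ∧
          (y : (P.freyCurve⁄Qbar).Point) ∈ kerRed hW) ∧ (y : (P.freyCurve⁄Qbar).Point) = Q := by
        intro Q
        simp [hS₁]
      have hmemN : ∀ Q, Q ∈ SN ↔ ∃ y : IpTors P, (y ≠ 0 ∧ y ∈ N) ∧
          (y : (P.freyCurve⁄Qbar).Point) = Q := by
        intro Q
        simp [hSN]
      have hsub : SN ⊆ S₁ := by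
        intro Q hQ
        obtain ⟨y, ⟨hy0, hyN⟩, rfl⟩ := (hmemN Q).mp hQ
        exact (hmem₁ _).mpr ⟨y, ⟨hy0, hNL y hyN⟩, rfl⟩
      have hS₁prop : ∀ Q ∈ S₁, P.p • Q = 0 ∧ Q ≠ 0 ∧ Fermat.Agent.EC.xOf Q ∉ A := by
        intro Q hQ
        obtain ⟨y, ⟨hy0, hyE⟩, rfl⟩ := (hmem₁ Q).mp hQ
        have hy0' : (y : (P.freyCurve⁄Qbar).Point) ≠ 0 := fun h => hy0 (Subtype.ext h)
        exact ⟨ipTors_nsmul P y, hy0', (hker _ hy0').mp hyE⟩
      have hneg : ∀ Q ∈ S₁, L.w (Fermat.Agent.EC.xOf Q) < 0 := by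
        intro Q hQ
        obtain ⟨-, -, hx⟩ := hS₁prop Q hQ
        have hx0 : Fermat.Agent.EC.xOf Q ≠ 0 := fun h0 => hx (h0 ▸ A.zero_mem)
        by_contra hge
        exact hx ((L.nonneg_iff hx0).mp (not_lt.mp hge))
      have hSNne : SN.Nonempty := by
        obtain ⟨y, hyN, hy0⟩ := Submodule.exists_mem_ne_zero_of_ne_bot hbot
        exact ⟨y, (hmemN _).mpr ⟨y, ⟨hy0, hyN⟩, rfl⟩⟩
      have hP1 := sum_logVal_xOf_le_neg_two P.pp A hA L hL P.freyCurve hW SN hSNne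
        (fun Q hQ => (hS₁prop Q (hsub hQ)).2)
        (fun σ hσ Q hQ => by
          obtain ⟨y, ⟨hy0, hyN⟩, rfl⟩ := (hmemN Q).mp hQ
          refine (hmemN _).mpr ⟨σ • y, ⟨?_, hN σ y hyN⟩, rfl⟩
          intro h0
          apply hy0
          have := congrArg (fun z => σ⁻¹ • z) h0
          simpa using this)
      have hD := Fermat.Agent.EC.neg_two_mul_logVal_le_sum A hW P.pp hp2 L S₁ hS₁prop
      rw [hL] at hD
      have hsplit : ∑ Q ∈ S₁, L.w (Fermat.Agent.EC.xOf Q) =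
          ∑ Q ∈ S₁ \ SN, L.w (Fermat.Agent.EC.xOf Q) + ∑ Q ∈ SN, L.w (Fermat.Agent.EC.xOf Q) :=
        (Finset.sum_sdiff hsub).symm
      have hempty : S₁ \ SN = ∅ := by
        by_contra hne
        have hne' : (S₁ \ SN).Nonempty := Finset.nonempty_iff_ne_empty.mpr hne
        have hlt : ∑ Q ∈ S₁ \ SN, L.w (Fermat.Agent.EC.xOf Q) < 0 :=
          Finset.sum_neg (fun Q hQ => hneg Q (Finset.mem_sdiff.mp hQ).1) hne'
        linarith
      intro y hyE
      by_cases hy0 : y = 0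
      · rw [hy0]; exact N.zero_mem
      have hyS₁ : (y : (P.freyCurve⁄Qbar).Point) ∈ S₁ := (hmem₁ _).mpr ⟨y, ⟨hy0, hyE⟩, rfl⟩
      have hySN : (y : (P.freyCurve⁄Qbar).Point) ∈ SN := by
        by_contra hnot
        have : (y : (P.freyCurve⁄Qbar).Point) ∈ S₁ \ SN := Finset.mem_sdiff.mpr ⟨hyS₁, hnot⟩
        rw [hempty] at this
        exact absurd this (Finset.notMem_empty _)
      obtain ⟨y', ⟨-, hy'N⟩, hy'⟩ := (hmemN _).mp hySN
      have : y' = y := Subtype.ext hy'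
      rw [← this]; exact hy'N
    intro σ hσ x
    by_cases hxN : x ∈ N
    · exact N.sub_mem (hN σ x hxN) hxN
    · apply hL1
      show σ • (x : (P.freyCurve⁄Qbar).Point) - (x : (P.freyCurve⁄Qbar).Point) ∈ kerRed hW
      refine hC1 _ (ipTors_nsmul P x) ?_ σ hσ
      intro j hj
      by_cases hj0 : (j : ZMod P.p) = 0
      · have h1 : (j : ZMod P.p) • x = 0 := by rw [hj0, zero_smul]
        rw [Nat.cast_smul_eq_nsmul] at h1
        exact congrArg Subtype.val h1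
      · exfalso
        apply hxN
        have h1 : (j • x : IpTors P) ∈ N := hL1 (j • x) hj
        rw [← Nat.cast_smul_eq_nsmul (ZMod P.p)] at h1
        have h2 := N.smul_mem ((j : ZMod P.p)⁻¹) h1
        rwa [smul_smul, inv_mul_cancel₀ hj0, one_smul] at h2
  · -- `N ∩ L₁ = 0`
    left
    push Not at hNL
    obtain ⟨x₀, hx₀N, hx₀E⟩ := hNL
    have hzero : ∀ y ∈ N, (y : (P.freyCurve⁄Qbar).Point) ∈ kerRed hW → y = 0 := by
      intro y hyN hyE
      by_contra hy0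
      have hy0' : (⟨y, hyN⟩ : N) ≠ 0 := fun h => hy0 (congrArg Subtype.val h)
      obtain ⟨c, hc⟩ := (finrank_eq_one_iff_of_nonzero' (⟨y, hyN⟩ : N) hy0').mp hrank ⟨x₀, hx₀N⟩
      have hc' : c • y = x₀ := congrArg Subtype.val hc
      apply hx₀E
      rw [← hc', ipTors_coe_zmod_smul]
      exact (kerRed hW).nsmul_mem hyE _
    intro σ hσ x hxN
    have hd : σ • x - x ∈ N := N.sub_mem (hN σ x hxN) hxN
    have hE : ((σ • x - x : IpTors P) : (P.freyCurve⁄Qbar).Point) ∈ kerRed hW := by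
      show σ • (x : (P.freyCurve⁄Qbar).Point) - (x : (P.freyCurve⁄Qbar).Point) ∈ kerRed hW
      refine hC1 _ (ipTors_nsmul P x) ?_ σ hσ
      intro j hj
      have h1 : (j • x : IpTors P) ∈ N := N.nsmul_mem hxN j
      exact congrArg Subtype.val (hzero (j • x) h1 hj)
    exact sub_eq_zero.mp (hzero _ hd hE)

end Fermat.Agent.S13
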